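import Fermat.Agent.Mazur.FreyInertia

/-!
A cofixed line cannot lie in the component of the origin at every bad place.
-/

set_option autoImplicit false

noncomputable section

open scoped WeierstrassCurve.Affine

namespace FermatAgent.Mazur

open WeierstrassCurve WeierstrassCurve.Affine WeierstrassCurve.Affine.Point FermatAgent.LocalP
open FermatAgent.Local

local notation "Qb" => AlgebraicClosure ℚ

lemma rat_sq_eq_one {r : ℚ}
    (h : ∀ q : ℕ, q.Prime → ∃ A : ValuationSubring (AlgebraicClosure ℚ),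
      A.LiesOverPrime q ∧ A.valuation (algebraMap ℚ Qb r) = 1) : r ^ 2 = 1 := by
  have h1 : r.num.natAbs = 1 := by
    by_contra hne
    obtain ⟨q, hq, hqd⟩ := Nat.exists_prime_and_dvd hne
    obtain ⟨A, hA, hv⟩ := h q hq
    exact ((val_rat_lt_iff hq hA r).2 (Int.natCast_dvd.2 hqd)).ne hv
  have h2 : r.den = 1 := by
    by_contra hne
    obtain ⟨q, hq, hqd⟩ := Nat.exists_prime_and_dvd hne
    obtain ⟨A, hA, hv⟩ := h q hq
    have he := congrArg (fun z : ℚ => A.valuation (algebraMap ℚ Qb z)) (Rat.mul_den_eq_num r)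
    simp only [map_mul, hv, one_mul, map_intCast, map_natCast] at he
    have hlt : A.valuation ((r.den : ℤ) : Qb) < 1 :=
      (val_intCast_lt_one_iff hq hA _).2 (Int.natCast_dvd_natCast.2 hqd)
    rw [Int.cast_natCast, he, val_intCast_lt_one_iff hq hA] at hlt
    exact hq.not_dvd_one (r.reduced.gcd_eq_one ▸ Nat.dvd_gcd (Int.natCast_dvd.mp hlt) hqd)
  rw [← Rat.num_div_den r, h2]
  rcases Int.natAbs_eq r.num with h | h <;> rw [h, h1] <;> simp

lemma abs_sub_pow_le {p : ℕ} (hp : Odd p) (x y : ℤ) :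
    |x - y| ^ p ≤ 2 ^ (p - 1) * |x ^ p - y ^ p| := by
  have h2 : (1 : ℤ) ≤ 2 ^ (p - 1) := one_le_pow₀ (by norm_num)
  have same : ∀ a b : ℤ, 0 ≤ b → b ≤ a → |a - b| ^ p ≤ 2 ^ (p - 1) * |a ^ p - b ^ p| := by
    intro a b hb hab
    have h := pow_add_pow_le (sub_nonneg.2 hab) hb hp.pos.ne'
    rw [sub_add_cancel] at h
    rw [abs_of_nonneg (sub_nonneg.2 hab),
      abs_of_nonneg (sub_nonneg.2 (pow_le_pow_left₀ hb hab p))]
    refine le_trans ?_ (le_mul_of_one_le_left (sub_nonneg.2 (pow_le_pow_left₀ hb hab p)) h2)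
    linarith
  have opp : ∀ a b : ℤ, 0 ≤ a → b ≤ 0 → |a - b| ^ p ≤ 2 ^ (p - 1) * |a ^ p - b ^ p| := by
    intro a b ha hb
    have h := add_pow_le ha (neg_nonneg.2 hb) p
    rw [← sub_eq_add_neg, hp.neg_pow, ← sub_eq_add_neg] at h
    rw [abs_of_nonneg (by linarith), abs_of_nonneg
      (by have := pow_nonneg ha p; have := hp.pow_nonpos_iff.2 hb; linarith)]
    exact h
  have flip : ∀ a b : ℤ, |(-a) - (-b)| = |a - b| ∧ |(-a) ^ p - (-b) ^ p| = |a ^ p - b ^ p| := by
    intro a b
    rw [hp.neg_pow, hp.neg_pow]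
    constructor <;> rw [← abs_neg] <;> ring_nf
  rcases le_total 0 x with hx | hx <;> rcases le_total 0 y with hy | hy
  · rcases le_total y x with h | h
    · exact same x y hy h
    · rw [abs_sub_comm, abs_sub_comm (x ^ p)]; exact same y x hx h
  · exact opp x y hx hy
  · rw [abs_sub_comm, abs_sub_comm (x ^ p)]; exact opp y x hy hx
  · rcases le_total x y with h | h
    · have := same (-x) (-y) (by linarith) (by linarith)
      rwa [(flip x y).1, (flip x y).2] at this
    · have := same (-y) (-x) (by linarith) (by linarith)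
      rw [(flip y x).1, (flip y x).2] at this
      rwa [abs_sub_comm, abs_sub_comm (x ^ p)]

variable {P : FreyPackage} {p : ℕ} [hpf : Fact p.Prime] (D : FreyLine P p)

/-- The criterion. -/
theorem FreyLine.false_of_inAt (hin : ∀ ℓ : ℕ, ℓ.Prime → (ℓ : ℤ) ∣ P.a * P.b * P.c →
    ∀ A : ValuationSubring Qb, A.LiesOverPrime ℓ → D.InAt A) : False := by
  set S₀ := freySplit P with hS₀
  set K := D.L.H.card with hK
  have hK2 := D.L.two_mul_card
  have r0 : IsRot P S₀ := Or.inl rfl
  obtain ⟨r1, hr1⟩ := D.hv_rat r0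
  obtain ⟨r2, hr2⟩ := D.hv_rat r0.rot
  obtain ⟨r3, hr3⟩ := D.hv_rat r0.rot.rot
  have h20 : r2 ≠ 0 := fun h => D.L.hv_ne_zero S₀.rot (by rw [← hr2, h, _root_.map_zero])
  -- equal valuations at every place
  have hval : ∀ q : ℕ, q.Prime → ∀ A : ValuationSubring Qb, A.LiesOverPrime q →
      A.valuation (D.L.hv S₀.rot.rot) = A.valuation (D.L.hv S₀.rot) ∧
      A.valuation ((4 : Qb) ^ K * D.L.hv S₀) = A.valuation (D.L.hv S₀.rot) := by
    intro q hq A hA
    rw [map_mul, map_pow]
    by_cases hbad : (q : ℤ) ∣ P.a * P.b * P.c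
    · obtain ⟨S, hrot, hS⟩ := exists_node P hq hbad
      obtain ⟨-, -, he2, he3⟩ := D.hv_in hq hA hrot (hS A hA) (hin q hq hbad A hA)
      by_cases h2 : q = 2
      · subst h2
        have hS2 : S = S₀.rot := by
          have hN := hS A hA
          have h4 : A.valuation (4 : Qb) < 1 := by
            rw [show (4 : Qb) = ((2 : ℕ) : Qb) * ((2 : ℕ) : Qb) by norm_num, map_mul]
            exact val_mul_lt_one_of_lt_of_le (val_natCast_lt_one hA) (val_natCast_lt_one hA).le
          rcases hrot with rfl | rfl | rfl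
          · exfalso
            have hb : A.valuation ((P.a : Qb) ^ P.p) = 1 := by
              rw [map_pow, val_intCast_eq_one hq hA, one_pow]
              intro ha
              have := dvd_gcd ha ((ZMod.intCast_zmod_eq_zero_iff_dvd P.b 2).1 P.hb2)
              rw [P.hgcdab] at this
              exact absurd this (by norm_num)
            have := val_le_one_of_mem hN.e_mem
            simp only [freySplit, map_div₀, hb, one_div] at this
            exact absurd this (not_le.2 ((one_lt_inv₀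
              (zero_lt_iff.2 ((_root_.map_ne_zero _).2 (by norm_num)))).2 h4))
          · rfl
          · exfalso
            have hfar := hN.far
            simp only [freySplit, Split.rot] at hfar
            rw [show 4 * (-((P.b : Qb) ^ P.p) / 4 - 0) = -((P.b : Qb) ^ P.p) by ring,
              Valuation.map_neg, map_pow] at hfar
            exact (pow_lt_one₀ zero_le ((val_intCast_lt_one_iff hq hA _).2
              ((ZMod.intCast_zmod_eq_zero_iff_dvd P.b 2).1 P.hb2)) P.hp0).ne hfar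
        subst hS2
        simp only [Split.rot_rot_rot] at he2 he3
        refine ⟨he2, ?_⟩
        rw [he3, mul_left_comm, ← mul_pow, ← map_mul, (hS A hA).far, one_pow, mul_one]
      · have h4 := val_four_eq_one hq hA h2
        rw [h4, one_pow, one_mul]
        have hfar := (hS A hA).far
        rw [map_mul, h4, one_mul] at hfar
        rw [hfar, one_pow, mul_one] at he3
        rcases hrot with rfl | rfl | rfl
        · exact ⟨he3.trans he2.symm, he2.symm⟩
        · simp only [← hS₀, Split.rot_rot_rot] at he2 he3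
          exact ⟨he2, he3⟩
        · simp only [← hS₀, Split.rot_rot_rot] at he2 he3
          exact ⟨he3.symm, he2.trans he3.symm⟩
    · have h2 : q ≠ 2 := fun e => hbad (e ▸ P.two_dvd_abc)
      rw [val_four_eq_one hq hA h2, one_pow, one_mul]
      have h := fun (S : Split (freyQb P)) (hS : IsRot P S) =>
        show A.valuation (D.L.hv S.rot) = A.valuation (D.L.hv S) by
          simp only [D.val_hv]
          exact Finset.prod_congr rfl fun k hk =>
            (D.vals_good hq hA hbad hS (D.L.ne_zero_of_mem_H hk)).1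
      exact ⟨h _ r0.rot, (h _ r0).symm⟩
  have hsq : ∀ r : ℚ, (∀ q : ℕ, q.Prime → ∀ A : ValuationSubring Qb, A.LiesOverPrime q →
      A.valuation (algebraMap ℚ Qb r) = A.valuation (D.L.hv S₀.rot)) →
      algebraMap ℚ Qb r ^ 2 = D.L.hv S₀.rot ^ 2 := by
    intro r hr
    have := rat_sq_eq_one (r := r / r2) fun q hq => by
      obtain ⟨A, hA⟩ := FermatAgent.RT.exists_liesOverPrime hq
      refine ⟨A, hA, ?_⟩
      rw [map_div₀, map_div₀, hr q hq A hA, hr2,
        div_self ((_root_.map_ne_zero _).2 (D.L.hv_ne_zero _))]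
    rw [div_pow, div_eq_one_iff_eq (pow_ne_zero 2 h20)] at this
    rw [← hr2, ← map_pow, this, map_pow]
  have h3 := hsq r3 fun q hq A hA => by rw [hr3]; exact (hval q hq A hA).1
  have h1 := hsq ((4 : ℚ) ^ K * r1) fun q hq A hA => by
    rw [map_mul, map_pow, map_ofNat, hr1]; exact (hval q hq A hA).2
  rw [hr3] at h3
  rw [map_mul, map_pow, map_ofNat, hr1, mul_pow, ← pow_mul] at h1
  have hc := D.L.D_cyclic S₀
  have n1 := D.L.hv_ne_zero S₀
  have n2 := D.L.hv_ne_zero S₀.rot
  simp only [Line.D, Split.rot_rot_rot, h3] at hc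
  rw [show D.L.hv S₀ ^ 2 = D.L.hv S₀.rot ^ 2 / (4 : Qb) ^ (K * 2) by
    rw [eq_div_iff (by norm_num)]; linear_combination h1] at hc
  have hsum : (S₀.e₁ - S₀.e₂) ^ p * ((4 : Qb) ^ (K * 2)) ^ 2 + (S₀.e₂ - S₀.e₃) ^ p +
      (S₀.e₃ - S₀.e₁) ^ p * ((4 : Qb) ^ (K * 2)) ^ 2 = 0 := by
    simp only [Split.rot] at hc n1 n2 ⊢
    field_simp at hc
    linear_combination -hc
  have hp1 : p = P.p := D.hp
  have hint : ((P.c ^ P.p) ^ p - (P.a ^ P.p) ^ p) * ((4 : ℤ) ^ (K * 2)) ^ 2 = (P.b ^ P.p) ^ p := by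
    apply Int.cast_injective (α := Qb)
    push_cast
    have e1 : S₀.e₁ - S₀.e₂ = (P.a : Qb) ^ P.p / 4 := by simp [hS₀, freySplit]
    have e2 : S₀.e₂ - S₀.e₃ = (P.b : Qb) ^ P.p / 4 := by simp [hS₀, freySplit, neg_div]
    have e3 : S₀.e₃ - S₀.e₁ = -((P.c : Qb) ^ P.p / 4) := by
      simp only [hS₀, freySplit]; linear_combination -(1 / 4 : Qb) * frey_sum P
    rw [e1, e2, e3, D.L.odd.neg_pow, div_pow, div_pow, div_pow] at hsum
    field_simp at hsum
    linear_combination -hsum
  set A := P.a ^ P.p with hAdef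
  set B := P.b ^ P.p with hBdef
  set C := P.c ^ P.p with hCdef
  have hB0 : 0 < |B| ^ p := pow_pos (abs_pos.2 (pow_ne_zero _ P.hb0)) p
  have hCA : C - A = B := by
    have := P.hFLT
    rw [← hAdef, ← hBdef, ← hCdef] at this
    linarith
  have hle := abs_sub_pow_le D.L.odd C A
  rw [hCA] at hle
  have heq : |C ^ p - A ^ p| * ((4 : ℤ) ^ (K * 2)) ^ 2 = |B| ^ p := by
    rw [← abs_pow B p, ← hint, abs_mul, abs_of_nonneg (a := ((4 : ℤ) ^ (K * 2)) ^ 2) (by positivity)]
  have hK1 : 1 ≤ K := Finset.card_pos.2 ⟨1, D.one_mem_H⟩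
  have hlt : (2 : ℤ) ^ (p - 1) < ((4 : ℤ) ^ (K * 2)) ^ 2 := by
    rw [← pow_mul, show (4 : ℤ) = 2 ^ 2 by norm_num, ← pow_mul]
    exact pow_lt_pow_right₀ (by norm_num) (by omega)
  nlinarith [abs_nonneg (C ^ p - A ^ p)]

end FermatAgent.Mazur
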