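import Fermat.Agent.Mazur.FreyPlaces
import Fermat.Agent.LocalP.Minkowski

/-!
Valuations of the kernel polynomial at the roots, and the line at the place of residue
characteristic `p`.
-/

set_option autoImplicit false

noncomputable section

open scoped WeierstrassCurve.Affine

namespace FermatAgent.Mazur

open WeierstrassCurve WeierstrassCurve.Affine WeierstrassCurve.Affine.Point FermatAgent.LocalP
open FermatAgent.Local

local notation "Qb" => AlgebraicClosure ℚ
local notation "GQ" => AlgebraicClosure ℚ ≃ₐ[ℚ] AlgebraicClosure ℚ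

variable {P : FreyPackage} {p : ℕ} [hpf : Fact p.Prime] (D : FreyLine P p)
  {A : ValuationSubring (AlgebraicClosure ℚ)} {ℓ : ℕ}

lemma FreyLine.two_nsmul_x_mem {n : ZMod p} (hn : n ≠ 0) (hx : D.L.xs n ∈ A) :
    xCoord ((2 : ℕ) • D.L.pt n) ∈ A := by
  by_contra h
  have h2 : InE1 A (freyQb P) ((2 : ℕ) • D.L.pt n) := by
    rcases hc : (2 : ℕ) • D.L.pt n with _ | ⟨x, y, hxy⟩
    · trivial
    · rw [hc] at h; exact h
  obtain ⟨k, hk⟩ := D.L.odd
  have he : D.L.pt n = -(k • ((2 : ℕ) • D.L.pt n)) := by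
    rw [eq_neg_iff_add_eq_zero, ← mul_nsmul', add_comm, ← succ_nsmul, mul_comm, ← hk]
    exact D.pt_kill n
  have h1 : InE1 A (freyQb P) (D.L.pt n) := by
    rw [he]
    exact (e1Subgroup A _ (freyQb_intCoeffs A)).neg_mem
      ((e1Subgroup A _ (freyQb_intCoeffs A)).nsmul_mem h2 k)
  rcases hc : D.L.pt n with _ | ⟨x, y, hxy⟩
  · exact hn (D.L.pt_eq_zero.1 hc)
  · rw [Line.xs, hc] at hx
    rw [hc] at h1
    exact h1 hx

lemma odd_of_x_not_mem (hℓ : ℓ.Prime) (hA : A.LiesOverPrime ℓ) {Q : (freyQb P).Point}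
    (hQ : p • Q = 0) (hx : xCoord Q ∉ A) (D : FreyLine P p) : ℓ ≠ 2 := by
  rintro rfl
  exact hx (xCoord_mem hℓ hA (by have := D.five_le; omega) hQ)

lemma val_sub_root_of_not_mem {x e : Qb} (hx : x ∉ A) (he : e ∈ A) :
    A.valuation (x - e) = A.valuation x :=
  A.valuation.map_sub_eq_of_lt_left ((val_le_one_of_mem he).trans_lt (one_lt_val_of_not_mem hx))

lemma val_sub_three {S : Split (freyQb P)} (hS : Node A S) :
    A.valuation (S.e₂ - S.e₃) = A.valuation (S.e₁ - S.e₃) := by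
  rw [show S.e₂ - S.e₃ = (S.e₁ - S.e₃) + -(S.e₁ - S.e₂) by ring, val_add_eq_left]
  rw [Valuation.map_neg]
  exact hS.near_lt.trans_le hS.one_le_far

theorem FreyLine.vals_in (hℓ : ℓ.Prime) (hA : A.LiesOverPrime ℓ) {S : Split (freyQb P)}
    (hrot : IsRot P S) (hS : Node A S) (hin : D.InAt A) {n : ZMod p} (hn : n ≠ 0) :
    1 ≤ A.valuation (D.L.xs n - S.e₁) ∧ (ℓ ≠ p → A.valuation (D.L.xs n - S.e₁) = 1) ∧
    A.valuation (D.L.xs n - S.e₂) = A.valuation (D.L.xs n - S.e₁) ∧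
    A.valuation (D.L.xs n - S.e₃) =
      A.valuation (D.L.xs n - S.e₁) * A.valuation (S.e₁ - S.e₃) := by
  have h0 : D.L.pt n ≠ 0 := fun h => hn (D.L.pt_eq_zero.1 h)
  by_cases hx : D.L.xs n ∈ A
  · have hu : A.valuation (D.L.xs n - S.e₁) = 1 :=
      ((hS.inE0_iff (freyQb_intCoeffs A) h0).1 (hin n)).resolve_left (not_not.2 hx)
    refine ⟨hu.ge, fun _ => hu, hS.val_sub_e₂ (hu ▸ hS.c_lt), ?_⟩
    rw [hu, one_mul]
    rcases eq_or_lt_of_le hS.one_le_far with h1 | h1
    · rw [← h1]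
      have hg : S.e₃ ∈ A := by
        rw [show S.e₃ = S.e₁ - (S.e₁ - S.e₃) by ring]
        exact sub_mem hS.e_mem (mem_of_val_le_one h1.ge)
      refine val_sub_root_eq_one (S := S.rot.rot) (freyQb_intCoeffs A) hg ?_
        (D.L.two_nsmul_pt_ne_zero hn) hx (D.two_nsmul_x_mem hn hx)
      simp only [Split.rot, Split.c]
      rw [map_mul, Valuation.map_sub_swap, ← h1, Valuation.map_sub_swap, val_sub_three hS, ← h1,
        one_mul]
    · rw [show D.L.xs n - S.e₃ = (S.e₁ - S.e₃) + (D.L.xs n - S.e₁) by ring, val_add_eq_left]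
      rw [hu]; exact h1
  · have h2 := odd_of_x_not_mem hℓ hA (D.pt_kill n) hx D
    have h4 := val_four_eq_one hℓ hA h2
    have hlp : ℓ = p := by
      by_contra h
      exact hx (xCoord_mem hℓ hA h (D.pt_kill n))
    have he : A.valuation (S.e₁ - S.e₃) = 1 := by
      have := hS.far
      rwa [map_mul, h4, one_mul] at this
    rw [val_sub_root_of_not_mem hx hS.e_mem, val_sub_root_of_not_mem hx (e := S.e₂)
        (hrot.rot.e_mem h4), val_sub_root_of_not_mem hx (e := S.e₃) (hrot.rot.rot.e_mem h4), he,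
      mul_one]
    exact ⟨(one_lt_val_of_not_mem hx).le, fun h => absurd hlp h, rfl, rfl⟩

lemma FreyLine.not_inE0_of_out (h : ¬ D.InAt A) {n : ZMod p} (hn : n ≠ 0) :
    ¬ InE0 A (freyQb P) (D.L.pt n) := fun h' => h (D.inAt_of_ne_zero hn h')

theorem FreyLine.vals_out {S : Split (freyQb P)} (hS : Node A S) (hout : ¬ D.InAt A) {n : ZMod p}
    (hn : n ≠ 0) : D.L.xs n ∈ A ∧ A.valuation S.c < A.valuation (D.L.xs n - S.e₁) ∧
    A.valuation (D.L.xs n - S.e₁) < 1 ∧
    A.valuation (D.L.xs n - S.e₂) = A.valuation (D.L.xs n - S.e₁) ∧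
    A.valuation (D.L.xs n - S.e₃) = A.valuation (S.e₁ - S.e₃) := by
  have h := D.not_inE0_of_out hout hn
  obtain ⟨-, hx, hlt⟩ := hS.of_not_inE0 (freyQb_intCoeffs A) h
  have hc := hS.lt_of_not_inE0 (freyQb_intCoeffs A) D.L.odd (D.pt_kill n) h
  exact ⟨hx, hc, hlt, hS.val_sub_e₂ hc, hS.val_sub_e₃ hlt⟩

theorem FreyLine.vals_good (hℓ : ℓ.Prime) (hA : A.LiesOverPrime ℓ)
    (hgood : ¬ (ℓ : ℤ) ∣ P.a * P.b * P.c) {S : Split (freyQb P)} (hrot : IsRot P S) {n : ZMod p}
    (hn : n ≠ 0) :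
    A.valuation (D.L.xs n - S.e₂) = A.valuation (D.L.xs n - S.e₁) ∧
      (ℓ ≠ p → A.valuation (D.L.xs n - S.e₁) = 1) := by
  by_cases hx : D.L.xs n ∈ A
  · have hu : ∀ T, IsRot P T → A.valuation (D.L.xs n - T.e₁) = 1 := fun T hT =>
      val_sub_root_eq_one (freyQb_intCoeffs A) (good_place P hℓ hgood hA hT).1
        (good_place P hℓ hgood hA hT).2.2 (D.L.two_nsmul_pt_ne_zero hn) hx
        (D.two_nsmul_x_mem hn hx)
    exact ⟨(hu _ hrot.rot).trans (hu _ hrot).symm, fun _ => hu _ hrot⟩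
  · refine ⟨?_, fun h => absurd (xCoord_mem hℓ hA h (D.pt_kill n)) hx⟩
    rw [val_sub_root_of_not_mem hx (good_place P hℓ hgood hA hrot).1,
      val_sub_root_of_not_mem hx (e := S.e₂) (good_place P hℓ hgood hA hrot.rot).1]

lemma FreyLine.val_hv (S : Split (freyQb P)) :
    A.valuation (D.L.hv S) = ∏ k ∈ D.L.H, A.valuation (D.L.xs k - S.e₁) := by
  rw [Line.hv, Line.h_eval, map_prod]
  exact Finset.prod_congr rfl fun k _ => Valuation.map_sub_swap ..

theorem FreyLine.hv_in (hℓ : ℓ.Prime) (hA : A.LiesOverPrime ℓ) {S : Split (freyQb P)}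
    (hrot : IsRot P S) (hS : Node A S) (hin : D.InAt A) :
    1 ≤ A.valuation (D.L.hv S) ∧ (ℓ ≠ p → A.valuation (D.L.hv S) = 1) ∧
    A.valuation (D.L.hv S.rot) = A.valuation (D.L.hv S) ∧
    A.valuation (D.L.hv S.rot.rot) =
      A.valuation (D.L.hv S) * A.valuation (S.e₁ - S.e₃) ^ D.L.H.card := by
  have h := fun k (hk : k ∈ D.L.H) => D.vals_in hℓ hA hrot hS hin (D.L.ne_zero_of_mem_H hk)
  simp only [D.val_hv]
  exact ⟨Finset.one_le_prod' fun k hk => (h k hk).1,
    fun hl => Finset.prod_eq_one fun k hk => (h k hk).2.1 hl,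
    Finset.prod_congr rfl fun k hk => (h k hk).2.2.1,
    by rw [← Finset.prod_const, ← Finset.prod_mul_distrib]
       exact Finset.prod_congr rfl fun k hk => (h k hk).2.2.2⟩

lemma FreyLine.one_mem_H : (1 : ZMod p) ∈ D.L.H := by
  have := D.five_le
  rw [Line.mem_H, ZMod.val_one]
  exact ⟨one_ne_zero, by omega⟩

theorem FreyLine.hv_out {S : Split (freyQb P)} (hS : Node A S) (hout : ¬ D.InAt A) :
    A.valuation (D.L.hv S) < 1 ∧ A.valuation (D.L.hv S.rot) = A.valuation (D.L.hv S) ∧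
    A.valuation (D.L.hv S.rot.rot) = A.valuation (S.e₁ - S.e₃) ^ D.L.H.card := by
  have h := fun k (hk : k ∈ D.L.H) => D.vals_out hS hout (D.L.ne_zero_of_mem_H hk)
  simp only [D.val_hv]
  refine ⟨?_, Finset.prod_congr rfl fun k hk => (h k hk).2.2.2.1,
    by rw [← Finset.prod_const]; exact Finset.prod_congr rfl fun k hk => (h k hk).2.2.2.2⟩
  rw [← Finset.mul_prod_erase D.L.H _ D.one_mem_H]
  exact val_mul_lt_one_of_lt_of_le (h 1 D.one_mem_H).2.2.1
    (Finset.prod_le_one' fun k hk => (h k (Finset.mem_of_mem_erase hk)).2.2.1.le)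

lemma FreyLine.smul_xs (σ : GQ) (k : ZMod p) : ∃ m, σ (D.L.xs k) = D.L.xs m ∧ (k ≠ 0 → m ≠ 0) := by
  obtain ⟨m, hm⟩ := D.stable σ k
  refine ⟨m, by rw [Line.xs, ← xCoord_smul, hm]; rfl, fun hk hm0 => hk ?_⟩
  rw [hm0, D.L.pt_zero, smul_eq_zero_iff_eq] at hm
  exact D.L.pt_eq_zero.1 hm

/-- The values of the kernel polynomial at the roots are rational. -/
theorem FreyLine.hv_rat {S : Split (freyQb P)} (hrot : IsRot P S) :
    ∃ r : ℚ, algebraMap ℚ Qb r = D.L.hv S := by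
  have := FermatAgent.RT.isGalois_algClosureRat
  refine (InfiniteGalois.mem_range_algebraMap_iff_fixed (k := ℚ) (D.L.hv S)).mpr fun σ => ?_
  classical
  set X := D.L.H.image D.L.xs
  have hprod : D.L.hv S = ∏ x ∈ X, (S.e₁ - x) := by
    rw [Line.hv, Line.h_eval, Finset.prod_image D.L.xs_injOn]
  have himg : X.image σ = X := by
    refine Finset.eq_of_subset_of_card_le (fun x hx => ?_)
      (by rw [Finset.card_image_of_injective _ σ.injective])
    simp only [X, Finset.mem_image] at hx ⊢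
    obtain ⟨-, ⟨k, hk, rfl⟩, rfl⟩ := hx
    obtain ⟨m, hm, hm0⟩ := D.smul_xs σ k
    have hm0 := hm0 (D.L.ne_zero_of_mem_H hk)
    by_cases hmH : m ∈ D.L.H
    · exact ⟨m, hmH, hm.symm⟩
    · exact ⟨-m, (D.L.neg_mem_H_iff hm0).2 hmH, by rw [D.L.xs_neg, hm]⟩
  rw [hprod]
  conv_rhs => rw [← himg, Finset.prod_image σ.injective.injOn]
  rw [map_prod]
  exact Finset.prod_congr rfl fun x _ => by rw [map_sub, (hrot.fixed σ).1]

lemma val_rat_lt_iff {q : ℕ} (hq : q.Prime) (hA : A.LiesOverPrime q) (r : ℚ) :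
    A.valuation (algebraMap ℚ Qb r) < 1 ↔ (q : ℤ) ∣ r.num := by
  have he : A.valuation (algebraMap ℚ Qb r) * A.valuation ((r.den : ℤ) : Qb) =
      A.valuation (r.num : Qb) := by
    rw [← map_mul]
    congr 1
    rw [← map_intCast (algebraMap ℚ Qb) (r.den : ℤ), ← map_intCast (algebraMap ℚ Qb) r.num,
      ← map_mul, Int.cast_natCast, Rat.mul_den_eq_num]
  rw [← val_intCast_lt_one_iff hq hA, ← he]
  refine ⟨fun h => val_mul_lt_one_of_lt_of_le h (val_le_one_of_mem (intCast_mem A _)), fun h => ?_⟩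
  by_cases hd : (q : ℤ) ∣ (r.den : ℤ)
  · exfalso
    have hn : (q : ℤ) ∣ r.num := (val_intCast_lt_one_iff hq hA r.num).1 (he ▸ h)
    exact hq.not_dvd_one (r.reduced.gcd_eq_one ▸
      Nat.dvd_gcd (Int.natCast_dvd.mp hn) (Int.natCast_dvd_natCast.mp hd))
  · rwa [val_intCast_eq_one hq hA hd, mul_one] at h

/-- The position of the line at a bad prime does not depend on the place. -/
theorem FreyLine.inAt_congr (hℓ : ℓ.Prime) (hbad : (ℓ : ℤ) ∣ P.a * P.b * P.c)
    (hA : A.LiesOverPrime ℓ) {B : ValuationSubring Qb} (hB : B.LiesOverPrime ℓ) (h : D.InAt A) :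
    D.InAt B := by
  obtain ⟨S, hrot, hS⟩ := exists_node P hℓ hbad
  obtain ⟨r, hr⟩ := D.hv_rat hrot
  by_contra hout
  have h1 := (D.hv_out (hS B hB) hout).1
  rw [← hr, val_rat_lt_iff hℓ hB, ← val_rat_lt_iff hℓ hA, hr] at h1
  exact absurd h1 (not_lt.2 (D.hv_in hℓ hA hrot (hS A hA) h).1)

lemma FreyLine.xs_fixed_of_smul {σ : GQ} {n : ZMod p} (h : σ • D.L.pt n = D.L.pt n ∨
    σ • D.L.pt n = -D.L.pt n) : σ (D.L.xs n) = D.L.xs n := by
  rw [Line.xs, ← xCoord_smul]
  rcases h with h | h <;> rw [h]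
  rw [xCoord_neg]

/-- The line lies in the component of the origin at `p`. -/
theorem FreyLine.inAt_p (hbad : (p : ℤ) ∣ P.a * P.b * P.c) (hA : A.LiesOverPrime p) :
    D.InAt A := by
  have := FermatAgent.RT.isGalois_algClosureRat
  have hp5 := D.five_le
  by_contra hout
  have hpair : ∀ (B : ValuationSubring Qb), ¬ D.InAt B → ∀ S, IsRot P S → Node B S →
      ∀ σ : GQ, σ ∈ B.decompositionSubgroup ℚ → ∀ n, n ≠ 0 →
      σ • D.L.pt n = D.L.pt n ∨ σ • D.L.pt n = -D.L.pt n := by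
    intro B hB S hrot hS σ hσ n hn
    obtain ⟨m, hm⟩ := D.stable σ n
    have hm0 : m ≠ 0 := fun h => hn (by
      rw [h, D.L.pt_zero, smul_eq_zero_iff_eq] at hm; exact D.L.pt_eq_zero.1 hm)
    have hval : B.valuation (xCoord (D.L.pt m) - S.e₁) = B.valuation (xCoord (D.L.pt n) - S.e₁) := by
      rw [← hm, xCoord_smul]
      conv_lhs => rw [← (hrot.fixed σ).1, ← map_sub]
      exact val_galois_eq hσ _
    rw [hm]
    rcases hS.add_or_sub_inE0 (freyQb_intCoeffs B) D.L.odd (D.pt_kill m)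
        (D.not_inE0_of_out hB hm0) (D.not_inE0_of_out hB hn) hval with h | h
    · rw [← D.L.pt_add] at h
      right
      rw [← D.L.pt_neg]
      congr 1
      by_contra hne
      exact hB (D.inAt_of_ne_zero (fun h0 => hne (eq_neg_of_add_eq_zero_left h0)) h)
    · rw [← D.L.pt_sub] at h
      left
      congr 1
      by_contra hne
      exact hB (D.inAt_of_ne_zero (sub_ne_zero.2 hne) h)
  let H : Subgroup GQ :=
    { carrier := {σ | ∀ n, n ≠ 0 → σ (D.L.xs n) = D.L.xs n}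
      one_mem' := fun _ _ => rfl
      mul_mem' := fun {a b} ha hb n hn => by rw [AlgEquiv.mul_apply, hb n hn, ha n hn]
      inv_mem' := fun {a} ha n hn => by
        have := congrArg a.symm (ha n hn)
        rw [AlgEquiv.symm_apply_apply] at this
        exact this.symm }
  have : H.Normal := ⟨fun σ hσ g n hn => by
    obtain ⟨m, hm, hm0⟩ := D.smul_xs g⁻¹ n
    rw [AlgEquiv.mul_apply, AlgEquiv.mul_apply, hm, hσ m (hm0 hn), ← hm, ← AlgEquiv.mul_apply,
      mul_inv_cancel, AlgEquiv.one_apply]⟩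
  let K₀ := IntermediateField.adjoin ℚ (Set.range D.L.xs)
  have : FiniteDimensional ℚ K₀ :=
    IntermediateField.finiteDimensional_adjoin fun x _ =>
      (FermatAgent.RT.isGalois_algClosureRat.to_normal.isIntegral x)
  have htop : H = ⊤ := by
    refine eq_top_of_inertia_le H K₀
      (fun σ hσ n _ => hσ ⟨_, IntermediateField.subset_adjoin ℚ _ ⟨n, rfl⟩⟩) ?_
    intro q hq B hB σ hσ n hn
    refine D.xs_fixed_of_smul ?_
    have hdec := mem_decomposition_of_inertia hσ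
    by_cases hbq : (q : ℤ) ∣ P.a * P.b * P.c
    · obtain ⟨S, hrot, hS⟩ := exists_node P hq hbq
      by_cases hin : D.InAt B
      · have hqp : q ≠ p := fun e => by
          subst e
          exact hout (D.inAt_congr hq hbad hB hA hin)
        left
        rw [galois_smul_eq_conjPoint]
        exact inertia_fix_smooth (freyQb_intCoeffs B) hσ _
          (val_natCast_eq_one hq hB fun h => hqp ((Nat.prime_dvd_prime_iff_eq hq hpf.out).1 h))
          (D.pt_kill n) (hin n)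
      · exact hpair B hin S hrot (hS B hB) σ hdec n hn
    · have hqp : q ≠ p := fun e => hbq (e ▸ hbad)
      have hΔ : B.valuation (freyQb P).Δ = 1 := by
        rw [freyQb, qbarCurve_Δ, val_intCast_eq_one hq hB]
        exact fun h => hbq (dvd_abc_of_dvd_frey_Δ P hq h)
      have hin : InE0 B (freyQb P) (D.L.pt n) := by
        rcases hc : D.L.pt n with _ | ⟨x, y, h⟩
        · trivial
        · exact (em (x ∈ B)).symm.imp id
            fun hx => smoothRed_of_goodReduction (freyQb_intCoeffs B) hΔ h.left hx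
      left
      rw [galois_smul_eq_conjPoint]
      exact inertia_fix_smooth (freyQb_intCoeffs B) hσ _
        (val_natCast_eq_one hq hB fun h => hqp ((Nat.prime_dvd_prime_iff_eq hq hpf.out).1 h))
        (D.pt_kill n) hin
  -- Frobenius at three
  obtain ⟨B, hB⟩ := FermatAgent.RT.exists_liesOverPrime Nat.prime_three
  obtain ⟨σ, hσ⟩ := FermatAgent.RT.exists_isFrobeniusAt Nat.prime_three hB
  have h3 : ((3 : ℕ) : ℤ) ∣ P.a * P.b * P.c := by exact_mod_cast D.three_dvd
  obtain ⟨S, hrot, hS⟩ := exists_node P Nat.prime_three h3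
  have hin := D.inAt_two_three (Or.inr rfl) h3 hB (1 : ZMod p)
  have h1 : D.L.pt 1 ≠ 0 := fun h => one_ne_zero (D.L.pt_eq_zero.1 h)
  have hfix : σ (D.L.xs 1) = D.L.xs 1 := (htop ▸ Subgroup.mem_top σ : σ ∈ H) 1 one_ne_zero
  have hnd : ∀ k : ℕ, 0 < k → k < p → k • D.L.pt 1 ≠ 0 := fun k h0 hlt h => by
    have := addOrderOf_dvd_of_nsmul_eq_zero h
    rw [addOrderOf_eq_prime (D.pt_kill 1) h1] at this
    exact absurd (Nat.le_of_dvd h0 this) (by omega)
  have hpm : σ • D.L.pt 1 = D.L.pt 1 ∨ σ • D.L.pt 1 = -D.L.pt 1 := by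
    refine Line.eq_or_eq_neg_of_xCoord (fun h => h1 ((smul_eq_zero_iff_eq σ).1 h)) h1 ?_
    rw [xCoord_smul]; exact hfix
  rcases D.frob_smul (Or.inr rfl) hB hrot (hS B hB) hσ h1 (D.pt_kill 1) hin with h | h <;>
    rcases hpm with h' | h' <;> rw [h] at h'
  · exact hnd 2 two_pos (by omega) (by rw [succ_nsmul, add_eq_right] at h'; exact h')
  · exact hnd 4 (by norm_num) (by omega) (by rw [succ_nsmul, h', neg_add_cancel])
  · exact hnd 4 (by norm_num) (by omega) (by
      rw [neg_eq_iff_eq_neg] at h'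
      rw [succ_nsmul, h', neg_add_cancel])
  · exact hnd 2 two_pos (by omega) (by rw [neg_inj, succ_nsmul, add_eq_right] at h'; exact h')

end FermatAgent.Mazur
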