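import Fermat.Agent.Mazur.LineMap

/-!
The image of a point of order `p` on an explicit model of the quotient curve has order `p`.
-/

set_option autoImplicit false

noncomputable section

namespace FermatAgent.Mazur

open WeierstrassCurve WeierstrassCurve.Affine FermatAgent.LocalP Polynomial

variable {K : Type*} [Field K] [DecidableEq K] {W W' : WeierstrassCurve.Affine K}

/-- The `y`-coordinate, junk value `0` at infinity. -/
def yCoord : W.Point → K
  | .zero => 0
  | .some _ y _ => y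

/-- The completed ordinate. -/
def eta (P : W.Point) : K := (2 * yCoord P + W.a₁ * xCoord P + W.a₃) / 2

omit [DecidableEq K] in
lemma eta_neg [CharZero K] {P : W.Point} (hP : P ≠ 0) : eta (-P) = -eta P := by
  rcases P with _ | ⟨x, y, h⟩
  · exact absurd rfl hP
  · simp only [eta, Point.neg_some, yCoord, xCoord_some, negY]; ring

namespace Split

variable [CharZero K] (S : Split W)

omit [DecidableEq K] in
lemma four_mul_eta_sq {P : W.Point} (hP : P ≠ 0) :
    eta P ^ 2 = (xCoord P - S.e₁) * (xCoord P - S.e₂) * (xCoord P - S.e₃) := by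
  rcases P with _ | ⟨x, y, h⟩
  · exact absurd rfl hP
  · have h1 := Ψ₂Sq_eval_eq h.left
    rw [S.psi2_eq] at h1
    simp only [psi2, negY] at h1
    simp only [eta, yCoord, xCoord_some]
    linear_combination -(1 / 4 : K) * h1

omit [DecidableEq K] in
lemma equation_of_sq {x y : K} (h : ((2 * y + W.a₁ * x + W.a₃) / 2) ^ 2 =
    (x - S.e₁) * (x - S.e₂) * (x - S.e₃)) : W.Equation x y := by
  rw [equation_iff]
  have hb := S.psi2_eq x
  simp only [psi2, WeierstrassCurve.b₂, WeierstrassCurve.b₄, WeierstrassCurve.b₆] at hb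
  linear_combination h - (1 / 4 : K) * hb

end Split

/-- A model of the quotient curve: roots prescribed by the differences. -/
structure Quot {p : ℕ} [Fact p.Prime] (L : Line W p) (S : Split W) (T : Split W') (u : K) :
    Prop where
  u_ne : u ≠ 0
  h₁₂ : T.e₁ - T.e₂ = -(u ^ 2 * L.D S)
  h₂₃ : T.e₂ - T.e₃ = -(u ^ 2 * L.D S.rot)

namespace Line

variable {p : ℕ} [hp : Fact p.Prime] (L : Line W p)

/-- The abscissa of the image on the quotient curve. -/
def X' (S : Split W) (T : Split W') (u : K) (P : W.Point) : K := T.e₁ + u ^ 2 * L.R S P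

variable [IsAlgClosed K] [CharZero K] {S : Split W} {T : Split W'} {u : K}

variable {L}

lemma _root_.FermatAgent.Mazur.Quot.rot (q : Quot L S T u) : Quot L S.rot T.rot u where
  u_ne := q.u_ne
  h₁₂ := q.h₂₃
  h₂₃ := by
    have h := L.D_cyclic S
    have h1 := q.h₁₂
    have h2 := q.h₂₃
    simp only [Split.rot] at h h1 h2 ⊢
    linear_combination -h1 - h2 + u ^ 2 * h

lemma X'_rot (q : Quot L S T u) {P : W.Point} (hP : L.Off P) :
    L.X' S.rot T.rot u P = L.X' S T u P := by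
  have h := L.R_sub_R S hP
  have h1 := q.h₁₂
  simp only [X', Split.rot] at h ⊢
  linear_combination -h1 - u ^ 2 * h

lemma quot_c (q : Quot L S T u) : T.c = u ^ 4 * L.c' S := by
  have h := q.rot.rot.h₁₂
  have h1 := q.h₁₂
  simp only [Split.c, c', Split.rot] at h ⊢
  rw [h1]
  linear_combination (u ^ 2 * L.D S) * h

lemma mul_eq_mul (q : Quot L S T u) {P Q : W.Point} (hP : L.Off P) (hQ : L.Off ((2 : ℕ) • Q))
    (hplus : L.Off (P + Q)) (hminus : L.Off (P - Q)) {a b : W'.Point} (ha : a ≠ 0) (hb : b ≠ 0)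
    (hax : xCoord a = L.X' S T u P) (hbx : xCoord b = L.X' S T u Q)
    (hne : xCoord a ≠ xCoord b) :
    (xCoord (a + b) - T.e₁) * (xCoord (a - b) - T.e₁) =
      (L.X' S T u (P + Q) - T.e₁) * (L.X' S T u (P - Q) - T.e₁) := by
  have h := T.sub_mul_sub ha hb hne
  apply mul_right_cancel₀ (pow_ne_zero 2 (sub_ne_zero.2 hne))
  rw [h, hax, hbx, quot_c q]
  simp only [X']
  linear_combination -(u ^ 8) * L.diff_add S hP hQ hplus hminus

lemma sum_and_prod (q : Quot L S T u) {P Q : W.Point} (hP : L.Off P)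
    (hQ : L.Off ((2 : ℕ) • Q)) (hplus : L.Off (P + Q)) (hminus : L.Off (P - Q))
    {a b : W'.Point} (ha : a ≠ 0) (hb : b ≠ 0) (hax : xCoord a = L.X' S T u P)
    (hbx : xCoord b = L.X' S T u Q) (hne : xCoord a ≠ xCoord b) :
    xCoord (a + b) + xCoord (a - b) = L.X' S T u (P + Q) + L.X' S T u (P - Q) ∧
      (xCoord (a + b) = L.X' S T u (P - Q) ∨ xCoord (a - b) = L.X' S T u (P - Q)) := by
  have h1 := mul_eq_mul q hP hQ hplus hminus ha hb hax hbx hne
  have h2 := mul_eq_mul q.rot hP hQ hplus hminus ha hb (hax.trans (X'_rot q hP).symm)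
    (hbx.trans (X'_rot q (L.off_of_two_nsmul hQ)).symm) hne
  rw [X'_rot q hplus, X'_rot q hminus, show T.rot.e₁ = T.e₂ from rfl] at h2
  have hsum : xCoord (a + b) + xCoord (a - b) =
      L.X' S T u (P + Q) + L.X' S T u (P - Q) := by
    apply mul_left_cancel₀ (sub_ne_zero.2 T.h₁₂)
    linear_combination h2 - h1
  refine ⟨hsum, ?_⟩
  have h : (xCoord (a + b) - L.X' S T u (P - Q)) * (xCoord (a - b) - L.X' S T u (P - Q)) = 0 := by
    linear_combination h1 + (T.e₁ - L.X' S T u (P - Q)) * hsum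
  rcases mul_eq_zero.1 h with h | h
  exacts [Or.inl (sub_eq_zero.1 h), Or.inr (sub_eq_zero.1 h)]

omit [IsAlgClosed K] [CharZero K] in
lemma eq_or_eq_neg_of_xCoord {a b : W'.Point} (ha : a ≠ 0) (hb : b ≠ 0)
    (h : xCoord a = xCoord b) : a = b ∨ a = -b := by
  by_contra hc
  push Not at hc
  exact xCoord_ne_of_ne_neg ha hb hc.1 hc.2 h

/-- The image has order `p`. -/
theorem nsmul_image (q : Quot L S T u) (hp5 : 5 ≤ p) {Q : W.Point} (hpQ : p • Q = 0)
    (hQ : L.Off Q) {Φ : W'.Point} (hΦ : Φ ≠ 0) (hx : xCoord Φ = L.X' S T u Q) :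
    p • Φ = 0 := by
  let M : Line W p := ⟨Q, hQ.ne_zero, hpQ, L.odd⟩
  have hM1 : M.pt 1 = Q := by rw [← Nat.cast_one, M.pt_natCast, one_nsmul]
  have hoff : ∀ n : ZMod p, n ≠ 0 → L.Off (M.pt n) := by
    intro n hn j hj
    apply hQ ((n⁻¹).val • j)
    have h1 : (n⁻¹).val • n = (1 : ZMod p) := by
      rw [nsmul_eq_mul, ZMod.natCast_zmod_val, inv_mul_cancel₀ hn]
    rw [← hM1, ← h1]
    show M.ptHom _ = L.ptHom _
    rw [map_nsmul, map_nsmul]
    exact congrArg _ hj
  have hdbl : ∀ n : ZMod p, n ≠ 0 → L.Off ((2 : ℕ) • M.pt n) := fun n hn => by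
    rw [two_nsmul, ← M.pt_add, ← two_mul]
    exact hoff _ (mul_ne_zero M.two_ne_zero' hn)
  set Z := fun n : ZMod p => L.X' S T u (M.pt n) with hZ
  have hinj : ∀ m n : ZMod p, m ≠ 0 → n ≠ 0 → m ≠ n → m ≠ -n → Z m ≠ Z n := by
    intro m n hm hn hne hne' h
    have hR : L.R S (M.pt m) = L.R S (M.pt n) := by
      simp only [hZ, X'] at h
      exact mul_left_cancel₀ (pow_ne_zero 2 q.u_ne) (add_left_cancel h)
    obtain ⟨k, hk⟩ := L.exists_xCoord_eq_of_R_eq S (hoff m hm) (hdbl n hn) hR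
    rcases eq_or_eq_neg_of_xCoord ((hoff m hm).add_pt k).ne_zero (hoff n hn).ne_zero hk with h | h
    · exact hoff (m - n) (sub_ne_zero.2 hne) (-k) (by rw [M.pt_sub, L.pt_neg, ← h]; abel)
    · refine hoff (m + n) (fun h0 => hne' (eq_neg_of_add_eq_zero_left h0)) (-k) ?_
      rw [M.pt_add, L.pt_neg, eq_neg_iff_add_eq_zero]
      rw [eq_neg_iff_add_eq_zero] at h
      rw [← h]; abel
  have hcast : ∀ i : ℕ, 0 < i → i < p → (i : ZMod p) ≠ 0 := fun i h1 h2 h => by
    rw [ZMod.natCast_eq_zero_iff] at h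
    exact absurd (Nat.le_of_dvd h1 h) (by omega)
  have hzero : (1 : ZMod p) ≠ 0 := one_ne_zero
  have hZ1 : xCoord Φ = Z 1 := by rw [hx]; simp only [hZ, hM1]
  -- the induction
  suffices main : ∀ i : ℕ, i + 2 ≤ p - 1 →
      ((i + 1) • Φ ≠ 0 ∧ xCoord ((i + 1) • Φ) = Z ((i + 1 : ℕ) : ZMod p)) ∧
      ((i + 2) • Φ ≠ 0 ∧ xCoord ((i + 2) • Φ) = Z ((i + 2 : ℕ) : ZMod p)) by
    obtain ⟨⟨h1, -⟩, h2, h2x⟩ := main (p - 3) (by omega)
    have hm1 : ((p - 3 + 2 : ℕ) : ZMod p) = -1 := by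
      rw [eq_neg_iff_add_eq_zero, ← Nat.cast_one, ← Nat.cast_add, show p - 3 + 2 + 1 = p by omega,
        ZMod.natCast_self]
    have hxx : xCoord ((p - 3 + 2) • Φ) = xCoord Φ := by
      rw [h2x, hm1, hZ1]
      simp only [hZ, X', M.pt_neg, L.R_neg]
    rcases eq_or_eq_neg_of_xCoord h2 hΦ hxx with h | h
    · refine absurd (add_right_cancel (b := Φ) ?_) h1
      rw [zero_add, ← succ_nsmul]
      exact h
    · rw [show p = p - 3 + 2 + 1 by omega, succ_nsmul, h, neg_add_cancel]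
  intro i
  induction i with
  | zero =>
    intro _
    have h2 : ((2 : ℕ) : ZMod p) ≠ 0 := hcast 2 (by omega) (by omega)
    refine ⟨⟨by simpa using hΦ, by simpa using hZ1⟩, ?_⟩
    obtain ⟨y, hy⟩ := FermatAgent.Local.exists_point_over W' T.Δ_ne_zero (Z 2)
    set a := Point.some (Z 2) y hy
    have ha : a ≠ 0 := Point.some_ne_zero hy
    have h21 : (2 : ZMod p) ≠ 1 := fun h => hcast 1 one_pos (by omega) (by
      push_cast; linear_combination h)
    have h2m : (2 : ZMod p) ≠ -1 := fun h => hcast 3 (by omega) (by omega) (by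
      push_cast; linear_combination h)
    have h22 : (2 : ZMod p) ≠ 0 := M.two_ne_zero'
    have hne : xCoord a ≠ xCoord Φ := by rw [hZ1]; exact hinj 2 1 h22 hzero h21 h2m
    have hab : a + Φ ≠ 0 := fun h => hne (by rw [eq_neg_of_add_eq_zero_left h, xCoord_neg])
    have hab' : a - Φ ≠ 0 := fun h => hne (by rw [sub_eq_zero.1 h])
    have hpl : L.Off (M.pt 2 + Q) := by
      rw [← hM1, ← M.pt_add]; exact hoff _ fun h => h2m (eq_neg_of_add_eq_zero_left h)
    have hmi : L.Off (M.pt 2 - Q) := by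
      rw [← hM1, ← M.pt_sub]; exact hoff _ (sub_ne_zero.2 h21)
    obtain ⟨-, hor⟩ := sum_and_prod q (hoff 2 h22) (by simpa [hM1] using hdbl 1 hzero) hpl hmi
      ha hΦ rfl hx hne
    have hsub : L.X' S T u (M.pt 2 - Q) = xCoord Φ := by
      rw [hx]; congr 1
      rw [show (2 : ZMod p) = 1 + 1 by norm_num, M.pt_add, hM1, add_sub_cancel_right]
    rw [hsub] at hor
    have hfin : a = 2 • Φ ∨ a = -(2 • Φ) := by
      rcases hor with h | h
      · rcases eq_or_eq_neg_of_xCoord hab hΦ h with h | h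
        · exact absurd (add_eq_right.1 h) ha
        · right; rw [eq_sub_of_add_eq h, two_nsmul]; abel
      · rcases eq_or_eq_neg_of_xCoord hab' hΦ h with h | h
        · left; rw [two_nsmul, ← sub_eq_iff_eq_add]; exact h
        · exact absurd (by rwa [sub_eq_add_neg, add_eq_right] at h) ha
    have hgoal : (2 : ℕ) • Φ ≠ 0 ∧ xCoord ((2 : ℕ) • Φ) = Z ((2 : ℕ) : ZMod p) := by
      rcases hfin with h | h
      · rw [← h]; exact ⟨ha, rfl⟩
      · rw [← neg_ne_zero, ← xCoord_neg ((2 : ℕ) • Φ), ← h]; exact ⟨ha, rfl⟩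
    exact hgoal
  | succ i ih =>
    intro hi
    obtain ⟨⟨-, hax1⟩, ha, hax⟩ := ih (by omega)
    refine ⟨⟨ha, hax⟩, ?_⟩
    set k : ℕ := i + 2 with hk
    have hk0 : (k : ZMod p) ≠ 0 := hcast k (by omega) (by omega)
    have hk1 : (k : ZMod p) ≠ 1 := fun h => hcast (i + 1) (by omega) (by omega) (by
      simp only [hk] at h; push_cast at h ⊢; linear_combination h)
    have hkm : (k : ZMod p) ≠ -1 := fun h => hcast (k + 1) (by omega) (by omega) (by
      push_cast; linear_combination h)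
    have hne : xCoord (k • Φ) ≠ xCoord Φ := by
      rw [hax, hZ1]; exact hinj _ 1 hk0 hzero hk1 hkm
    have hnext : k • Φ + Φ ≠ 0 := fun h => hne (by rw [eq_neg_of_add_eq_zero_left h, xCoord_neg])
    have hpl : L.Off (M.pt (k : ZMod p) + Q) := by
      rw [← hM1, ← M.pt_add]; exact hoff _ fun h => hkm (eq_neg_of_add_eq_zero_left h)
    have hmi : L.Off (M.pt (k : ZMod p) - Q) := by
      rw [← hM1, ← M.pt_sub]; exact hoff _ (sub_ne_zero.2 hk1)
    obtain ⟨hsum, -⟩ := sum_and_prod q (hoff _ hk0) (by simpa [hM1] using hdbl 1 hzero) hpl hmi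
      ha hΦ hax hx hne
    have hprev : k • Φ - Φ = (i + 1) • Φ := by
      rw [hk, show i + 2 = i + 1 + 1 by ring, succ_nsmul _ (i + 1), add_sub_cancel_right]
    have hprev' : M.pt (k : ZMod p) - Q = M.pt ((i + 1 : ℕ) : ZMod p) := by
      rw [← hM1, ← M.pt_sub]; congr 1; simp only [hk]; push_cast; ring
    have hnext' : M.pt (k : ZMod p) + Q = M.pt ((k + 1 : ℕ) : ZMod p) := by
      rw [← hM1, ← M.pt_add]; congr 1; push_cast; rfl
    rw [hprev, hprev', hnext', hax1] at hsum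
    show (i + 1 + 2) • Φ ≠ 0 ∧ xCoord ((i + 1 + 2) • Φ) = Z ((i + 1 + 2 : ℕ) : ZMod p)
    rw [show i + 1 + 2 = k + 1 by omega, succ_nsmul]
    exact ⟨hnext, add_right_cancel hsum⟩

variable (L) in
/-- The ordinate product. -/
def Z' (P : W.Point) : K :=
  (∏ n, eta (P + L.pt n)) / ∏ k ∈ L.H, (eta (L.pt k) * eta (L.pt (-k)))

omit [IsAlgClosed K] in
lemma Z'_sq (S : Split W) {P : W.Point} (hP : L.Off P) :
    L.Z' P ^ 2 = L.R S P * L.R S.rot P * L.R S.rot.rot P := by
  have h1 : (∏ n, eta (P + L.pt n)) ^ 2 = (∏ n, (xCoord (P + L.pt n) - S.e₁)) *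
      (∏ n, (xCoord (P + L.pt n) - S.rot.e₁)) * ∏ n, (xCoord (P + L.pt n) - S.rot.rot.e₁) := by
    rw [← Finset.prod_pow, ← Finset.prod_mul_distrib, ← Finset.prod_mul_distrib]
    exact Finset.prod_congr rfl fun n _ => S.four_mul_eta_sq (hP.add_pt n).ne_zero
  have h2 : (∏ k ∈ L.H, (eta (L.pt k) * eta (L.pt (-k)))) ^ 2 =
      L.hv S ^ 2 * L.hv S.rot ^ 2 * L.hv S.rot.rot ^ 2 := by
    rw [L.hv_sq, L.hv_sq, L.hv_sq, ← Finset.prod_pow, ← Finset.prod_mul_distrib,
      ← Finset.prod_mul_distrib]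
    refine Finset.prod_congr rfl fun k hk => ?_
    have hk0 : L.pt k ≠ 0 := fun h => L.ne_zero_of_mem_H hk (L.pt_eq_zero.1 h)
    have := S.four_mul_eta_sq hk0
    rw [L.pt_neg, eta_neg hk0]
    simp only [xs, Split.rot]
    linear_combination (eta (L.pt k) ^ 2 +
      (xCoord (L.pt k) - S.e₁) * (xCoord (L.pt k) - S.e₂) * (xCoord (L.pt k) - S.e₃)) * this
  rw [Z', div_pow, h1, h2, R, R, R]
  ring

/-- An explicit point over the abscissa of the image. -/
theorem exists_image (q : Quot L S T u) {P : W.Point} (hP : L.Off P) :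
    W'.Nonsingular (L.X' S T u P)
      (u ^ 3 * L.Z' P - (W'.a₁ * L.X' S T u P + W'.a₃) / 2) := by
  refine (equation_iff_nonsingular_of_Δ_ne_zero T.Δ_ne_zero).1 (T.equation_of_sq ?_)
  have h1 := X'_rot q hP
  have h2 := X'_rot q.rot hP
  have hz := Z'_sq S hP
  simp only [X', show T.rot.e₁ = T.e₂ from rfl, show T.rot.rot.e₁ = T.e₃ from rfl] at h1 h2 ⊢
  rw [show (T.e₁ + u ^ 2 * L.R S P - T.e₂) = u ^ 2 * L.R S.rot P by linear_combination -h1,
    show (T.e₁ + u ^ 2 * L.R S P - T.e₃) = u ^ 2 * L.R S.rot.rot P by linear_combination -h1 - h2]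
  linear_combination u ^ 6 * hz

end Line

end FermatAgent.Mazur
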