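import Fermat.Agent.Mazur.NodeTorsion
import Fermat.Agent.Mazur.QuotientPoint
import Fermat.Agent.Local.Frey
import Fermat.Agent.LocalP.Dichotomy

/-!
The Frey curve with a cofixed line: places, nodes and the Galois action on the line.
-/

set_option autoImplicit false

noncomputable section

open scoped WeierstrassCurve.Affine

namespace FermatAgent.Mazur

open WeierstrassCurve WeierstrassCurve.Affine WeierstrassCurve.Affine.Point FermatAgent.LocalP
open FermatAgent.Local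

local notation "Qb" => AlgebraicClosure ℚ
local notation "GQ" => AlgebraicClosure ℚ ≃ₐ[ℚ] AlgebraicClosure ℚ

variable (P : FreyPackage)

/-- The Frey curve over `ℚ̄`. -/
abbrev freyQb : WeierstrassCurve.Affine Qb := qbarCurve P.freyCurveInt

lemma freyQb_a₁ : (freyQb P).a₁ = 1 := by
  rw [freyQb, qbarCurve_eq, WeierstrassCurve.map_a₁]; simp [FreyPackage.freyCurveInt]

lemma freyQb_a₂ : 4 * (freyQb P).a₂ = (P.b : Qb) ^ P.p - 1 - (P.a : Qb) ^ P.p := by
  have := congrArg (Int.cast : ℤ → Qb) (frey_a₂ P)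
  push_cast at this
  rw [freyQb, qbarCurve_eq, WeierstrassCurve.map_a₂, eq_intCast]
  exact this

lemma freyQb_a₄ : 16 * (freyQb P).a₄ = -(P.a : Qb) ^ P.p * (P.b : Qb) ^ P.p := by
  have := congrArg (Int.cast : ℤ → Qb) (frey_a₄ P)
  push_cast at this
  rw [freyQb, qbarCurve_eq, WeierstrassCurve.map_a₄, eq_intCast]
  exact this

lemma freyQb_a₃ : (freyQb P).a₃ = 0 := by
  rw [freyQb, qbarCurve_eq, WeierstrassCurve.map_a₃]; simp [FreyPackage.freyCurveInt]

lemma freyQb_a₆ : (freyQb P).a₆ = 0 := by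
  rw [freyQb, qbarCurve_eq, WeierstrassCurve.map_a₆]; simp [FreyPackage.freyCurveInt]

lemma frey_sum : (P.a : Qb) ^ P.p + (P.b : Qb) ^ P.p = (P.c : Qb) ^ P.p := by
  exact_mod_cast congrArg (Int.cast : ℤ → Qb) P.hFLT

/-- The three roots. -/
def freySplit : Split (freyQb P) where
  e₁ := (P.a : Qb) ^ P.p / 4
  e₂ := 0
  e₃ := -((P.b : Qb) ^ P.p) / 4
  hb₂ := by
    simp only [WeierstrassCurve.b₂, freyQb_a₁]
    linear_combination freyQb_a₂ P
  hb₄ := by
    simp only [WeierstrassCurve.b₄, freyQb_a₁, freyQb_a₃]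
    linear_combination (1 / 8 : Qb) * freyQb_a₄ P
  hb₆ := by
    simp only [WeierstrassCurve.b₆, freyQb_a₃, freyQb_a₆]
    ring
  h₁₂ := by
    simp [P.ha0, P.hp0]
  h₂₃ := by
    intro h
    have h0 : (P.b : Qb) ^ P.p = 0 := by linear_combination (4 : Qb) * h
    exact P.hb0 (by exact_mod_cast (pow_eq_zero_iff P.hp0).1 h0)
  h₃₁ := by
    intro h
    have h0 : (P.c : Qb) ^ P.p = 0 := by linear_combination (-4 : Qb) * h - frey_sum P
    exact P.hc0 (by exact_mod_cast (pow_eq_zero_iff P.hp0).1 h0)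

/-- The rotations of the standard order of the roots. -/
def IsRot (S : Split (freyQb P)) : Prop :=
  S = freySplit P ∨ S = (freySplit P).rot ∨ S = (freySplit P).rot.rot

variable {P}

lemma IsRot.rot {S : Split (freyQb P)} (h : IsRot P S) : IsRot P S.rot := by
  rcases h with rfl | rfl | rfl
  exacts [Or.inr (Or.inl rfl), Or.inr (Or.inr rfl), Or.inl (Split.rot_rot_rot _)]

lemma IsRot.fixed {S : Split (freyQb P)} (h : IsRot P S) (σ : GQ) :
    σ S.e₁ = S.e₁ ∧ σ S.e₂ = S.e₂ ∧ σ S.e₃ = S.e₃ := by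
  rcases h with rfl | rfl | rfl <;>
    simp [freySplit, Split.rot, map_div₀, map_ofNat]

lemma IsRot.e_mem {S : Split (freyQb P)} (h : IsRot P S) {A : ValuationSubring Qb}
    (h4 : A.valuation (4 : Qb) = 1) : S.e₁ ∈ A := by
  have h4' : (4 : Qb)⁻¹ ∈ A := mem_of_val_le_one (by rw [map_inv₀, h4, inv_one])
  have key : ∀ m : ℤ, (m : Qb) / 4 ∈ A := fun m => by
    rw [div_eq_mul_inv]; exact mul_mem (intCast_mem A m) h4'
  rcases h with rfl | rfl | rfl
  · simpa [freySplit] using key (P.a ^ P.p)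
  · simp [freySplit, Split.rot]
  · simpa [freySplit, Split.rot] using key (-(P.b ^ P.p))

lemma val_four_eq_one {A : ValuationSubring Qb} {ℓ : ℕ} (hℓ : ℓ.Prime) (hA : A.LiesOverPrime ℓ)
    (h2 : ℓ ≠ 2) : A.valuation (4 : Qb) = 1 := by
  have h := val_natCast_eq_one (n := 2) hℓ hA
    (fun h => h2 ((Nat.prime_dvd_prime_iff_eq hℓ Nat.prime_two).1 h))
  rw [show (4 : Qb) = ((2 : ℕ) : Qb) ^ 2 by norm_num, map_pow, h, one_pow]

variable (P)

/-- The root reducing to the node, uniformly in the place. -/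
theorem exists_node {ℓ : ℕ} (hℓ : ℓ.Prime) (h : (ℓ : ℤ) ∣ P.a * P.b * P.c) :
    ∃ S : Split (freyQb P), IsRot P S ∧ ∀ A : ValuationSubring Qb, A.LiesOverPrime ℓ → Node A S := by
  have hq := Nat.prime_iff_prime_int.1 hℓ
  have hab : (ℓ : ℤ) ∣ P.a → ¬ (ℓ : ℤ) ∣ P.b := fun h1 h2 =>
    hq.not_isUnit (isUnit_of_dvd_one (P.hgcdab ▸ dvd_gcd h1 h2))
  have hac : (ℓ : ℤ) ∣ P.a → ¬ (ℓ : ℤ) ∣ P.c := fun h1 h2 =>
    hq.not_isUnit (isUnit_of_dvd_one (P.hgcdac ▸ dvd_gcd h1 h2))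
  have hbc : (ℓ : ℤ) ∣ P.b → ¬ (ℓ : ℤ) ∣ P.c := fun h1 h2 =>
    hq.not_isUnit (isUnit_of_dvd_one (P.hgcdbc ▸ dvd_gcd h1 h2))
  have unit : ∀ (A : ValuationSubring Qb), A.LiesOverPrime ℓ → ∀ x : ℤ, ¬ (ℓ : ℤ) ∣ x →
      A.valuation ((x : Qb) ^ P.p) = 1 := fun A hA x hx => by
    rw [map_pow, val_intCast_eq_one hℓ hA hx, one_pow]
  have small : ∀ (A : ValuationSubring Qb), A.LiesOverPrime ℓ → ∀ x : ℤ, (ℓ : ℤ) ∣ x →
      A.valuation ((x : Qb) ^ P.p) < 1 := fun A hA x hx => by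
    rw [map_pow]; exact pow_lt_one₀ zero_le ((val_intCast_lt_one_iff hℓ hA x).2 hx) P.hp0
  have hsum := frey_sum P
  by_cases hb : (ℓ : ℤ) ∣ P.b
  · refine ⟨_, Or.inr (Or.inl rfl), fun A hA => ⟨by simp [freySplit, Split.rot], ?_, ?_⟩⟩
    · simp only [freySplit, Split.rot]
      rw [show 4 * ((0 : Qb) - (P.a : Qb) ^ P.p / 4) = -((P.a : Qb) ^ P.p) by ring,
        Valuation.map_neg]
      exact unit A hA _ fun ha => hab ha hb
    · simp only [freySplit, Split.rot, Split.c]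
      by_cases h2 : ℓ = 2
      · subst h2
        obtain ⟨k, hk⟩ := frey_even_pow P
        have hk' : (P.b : Qb) ^ P.p = 32 * (k : Qb) := by exact_mod_cast congrArg (Int.cast : ℤ → Qb) hk
        rw [hk', show ((0 : Qb) - -(32 * (k : Qb)) / 4) * (0 - (P.a : Qb) ^ P.p / 4) =
          ((2 : ℕ) : Qb) * (-(k : Qb) * (P.a : Qb) ^ P.p) by push_cast; ring, map_mul]
        exact val_mul_lt_one_of_lt_of_le (val_natCast_lt_one hA)
          (val_le_one_of_mem (mul_mem (neg_mem (intCast_mem A k)) (pow_mem (intCast_mem A _) _)))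
      · have h4 := val_four_eq_one hℓ hA h2
        simp only [map_mul, zero_sub, Valuation.map_neg, map_div₀, h4, div_one,
          show ((0 : Qb) - -((P.b : Qb) ^ P.p) / 4) = (P.b : Qb) ^ P.p / 4 by ring]
        exact val_mul_lt_one_of_lt_of_le (small A hA _ hb)
          (val_le_one_of_mem (pow_mem (intCast_mem A _) _))
  have h2 : ℓ ≠ 2 := by
    rintro rfl; exact hb ((ZMod.intCast_zmod_eq_zero_iff_dvd P.b 2).1 P.hb2)
  rcases hq.dvd_or_dvd h with h' | hc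
  · have ha := (hq.dvd_or_dvd h').resolve_right hb
    refine ⟨_, Or.inl rfl, fun A hA => ⟨IsRot.e_mem (Or.inl rfl) (val_four_eq_one hℓ hA h2),
      ?_, ?_⟩⟩
    · simp only [freySplit]
      rw [show 4 * ((P.a : Qb) ^ P.p / 4 - -((P.b : Qb) ^ P.p) / 4) = (P.c : Qb) ^ P.p by
        linear_combination hsum]
      exact unit A hA _ (hac ha)
    · simp only [freySplit, Split.c]
      rw [show ((P.a : Qb) ^ P.p / 4 - 0) * ((P.a : Qb) ^ P.p / 4 - -((P.b : Qb) ^ P.p) / 4) =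
        (P.a : Qb) ^ P.p * (P.c : Qb) ^ P.p / 4 ^ 2 by
          linear_combination (P.a : Qb) ^ P.p / 16 * hsum,
        map_div₀, map_pow A.valuation (4 : Qb), val_four_eq_one hℓ hA h2, one_pow, div_one, map_mul]
      exact val_mul_lt_one_of_lt_of_le (small A hA _ ha)
        (val_le_one_of_mem (pow_mem (intCast_mem A _) _))
  · refine ⟨_, Or.inr (Or.inr rfl), fun A hA =>
      ⟨IsRot.e_mem (Or.inr (Or.inr rfl)) (val_four_eq_one hℓ hA h2), ?_, ?_⟩⟩
    · simp only [freySplit, Split.rot]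
      rw [show 4 * (-((P.b : Qb) ^ P.p) / 4 - 0) = -((P.b : Qb) ^ P.p) by ring, Valuation.map_neg]
      exact unit A hA _ hb
    · simp only [freySplit, Split.rot, Split.c]
      rw [show (-((P.b : Qb) ^ P.p) / 4 - (P.a : Qb) ^ P.p / 4) * (-((P.b : Qb) ^ P.p) / 4 - 0) =
        (P.c : Qb) ^ P.p * (P.b : Qb) ^ P.p / 4 ^ 2 by
          linear_combination (P.b : Qb) ^ P.p / 16 * hsum,
        map_div₀, map_pow A.valuation (4 : Qb), val_four_eq_one hℓ hA h2, one_pow, div_one, map_mul]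
      exact val_mul_lt_one_of_lt_of_le (small A hA _ hc)
        (val_le_one_of_mem (pow_mem (intCast_mem A _) _))

/-- At a place of good reduction the roots stay distinct. -/
theorem good_place {ℓ : ℕ} (hℓ : ℓ.Prime) (h : ¬ (ℓ : ℤ) ∣ P.a * P.b * P.c)
    {A : ValuationSubring Qb} (hA : A.LiesOverPrime ℓ) {S : Split (freyQb P)} (hS : IsRot P S) :
    S.e₁ ∈ A ∧ A.valuation (S.e₁ - S.e₂) = 1 ∧ A.valuation S.c = 1 := by
  have h2 : ℓ ≠ 2 := fun e => h (e ▸ P.two_dvd_abc)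
  have h4 := val_four_eq_one hℓ hA h2
  have ha : ¬ (ℓ : ℤ) ∣ P.a := fun d => h (dvd_mul_of_dvd_left (dvd_mul_of_dvd_left d _) _)
  have hb : ¬ (ℓ : ℤ) ∣ P.b := fun d => h (dvd_mul_of_dvd_left (dvd_mul_of_dvd_right d _) _)
  have hc : ¬ (ℓ : ℤ) ∣ P.c := fun d => h (dvd_mul_of_dvd_right d _)
  have unit : ∀ x : ℤ, ¬ (ℓ : ℤ) ∣ x → A.valuation ((x : Qb) ^ P.p / 4) = 1 := fun x hx => by
    rw [map_div₀, h4, div_one, map_pow, val_intCast_eq_one hℓ hA hx, one_pow]
  have hd : ∀ T : Split (freyQb P), IsRot P T → A.valuation (T.e₁ - T.e₂) = 1 := by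
    intro T hT
    rcases hT with rfl | rfl | rfl
    · simpa [freySplit] using unit _ ha
    · simp only [freySplit, Split.rot]
      rw [show (0 : Qb) - -((P.b : Qb) ^ P.p) / 4 = (P.b : Qb) ^ P.p / 4 by ring]
      exact unit _ hb
    · simp only [freySplit, Split.rot]
      rw [show -((P.b : Qb) ^ P.p) / 4 - (P.a : Qb) ^ P.p / 4 = -((P.c : Qb) ^ P.p / 4) by
        linear_combination -(1 / 4 : Qb) * frey_sum P, Valuation.map_neg]
      exact unit _ hc
  refine ⟨hS.e_mem h4, hd S hS, ?_⟩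
  rw [Split.c, map_mul, hd S hS, one_mul, Valuation.map_sub_swap]
  exact hd _ hS.rot.rot

/-- A cofixed line of the Frey curve with a generator. -/
structure FreyLine (p : ℕ) [Fact p.Prime] where
  hp : p = P.p
  L : Line (freyQb P) p
  stable : ∀ (σ : GQ) (n : ZMod p), ∃ m, σ • L.pt n = L.pt m
  cofixed : ∀ (σ : GQ) (Q : (freyQb P).Point), p • Q = 0 → ∃ m, σ • Q - Q = L.pt m

theorem exists_freyLine [Fact P.p.Prime]
    (h : HasGaloisStableCofixedLine (K := Qb) ℚ P.freyCurve P.p) :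
    Nonempty (FreyLine P P.p) := by
  rw [← freyCurveInt_map] at h
  obtain ⟨N, hst, hbot, htop, hcof⟩ := h
  have hfin := finrank_line (W := P.freyCurveInt) (p := P.p) (frey_Δ_ne_zero P) hbot htop
  obtain ⟨T, hT, hT0⟩ := N.ne_bot_iff.1 hbot
  have hkill : ∀ x : Submodule.torsionBy ℤ (freyQb P).Point P.p, P.p • x.1 = 0 := fun x => by
    have := (Submodule.mem_torsionBy_iff _ _).mp x.2
    rwa [natCast_zsmul] at this
  let L : Line (freyQb P) P.p :=
    ⟨T.1, fun e => hT0 (Subtype.ext e), hkill T, P.hp_odd⟩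
  have key : ∀ x ∈ N, ∃ m, (x : (freyQb P).Point) = L.pt m := by
    intro x hx
    obtain ⟨m, hm⟩ := exists_smul_eq_of_finrank_eq_one hfin (x := (⟨T, hT⟩ : N))
      (fun e => hT0 (congrArg Subtype.val e)) ⟨x, hx⟩
    refine ⟨m, ?_⟩
    have := congrArg (fun z : N => ((z : Submodule.torsionBy ℤ (freyQb P).Point P.p) :
      (freyQb P).Point)) hm
    rw [← ZMod.natCast_zmod_val m, L.pt_natCast]
    conv_lhs => rw [← this, ← ZMod.natCast_zmod_val m, Nat.cast_smul_eq_nsmul]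
    rfl
  have ptN : ∀ n, ∃ x ∈ N, (x : (freyQb P).Point) = L.pt n := fun n =>
    ⟨n.val • T, N.nsmul_mem hT _, by
      rw [← ZMod.natCast_zmod_val n, L.pt_natCast, ZMod.natCast_zmod_val]
      simp [L]⟩
  refine ⟨⟨rfl, L, fun σ n => ?_, fun σ Q hQ => ?_⟩⟩
  · obtain ⟨x, hx, hxn⟩ := ptN n
    obtain ⟨m, hm⟩ := key _ (hst σ x hx)
    exact ⟨m, by rw [← hxn]; exact hm⟩
  · exact key _ (hcof σ ⟨Q, by rw [Submodule.mem_torsionBy_iff, natCast_zsmul, hQ]⟩)

end FermatAgent.Mazur
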