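import Fermat.Agent.Mazur.FreyLine

/-!
The position of the cofixed line at each place.
-/

set_option autoImplicit false

noncomputable section

open scoped WeierstrassCurve.Affine

namespace FermatAgent.Mazur

open WeierstrassCurve WeierstrassCurve.Affine WeierstrassCurve.Affine.Point FermatAgent.LocalP
open FermatAgent.Local
open IsLocalRing (residue)

local notation "Qb" => AlgebraicClosure ℚ
local notation "GQ" => AlgebraicClosure ℚ ≃ₐ[ℚ] AlgebraicClosure ℚ

variable {P : FreyPackage} {p : ℕ} [hpf : Fact p.Prime]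

lemma frob_val {A : ValuationSubring Qb} {σ : GQ} {ℓ : ℕ} (h : A.IsFrobeniusAt σ ℓ) {x : Qb}
    (hx : x ∈ A) : A.valuation (σ x - x ^ ℓ) < 1 := by
  obtain ⟨hσ, hres⟩ := h
  have h1 := hres (residue A ⟨x, hx⟩)
  rw [← IsLocalRing.ResidueField.residue_smul, ← map_pow] at h1
  exact lt_of_residue_eq (SetLike.coe_mem ((⟨σ, hσ⟩ : A.decompositionSubgroup ℚ) • (⟨x, hx⟩ : A)))
    (pow_mem hx ℓ) h1

lemma freyQb_intCoeffs (A : ValuationSubring Qb) : IntCoeffs A (freyQb P) :=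
  qbarCurve_intCoeffs _ A

omit hpf in
lemma smul_nsmul_eq_zero (σ : GQ) {Q : (freyQb P).Point} (h : p • Q = 0) : p • (σ • Q) = 0 := by
  rw [galois_smul_eq_conjPoint, ← map_nsmul, h, _root_.map_zero]

/-- Torsion of order `p` is integral away from `p`. -/
lemma xCoord_mem {A : ValuationSubring Qb} {ℓ : ℕ} (hℓ : ℓ.Prime) (hA : A.LiesOverPrime ℓ)
    (hℓp : ℓ ≠ p) {Q : (freyQb P).Point} (hQ : p • Q = 0) : xCoord Q ∈ A := by
  rcases Q with _ | ⟨x, y, h⟩
  · exact zero_mem A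
  · exact x_mem_of_nsmul_eq_zero (freyQb_intCoeffs A)
      (val_natCast_eq_one hℓ hA fun h => hℓp ((Nat.prime_dvd_prime_iff_eq hℓ hpf.out).1 h)) h hQ

lemma nsmul_mem_line_cancel (D : FreyLine P p) {Q : (freyQb P).Point} (hQ : p • Q = 0) {k : ℕ}
    (hk : ¬ p ∣ k) {m : ZMod p} (h : k • Q = D.L.pt m) : ∃ n, Q = D.L.pt n := by
  obtain ⟨a, ha⟩ : ∃ a : ℕ, ((a * k : ℕ) : ZMod p) = 1 := ⟨((k : ZMod p)⁻¹).val, by
    rw [Nat.cast_mul, ZMod.natCast_zmod_val, inv_mul_cancel₀]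
    rwa [ne_eq, ZMod.natCast_eq_zero_iff]⟩
  refine ⟨a • m, ?_⟩
  show Q = D.L.ptHom _
  rw [map_nsmul, show D.L.ptHom m = D.L.pt m from rfl, ← h, ← mul_nsmul']
  have h1 : a * k % p = 1 := by
    rw [← Nat.cast_one, ZMod.natCast_eq_natCast_iff'] at ha
    rwa [Nat.mod_eq_of_lt hpf.out.one_lt] at ha
  rw [← Nat.div_add_mod (a * k) p, h1, add_nsmul, mul_nsmul, hQ, nsmul_zero, zero_add, one_nsmul]

variable (D : FreyLine P p)

include D in
lemma FreyLine.five_le : 5 ≤ p := D.hp ▸ P.hp5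

lemma FreyLine.pt_kill (n : ZMod p) : p • D.L.pt n = 0 := by
  show p • D.L.ptHom n = 0
  rw [← map_nsmul, nsmul_eq_mul, ZMod.natCast_self, zero_mul, _root_.map_zero]

/-- The line lies in the component of the origin at the place. -/
def FreyLine.InAt (A : ValuationSubring Qb) : Prop :=
  ∀ n, InE0 A (freyQb P) (D.L.pt n)

lemma FreyLine.inAt_of_ne_zero {A : ValuationSubring Qb} {n : ZMod p} (hn : n ≠ 0)
    (h : InE0 A (freyQb P) (D.L.pt n)) : D.InAt A := by
  intro m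
  obtain ⟨k, rfl⟩ : ∃ k : ℕ, k • n = m := ⟨(m * n⁻¹).val, by
    rw [nsmul_eq_mul, ZMod.natCast_zmod_val, mul_assoc, inv_mul_cancel₀ hn, mul_one]⟩
  show InE0 A _ (D.L.ptHom _)
  rw [map_nsmul]
  exact (e0Subgroup A _ (freyQb_intCoeffs A)).nsmul_mem h k

include D in
/-- Frobenius at `2` or `3` on smooth torsion is multiplication by `±ℓ`. -/
theorem FreyLine.frob_smul {ℓ : ℕ} (hℓ : ℓ = 2 ∨ ℓ = 3) {A : ValuationSubring Qb}
    (hA : A.LiesOverPrime ℓ) {S : Split (freyQb P)} (hrot : IsRot P S) (hS : Node A S) {σ : GQ}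
    (hσ : A.IsFrobeniusAt σ ℓ) {Q : (freyQb P).Point} (hQ0 : Q ≠ 0) (hQ : p • Q = 0)
    (hE : InE0 A (freyQb P) Q) : σ • Q = ℓ • Q ∨ σ • Q = -(ℓ • Q) := by
  have hp5 := D.five_le
  have hℓ' : ℓ.Prime := by rcases hℓ with rfl | rfl <;> norm_num
  have hℓp : ℓ ≠ p := by rcases hℓ with rfl | rfl <;> omega
  have hW := freyQb_intCoeffs (P := P) A
  have hk : ∀ k : ℕ, p • (k • Q) = 0 := fun k => by rw [← mul_nsmul', mul_comm, mul_nsmul', hQ, nsmul_zero]
  have hne : ∀ k : ℕ, 0 < k → k < p → k • Q ≠ 0 := fun k h0 hlt h => by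
    have := addOrderOf_dvd_of_nsmul_eq_zero h
    rw [addOrderOf_eq_prime hQ hQ0] at this
    exact absurd (Nat.le_of_dvd h0 this) (by omega)
  have hx := xCoord_mem hℓ' hA hℓp hQ
  have hu : A.valuation (xCoord Q - S.e₁) = 1 :=
    ((hS.inE0_iff hW hQ0).1 hE).resolve_left (not_not.2 hx)
  obtain ⟨hfe, hf₂, hf₃⟩ := hrot.fixed σ
  have he : A.valuation (S.e₁ ^ ℓ - S.e₁) < 1 := by
    rw [Valuation.map_sub_swap]
    have := frob_val hσ hS.e_mem
    rwa [hfe] at this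
  have hb : A.valuation (S.beta ^ ℓ - S.beta) < 1 := by
    rw [Valuation.map_sub_swap]
    have := frob_val hσ hS.beta_mem
    rwa [show σ S.beta = S.beta by simp [Split.beta, map_ofNat, hfe, hf₂, hf₃]] at this
  have hbm : A.valuation (S.beta ^ (ℓ - 1) - 1) < 1 := by
    rw [show S.beta ^ ℓ - S.beta = S.beta * (S.beta ^ (ℓ - 1) - 1) by
      rw [mul_sub, mul_one, ← pow_succ', Nat.sub_add_cancel hℓ'.pos], map_mul, hS.val_beta,
      one_mul] at hb
    exact hb
  have hcongr : A.valuation (xCoord (σ • Q) - xCoord (ℓ • Q)) < 1 := by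
    rw [xCoord_smul, show σ (xCoord Q) - xCoord (ℓ • Q) =
      (σ (xCoord Q) - xCoord Q ^ ℓ) + -(xCoord (ℓ • Q) - xCoord Q ^ ℓ) by ring]
    refine A.valuation.map_add_lt (frob_val hσ hx) ?_
    rw [Valuation.map_neg]
    have h2x := xCoord_mem hℓ' hA hℓp (hk 2)
    rcases hℓ with rfl | rfl
    · refine hS.two_nsmul_congr (by exact_mod_cast val_natCast_lt_one hA) he ?_
        (hne 2 two_pos (by omega)) hx h2x hu
      rw [show S.beta ^ 2 - 1 = (S.beta ^ (2 - 1) - 1) * (S.beta + 1) by norm_num; ring, map_mul]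
      exact val_mul_lt_one_of_lt_of_le hbm (val_le_one_of_mem (add_mem hS.beta_mem (one_mem A)))
    · refine hS.three_nsmul_congr (by exact_mod_cast val_natCast_lt_one hA) he (by simpa using hbm)
        (hne 2 two_pos (by omega)) ?_ hx h2x (xCoord_mem hℓ' hA hℓp (hk 3)) hu
      refine xCoord_ne_of_ne_neg (hne 2 two_pos (by omega)) hQ0 (fun h => hQ0 ?_) (fun h => ?_)
      · rwa [two_nsmul, add_eq_left] at h
      · exact hne 3 (by norm_num) (by omega) (by rw [succ_nsmul, h, neg_add_cancel])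
  rcases eq_or_eq_neg_of_congr hW
      (val_natCast_eq_one hℓ' hA fun h => hℓp ((Nat.prime_dvd_prime_iff_eq hℓ' hpf.out).1 h))
      (hk ℓ) (smul_nsmul_eq_zero σ hQ) (hne ℓ hℓ'.pos (by rcases hℓ with rfl | rfl <;> omega))
      (fun h => hQ0 ((smul_eq_zero_iff_eq σ).1 h))
      ((e0Subgroup A _ hW).nsmul_mem hE ℓ) (by rw [Valuation.map_sub_swap]; exact hcongr) with h | h
  · exact Or.inl h.symm
  · exact Or.inr (by rw [h, neg_neg])

/-- At `2` and `3` all smooth `p`-torsion lies in the line. -/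
theorem FreyLine.mem_line_of_inE0 {ℓ : ℕ} (hℓ : ℓ = 2 ∨ ℓ = 3)
    (hbad : (ℓ : ℤ) ∣ P.a * P.b * P.c) {A : ValuationSubring Qb} (hA : A.LiesOverPrime ℓ)
    {Q : (freyQb P).Point} (hQ : p • Q = 0) (hE : InE0 A (freyQb P) Q) :
    ∃ n, Q = D.L.pt n := by
  by_cases hQ0 : Q = 0
  · exact ⟨0, by rw [hQ0, D.L.pt_zero]⟩
  have hp5 := D.five_le
  have hℓ' : ℓ.Prime := by rcases hℓ with rfl | rfl <;> norm_num
  obtain ⟨S, hrot, hS⟩ := exists_node P hℓ' hbad
  obtain ⟨σ, hσ⟩ := FermatAgent.RT.exists_isFrobeniusAt hℓ' hA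
  obtain ⟨m, hm⟩ := D.cofixed σ Q hQ
  have nd : ∀ k, 0 < k → k < p → ¬ p ∣ k := fun k h1 h2 h => absurd (Nat.le_of_dvd h1 h) (by omega)
  rcases D.frob_smul hℓ hA hrot (hS A hA) hσ hQ0 hQ hE with h | h <;> rw [h] at hm
  · refine nsmul_mem_line_cancel D hQ (nd (ℓ - 1) ?_ ?_) (m := m) ?_
    iterate 2 rcases hℓ with rfl | rfl <;> omega
    rw [← hm, eq_sub_iff_add_eq, ← succ_nsmul, Nat.sub_add_cancel hℓ'.pos]
  · refine nsmul_mem_line_cancel D hQ (nd (ℓ + 1) ?_ ?_) (m := -m) ?_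
    iterate 2 rcases hℓ with rfl | rfl <;> omega
    rw [D.L.pt_neg, ← hm, succ_nsmul]; abel

/-- The line is in the component of the origin at `2` and `3`. -/
theorem FreyLine.inAt_two_three {ℓ : ℕ} (hℓ : ℓ = 2 ∨ ℓ = 3)
    (hbad : (ℓ : ℤ) ∣ P.a * P.b * P.c) {A : ValuationSubring Qb} (hA : A.LiesOverPrime ℓ) :
    D.InAt A := by
  have hp5 := D.five_le
  have hℓ' : ℓ.Prime := by rcases hℓ with rfl | rfl <;> norm_num
  obtain ⟨S, -, hS⟩ := exists_node P hℓ' hbad
  obtain ⟨Q, hQ0, hQ, hE⟩ := (hS A hA).exists_torsion_inE0 (freyQb_intCoeffs A) hpf.out hp5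
    (val_natCast_eq_one hℓ' hA fun h => by
      have := (Nat.prime_dvd_prime_iff_eq hℓ' hpf.out).1 h
      rcases hℓ with rfl | rfl <;> omega)
  obtain ⟨n, rfl⟩ := D.mem_line_of_inE0 hℓ hbad hA hQ hE
  exact D.inAt_of_ne_zero (fun h => hQ0 (by rw [h, D.L.pt_zero])) hE

include D in
/-- The curve has bad reduction at `3`. -/
theorem FreyLine.three_dvd : (3 : ℤ) ∣ P.a * P.b * P.c := by
  by_contra h3
  have hp5 := D.five_le
  obtain ⟨A, hA⟩ := FermatAgent.RT.exists_liesOverPrime Nat.prime_three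
  obtain ⟨σ, hσ⟩ := FermatAgent.RT.exists_isFrobeniusAt Nat.prime_three hA
  have h4 := val_four_eq_one Nat.prime_three hA (by norm_num)
  have hgood := fun S hS => good_place P Nat.prime_three (by exact_mod_cast h3) hA (S := S) hS
  have hz : ∀ a : ZMod 3, ∀ n : ℕ, Odd n → a ^ n = a := by
    rintro a n ⟨k, rfl⟩
    rw [pow_succ, pow_mul]
    rcases (show a = 0 ∨ a ^ 2 = 1 by revert a; decide) with rfl | h
    · simp
    · rw [h, one_pow, one_mul]
  have hdiv : (3 : ℤ) ∣ P.b ^ P.p - P.a ^ P.p ∧ (3 : ℤ) ∣ 16 - P.a ^ P.p * P.b ^ P.p := by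
    have key : ∀ a b : ZMod 3, a ≠ 0 → b ≠ 0 → a + b ≠ 0 → b - a = 0 ∧ 16 - a * b = 0 := by decide
    have hne : ∀ x : ℤ, ¬ (3 : ℤ) ∣ x → (x : ZMod 3) ≠ 0 := fun x hx h =>
      hx ((ZMod.intCast_zmod_eq_zero_iff_dvd x 3).1 h)
    have hab := key (P.a : ZMod 3) (P.b : ZMod 3)
      (hne _ fun d => h3 (dvd_mul_of_dvd_left (dvd_mul_of_dvd_left d _) _))
      (hne _ fun d => h3 (dvd_mul_of_dvd_left (dvd_mul_of_dvd_right d _) _)) (by
        have := congrArg (Int.cast : ℤ → ZMod 3) P.hFLT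
        push_cast at this
        rw [hz _ _ P.hp_odd, hz _ _ P.hp_odd, hz _ _ P.hp_odd] at this
        rw [this]
        exact hne _ fun d => h3 (dvd_mul_of_dvd_right d _))
    constructor <;> refine (ZMod.intCast_zmod_eq_zero_iff_dvd _ 3).1 ?_ <;> push_cast <;>
      simp only [hz _ _ P.hp_odd]
    exacts [hab.1, hab.2]
  have small : ∀ z : ℤ, (3 : ℤ) ∣ z → A.valuation ((z : Qb) / 4) < 1 := fun z hz' => by
    rw [map_div₀, h4, div_one]; exact (val_intCast_lt_one_iff Nat.prime_three hA z).2 (by exact_mod_cast hz')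
  -- no torsion point is fixed up to sign
  have hmove : ∀ Q : (freyQb P).Point, p • Q = 0 → Q ≠ 0 → σ • Q ≠ Q := by
    intro Q hQ hQ0 he
    have hℓp : 3 ≠ p := by omega
    have hx := xCoord_mem Nat.prime_three hA hℓp hQ
    have hx2 : xCoord ((2 : ℕ) • Q) ∈ A := xCoord_mem Nat.prime_three hA hℓp
      (by rw [← mul_nsmul', mul_comm, mul_nsmul', hQ, nsmul_zero])
    have h2 : (2 : ℕ) • Q ≠ 0 := fun h => by
      have := addOrderOf_dvd_of_nsmul_eq_zero h
      rw [addOrderOf_eq_prime hQ hQ0] at this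
      exact absurd (Nat.le_of_dvd two_pos this) (by omega)
    have hu : ∀ S, IsRot P S → A.valuation (xCoord Q - S.e₁) = 1 := fun S hS =>
      val_sub_root_eq_one (freyQb_intCoeffs A) (hgood S hS).1 (hgood S hS).2.2 h2 hx hx2
    have hfix : A.valuation (xCoord Q - xCoord Q ^ 3) < 1 := by
      have := frob_val hσ hx
      rwa [← xCoord_smul, he] at this
    have hrot : IsRot P (freySplit P) := Or.inl rfl
    have hprod : A.valuation ((xCoord Q - (freySplit P).e₁) * (xCoord Q - (freySplit P).rot.e₁) *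
        (xCoord Q - (freySplit P).rot.rot.e₁)) = 1 := by
      rw [map_mul, map_mul, hu _ hrot, hu _ hrot.rot, hu _ hrot.rot.rot, one_mul, one_mul]
    refine (hprod.symm.trans_lt ?_).false
    rw [show (xCoord Q - (freySplit P).e₁) * (xCoord Q - (freySplit P).rot.e₁) *
        (xCoord Q - (freySplit P).rot.rot.e₁) = -(xCoord Q - xCoord Q ^ 3) +
          ((((P.b ^ P.p - P.a ^ P.p : ℤ) : Qb) / 4) * xCoord Q ^ 2 +
            (((16 - P.a ^ P.p * P.b ^ P.p : ℤ) : Qb) / 4) * (xCoord Q / 4)) by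
      simp only [freySplit, Split.rot]; push_cast; ring]
    refine A.valuation.map_add_lt (by rwa [Valuation.map_neg]) (A.valuation.map_add_lt ?_ ?_) <;>
      rw [map_mul]
    · exact val_mul_lt_one_of_lt_of_le (small _ hdiv.1) (val_le_one_of_mem (pow_mem hx 2))
    · exact val_mul_lt_one_of_lt_of_le (small _ hdiv.2)
        (by rw [map_div₀, h4, div_one]; exact val_le_one_of_mem hx)
  -- so `σ - 1` embeds the torsion in the line
  let T := Submodule.torsionBy ℤ (freyQb P).Point (p : ℤ)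
  have hT : ∀ x : T, p • x.1 = 0 := fun x => by
    have := (Submodule.mem_torsionBy_iff _ _).mp x.2
    rwa [natCast_zsmul] at this
  choose f hf using fun x : T => D.cofixed σ x.1 (hT x)
  have hinj : Function.Injective f := by
    intro x y h
    by_contra hne
    refine hmove (x.1 - y.1) (hT (x - y)) (fun h0 => hne (Subtype.ext (sub_eq_zero.1 h0))) ?_
    rw [← sub_eq_zero, smul_sub,
      show σ • x.1 - σ • y.1 - (x.1 - y.1) = (σ • x.1 - x.1) - (σ • y.1 - y.1) by abel,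
      hf x, hf y, h, sub_self]
  have hcard := Nat.card_le_card_of_injective f hinj
  rw [Nat.card_zmod, card_torsionBy (freyQb P) (freySplit P).Δ_ne_zero
    (Nat.cast_ne_zero.2 hpf.out.ne_zero)] at hcard
  nlinarith [hpf.out.two_le]

end FermatAgent.Mazur
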