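import Fermat.Agent.Mazur.FreyScale

/-!
An integral semistable model of the quotient of the Frey curve by a cofixed line, and the
rational point of order `p` on it.
-/

set_option autoImplicit false

noncomputable section

open scoped WeierstrassCurve.Affine

namespace FermatAgent.Mazur

open WeierstrassCurve WeierstrassCurve.Affine WeierstrassCurve.Affine.Point FermatAgent.LocalP
open FermatAgent.Local

local notation "Qb" => AlgebraicClosure ℚ
local notation "GQ" => AlgebraicClosure ℚ ≃ₐ[ℚ] AlgebraicClosure ℚ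

/-- The curve with parameters `A = 4 j - 1`, `B = 16 k`. -/
def quotCurve (j k : ℤ) : WeierstrassCurve ℤ where
  a₁ := 1
  a₂ := 4 * k - j
  a₃ := 0
  a₄ := -(4 * j - 1) * k
  a₆ := 0

lemma quot_b (j k : ℤ) : (qbarCurve (quotCurve j k)).b₂ = -4 * ((4 * (j : Qb) - 1) / 4 + 0 + (-4 * (k : Qb))) ∧
    (qbarCurve (quotCurve j k)).b₄ =
      2 * ((4 * (j : Qb) - 1) / 4 * 0 + 0 * (-4 * (k : Qb)) + (-4 * (k : Qb)) * ((4 * (j : Qb) - 1) / 4)) ∧
    (qbarCurve (quotCurve j k)).b₆ = -4 * ((4 * (j : Qb) - 1) / 4 * 0 * (-4 * (k : Qb))) := by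
  rw [qbarCurve_eq, WeierstrassCurve.map_b₂, WeierstrassCurve.map_b₄, WeierstrassCurve.map_b₆]
  simp only [quotCurve, WeierstrassCurve.b₂, WeierstrassCurve.b₄, WeierstrassCurve.b₆, eq_intCast]
  push_cast
  refine ⟨?_, ?_, ?_⟩ <;> ring

/-- The roots of the model. -/
def quotSplit (j k : ℤ) (hk : k ≠ 0) (h : (4 * j - 1) + 16 * k ≠ 0) :
    Split (qbarCurve (quotCurve j k)) where
  e₁ := (4 * (j : Qb) - 1) / 4
  e₂ := 0
  e₃ := -4 * (k : Qb)
  hb₂ := (quot_b j k).1
  hb₄ := (quot_b j k).2.1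
  hb₆ := (quot_b j k).2.2
  h₁₂ := by
    refine div_ne_zero ?_ (by norm_num)
    exact_mod_cast (by omega : (4 * j - 1 : ℤ) ≠ 0)
  h₂₃ := by simp [hk]
  h₃₁ := by
    intro e
    apply h
    apply Int.cast_injective (α := Qb)
    push_cast
    linear_combination -4 * e

section Node

variable {K : Type*} [Field K] {A : ValuationSubring K} {W : WeierstrassCurve.Affine K}
  {S : Split W}

/-- A node gives multiplicative reduction. -/
theorem Node.val_c₄_Δ (hS : Node A S) [CharZero K] :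
    A.valuation W.c₄ = 1 ∧ A.valuation W.Δ < 1 := by
  have hb := W.b_relation
  rw [S.hb₂, S.hb₄, S.hb₆] at hb
  have h23 : A.valuation (4 * (S.e₂ - S.e₃)) = 1 := by
    rw [show 4 * (S.e₂ - S.e₃) = 4 * (S.e₁ - S.e₃) + -(4 * (S.e₁ - S.e₂)) by ring, val_add_eq_left]
    · exact hS.far
    · rw [Valuation.map_neg, hS.far, map_mul]
      exact val_mul_lt_one_of_le_of_lt (val_ofNat_le_one 4) hS.near_lt
  constructor
  · rw [show W.c₄ = 4 * (S.e₁ - S.e₃) * (4 * (S.e₂ - S.e₃)) + (4 * (S.e₁ - S.e₂)) ^ 2 by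
      simp only [WeierstrassCurve.c₄, S.hb₂, S.hb₄]; ring, val_add_eq_left, map_mul, hS.far, h23,
      one_mul]
    rw [map_mul, hS.far, h23, one_mul, map_pow]
    refine pow_lt_one₀ zero_le ?_ two_ne_zero
    rw [map_mul]
    exact val_mul_lt_one_of_le_of_lt (val_ofNat_le_one 4) hS.near_lt
  · rw [show W.Δ = S.c ^ 2 * (4 * (S.e₂ - S.e₃)) ^ 2 by
      simp only [WeierstrassCurve.Δ, Split.c]
      rw [S.hb₂, S.hb₄, S.hb₆]
      linear_combination -((-4 * (S.e₁ + S.e₂ + S.e₃)) ^ 2 / 4) * hb, map_mul, map_pow, map_pow,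
      h23, one_pow, mul_one]
    exact pow_lt_one₀ zero_le hS.c_lt two_ne_zero

end Node

variable {P : FreyPackage} {p : ℕ} [hpf : Fact p.Prime] (D : FreyLine P p)

lemma FreyLine.val_m_le {ℓ : ℕ} (hℓ : ℓ.Prime) (h2 : ℓ ≠ 2) {A : ValuationSubring Qb}
    (hA : A.LiesOverPrime ℓ) {T : Split (freyQb P)} (hT : IsRot P T) :
    A.valuation (D.m T) ≤ 1 := by
  by_cases hbad : (ℓ : ℤ) ∣ P.a * P.b * P.c
  · obtain ⟨S, hrot, hS⟩ := exists_node P hℓ hbad
    obtain ⟨h1, h1', h3⟩ := D.val_m hℓ hbad hA hrot (hS A hA)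
    have h16 : A.valuation (16 : Qb) = 1 := by
      rw [show (16 : Qb) = 4 ^ 2 by norm_num, map_pow, val_four_eq_one hℓ hA h2, one_pow]
    rw [h16] at h3
    rcases hrot with rfl | rfl | rfl <;> rcases hT with rfl | rfl | rfl <;>
      (try simp only [Split.rot_rot_rot] at h1 h1' h3 ⊢) <;>
      first | exact h3.le | exact h1.le | exact h1'.le
  · exact (D.val_m_good hℓ hbad hA hT).le

lemma FreyLine.val_m_two {A : ValuationSubring Qb} (hA : A.LiesOverPrime 2) :
    A.valuation (D.m (freySplit P)) = 1 ∧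
      A.valuation (D.m (freySplit P).rot) < A.valuation (16 : Qb) := by
  have hbad : ((2 : ℕ) : ℤ) ∣ P.a * P.b * P.c := by exact_mod_cast P.two_dvd_abc
  obtain ⟨S, hrot, hS⟩ := exists_node P Nat.prime_two hbad
  obtain rfl := node_two hrot hA (hS A hA)
  obtain ⟨-, h1, h3⟩ := D.val_m Nat.prime_two hbad hA hrot (hS A hA)
  simp only [Split.rot_rot_rot] at h1
  exact ⟨h1, h3⟩

lemma odd_sq_scale {a x : ℤ} {s : ℚ} (ha : ¬ (2 : ℤ) ∣ a) (hx : (x : ZMod 4) = 3)
    (h : (a : ℚ) = x * s ^ 2) : (a : ZMod 4) = 3 := by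
  have he : a * (s.den : ℤ) ^ 2 = x * s.num ^ 2 := by
    apply Int.cast_injective (α := ℚ)
    push_cast
    rw [h, mul_assoc, ← mul_pow, Rat.mul_den_eq_num]
  have h4 := congrArg (Int.cast : ℤ → ZMod 4) he
  push_cast at h4
  rw [hx] at h4
  have key : ∀ a d n : ZMod 4, (a = 1 ∨ a = 3) → a * d ^ 2 = 3 * n ^ 2 →
      (d = 1 ∨ d = 3 ∨ n = 1 ∨ n = 3) → a = 3 := by decide
  have hodd : ∀ z : ℤ, ¬ (2 : ℤ) ∣ z → (z : ZMod 4) = 1 ∨ (z : ZMod 4) = 3 := fun z hz => by
    have : z % 4 = 1 ∨ z % 4 = 3 := by omega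
    rcases this with e | e
    · exact Or.inl (by rw [← Int.cast_one]; exact (ZMod.intCast_eq_intCast_iff' z 1 4).2 (by omega))
    · exact Or.inr (by
        rw [show (3 : ZMod 4) = ((3 : ℤ) : ZMod 4) by norm_num]
        exact (ZMod.intCast_eq_intCast_iff' z 3 4).2 (by omega))
  refine key _ _ _ (hodd a ha) h4 ?_
  by_cases hn : (2 : ℤ) ∣ s.num
  · have hd : ¬ (2 : ℤ) ∣ (s.den : ℤ) := fun hd => Nat.prime_two.not_dvd_one
      (s.reduced.gcd_eq_one ▸ Nat.dvd_gcd (Int.natCast_dvd.mp (by exact_mod_cast hn))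
        (Int.natCast_dvd_natCast.mp (by exact_mod_cast hd)))
    rcases hodd _ hd with e | e <;> push_cast at e
    · exact Or.inl e
    · exact Or.inr (Or.inl e)
  · rcases hodd _ hn with e | e
    · exact Or.inr (Or.inr (Or.inl e))
    · exact Or.inr (Or.inr (Or.inr e))

/-- The parameters of the model. -/
theorem FreyLine.exists_params : ∃ j k : ℤ,
    -D.m (freySplit P) = 4 * (j : Qb) - 1 ∧ -D.m (freySplit P).rot = 16 * (k : Qb) := by
  have r0 : IsRot P (freySplit P) := Or.inl rfl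
  obtain ⟨qa, hqa⟩ := D.m_rat r0
  obtain ⟨qb, hqb⟩ := D.m_rat r0.rot
  obtain ⟨a, ha⟩ : ∃ z : ℤ, -qa = z := rat_mem_range_int fun q hq => by
    obtain ⟨A, hA⟩ := FermatAgent.RT.exists_liesOverPrime hq
    refine ⟨A, hA, ?_⟩
    rw [map_neg, Valuation.map_neg, hqa]
    by_cases h2 : q = 2
    · subst h2; exact (D.val_m_two hA).1.le
    · exact D.val_m_le hq h2 hA r0
  obtain ⟨k, hk⟩ : ∃ z : ℤ, -qb / 16 = z := rat_mem_range_int fun q hq => by
    obtain ⟨A, hA⟩ := FermatAgent.RT.exists_liesOverPrime hq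
    refine ⟨A, hA, ?_⟩
    rw [map_div₀, map_neg, hqb, map_ofNat, map_div₀, Valuation.map_neg,
      div_le_one₀ (zero_lt_iff.2 ((_root_.map_ne_zero _).2 (by norm_num)))]
    by_cases h2 : q = 2
    · subst h2; exact (D.val_m_two hA).2.le
    · rw [show (16 : Qb) = 4 ^ 2 by norm_num, map_pow, val_four_eq_one hq hA h2, one_pow]
      exact D.val_m_le hq h2 hA r0.rot
  have hA'' : -D.m (freySplit P) = (a : Qb) := by
    rw [← hqa, ← map_neg, ha, map_intCast]
  obtain ⟨r1, h1⟩ := D.hv_rat r0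
  obtain ⟨r2, h2⟩ := D.hv_rat r0.rot
  obtain ⟨r3, h3⟩ := D.hv_rat r0.rot.rot
  set x : ℤ := (P.a ^ P.p) ^ p with hx
  set s : ℚ := (p : ℚ) ^ D.expo * r3 / (2 ^ (2 * D.L.H.card) * r1 * r2) with hs
  have hsq : (a : ℚ) = x * s ^ 2 := by
    apply (algebraMap ℚ Qb).injective
    simp only [map_intCast, map_mul, map_pow, hs, map_div₀, map_zpow₀, map_natCast, map_ofNat,
      h1, h2, h3, hx, Int.cast_pow]
    rw [← hA'', FreyLine.m, Line.D, FreyLine.scale]
    have hpp := D.L.two_mul_card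
    have n1 := D.L.hv_ne_zero (freySplit P)
    have n2 := D.L.hv_ne_zero (freySplit P).rot
    have e : (freySplit P).e₁ - (freySplit P).e₂ = (P.a : Qb) ^ P.p / 4 := by simp [freySplit]
    rw [e, div_pow, show (4 : Qb) ^ p = ((2 : Qb) ^ (2 * D.L.H.card)) ^ 2 * 4 by
      rw [← pow_mul, show (4 : Qb) = 2 ^ 2 by norm_num, ← pow_mul, ← pow_add]
      congr 1; omega]
    field_simp
  have haodd : ¬ (2 : ℤ) ∣ a := fun hd => by
    obtain ⟨A, hA⟩ := FermatAgent.RT.exists_liesOverPrime Nat.prime_two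
    have h1 := (D.val_m_two hA).1
    rw [← Valuation.map_neg, hA''] at h1
    exact ((val_intCast_lt_one_iff Nat.prime_two hA a).2 (by exact_mod_cast hd)).ne h1
  have hx4 : (x : ZMod 4) = 3 := by
    rw [hx]; push_cast
    rw [P.ha4, show (3 : ZMod 4) = -1 from rfl, P.hp_odd.neg_one_pow, D.L.odd.neg_one_pow]
  obtain ⟨j, hj⟩ : (4 : ℤ) ∣ a + 1 := by
    refine (ZMod.intCast_zmod_eq_zero_iff_dvd _ 4).1 ?_
    push_cast
    rw [odd_sq_scale haodd hx4 hsq]; decide
  refine ⟨j, k, ?_, ?_⟩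
  · rw [hA'', show a = 4 * j - 1 by omega]; push_cast; ring
  · rw [← hqb, ← map_intCast (algebraMap ℚ Qb), ← hk, map_div₀, map_neg, map_ofNat]; ring

/-- A rational point fixed by Galois above a point outside the line. -/
lemma FreyLine.image_fixed {S : Split (freyQb P)} (hrot : IsRot P S) (σ : GQ)
    {Q : (freyQb P).Point} (hQ : p • Q = 0) :
    σ (D.L.R S Q) = D.L.R S Q ∧ σ (D.L.Z' Q) = D.L.Z' Q := by
  obtain ⟨m, hm⟩ := D.cofixed σ Q hQ
  choose f hf using fun n => D.stable σ n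
  have hfinj : Function.Injective f := fun a b h => D.L.pt_injective (by
    have := (hf a).trans ((congrArg D.L.pt h).trans (hf b).symm)
    exact smul_left_cancel σ this)
  let π : ZMod p ≃ ZMod p :=
    Equiv.ofBijective f ⟨hfinj, Finite.injective_iff_surjective.1 hfinj⟩
  have hsm : ∀ n, σ • (Q + D.L.pt n) = Q + D.L.pt (m + π n) := fun n => by
    rw [galois_smul_eq_conjPoint, map_add, ← galois_smul_eq_conjPoint, ← galois_smul_eq_conjPoint, hf,
      sub_eq_iff_eq_add.1 hm, D.L.pt_add]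
    show _ = Q + (D.L.pt m + D.L.pt (f n))
    abel
  have hfe : ∀ T : (freyQb P).Point, σ (eta T) = eta (σ • T) := fun T => by
    rcases T with _ | ⟨x, y, h⟩
    · rw [show σ • (Point.zero : (freyQb P).Point) = Point.zero from rfl]
      simp only [eta, yCoord, xCoord, mul_zero, zero_add, map_div₀, map_ofNat]
      rw [show (freyQb P).a₃ = 0 from freyQb_a₃ P, _root_.map_zero]
    · rw [eta, eta, algEquiv_smul_def, Point.map_some]
      simp [yCoord, map_div₀, map_ofNat]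
  obtain ⟨r, hr⟩ := D.hv_rat hrot
  constructor
  · rw [Line.R, map_div₀, map_prod, map_pow, ← hr, AlgEquiv.commutes]
    congr 1
    refine Fintype.prod_equiv (π.trans (Equiv.addLeft m)) _ _ fun n => ?_
    rw [map_sub, (hrot.fixed σ).1, ← xCoord_smul, hsm]
    rfl
  · have hden : σ (∏ k ∈ D.L.H, (eta (D.L.pt k) * eta (D.L.pt (-k)))) =
        ∏ k ∈ D.L.H, (eta (D.L.pt k) * eta (D.L.pt (-k))) := by
      set g : ZMod p → Qb := fun n => if n = 0 then 1 else eta (D.L.pt n) with hg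
      have h0 : f 0 = 0 := D.L.pt_injective (by rw [← hf, D.L.pt_zero, smul_zero])
      have hpr : ∏ k ∈ D.L.H, (eta (D.L.pt k) * eta (D.L.pt (-k))) = ∏ n, g n := by
        rw [D.L.prod_univ, hg]
        simp only [if_pos, one_mul]
        refine Finset.prod_congr rfl fun k hk => ?_
        rw [if_neg (D.L.ne_zero_of_mem_H hk), if_neg (neg_ne_zero.2 (D.L.ne_zero_of_mem_H hk))]
      rw [hpr, map_prod]
      refine Fintype.prod_equiv π _ _ fun n => ?_
      show σ (g n) = g (f n)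
      simp only [hg]
      by_cases hn : n = 0
      · rw [hn, h0, if_pos rfl, map_one]
      · rw [if_neg hn, if_neg fun h => hn (hfinj (h.trans h0.symm)), hfe, hf]
    rw [Line.Z', map_div₀, map_prod, hden]
    congr 1
    refine Fintype.prod_equiv (π.trans (Equiv.addLeft m)) _ _ fun n => ?_
    rw [hfe, hsm]
    rfl

/-- The image of a smooth point stays smooth when the line is outside, and conversely. -/
lemma FreyLine.val_R {ℓ : ℕ} (hℓ : ℓ.Prime) (hℓp : ℓ ≠ p) {A : ValuationSubring Qb}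
    (hA : A.LiesOverPrime ℓ) {S : Split (freyQb P)} (hrot : IsRot P S) (hS : Node A S)
    {Q : (freyQb P).Point} (hQ : p • Q = 0) (hoff : D.L.Off Q) :
    (InE0 A (freyQb P) Q → ¬ D.InAt A → A.valuation (D.L.R S Q) = 1) ∧
    (¬ InE0 A (freyQb P) Q → D.InAt A → A.valuation (D.L.R S Q) < 1) := by
  have hx := xCoord_mem hℓ hA hℓp hQ
  set u := xCoord Q - S.e₁
  have hkey : ∀ w : ZMod p → A.ValueGroup, (∀ k ∈ D.L.H, A.valuation (D.L.xs k - S.e₁) = w k) →
      (∀ k ∈ D.L.H, A.valuation u ≠ w k) →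
      (∀ k ∈ D.L.H, A.valuation (xCoord Q - D.L.xs k) = max (A.valuation u) (w k)) := by
    intro w hw hne k hk
    rw [show xCoord Q - D.L.xs k = u - (D.L.xs k - S.e₁) by ring, ← hw k hk,
      sub_eq_add_neg, A.valuation.map_add_of_distinct_val
        (by rw [Valuation.map_neg, hw k hk]; exact hne k hk), Valuation.map_neg]
  have hmul := congrArg A.valuation (D.L.R_mul S hoff)
  rw [map_mul, map_pow, Line.h_eval, map_prod, Line.N, Polynomial.eval_mul, Polynomial.eval_pow,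
    map_mul, map_pow, Line.G_eval, map_prod, Polynomial.eval_sub, Polynomial.eval_X,
    Polynomial.eval_C] at hmul
  constructor
  · intro hin hout
    have hu : A.valuation u = 1 :=
      ((hS.inE0_iff (freyQb_intCoeffs A) hoff.ne_zero).1 hin).resolve_left (not_not.2 hx)
    have hd : ∀ k ∈ D.L.H, A.valuation (xCoord Q - D.L.xs k) = 1 := fun k hk => by
      obtain ⟨-, -, hlt, -, -⟩ := D.vals_out hS hout (D.L.ne_zero_of_mem_H hk)
      rw [hkey _ (fun _ _ => rfl) (fun k hk => by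
        rw [hu]; exact (D.vals_out hS hout (D.L.ne_zero_of_mem_H hk)).2.2.1.ne') k hk, hu,
        max_eq_left hlt.le]
    have hn : ∀ k ∈ D.L.H,
        A.valuation (xCoord Q - (S.e₁ + S.c / (D.L.xs k - S.e₁))) = 1 := fun k hk => by
      obtain ⟨-, hc, hlt, -, -⟩ := D.vals_out hS hout (D.L.ne_zero_of_mem_H hk)
      rw [← sub_sub, ← hu]
      refine A.valuation.map_sub_eq_of_lt_left ?_
      rw [map_div₀, hu]
      exact (div_lt_one₀ (lt_of_le_of_lt zero_le hc)).2 hc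
    rw [Finset.prod_eq_one hd, Finset.prod_eq_one hn, one_pow, mul_one, mul_one, hu] at hmul
    exact hmul
  · intro hout hin
    obtain ⟨-, -, hu⟩ := hS.of_not_inE0 (freyQb_intCoeffs A) hout
    have hd : ∀ k ∈ D.L.H, A.valuation (xCoord Q - D.L.xs k) = 1 := fun k hk => by
      have hw := (D.vals_in hℓ hA hrot hS hin (D.L.ne_zero_of_mem_H hk)).2.1 hℓp
      rw [hkey _ (fun _ _ => rfl) (fun k hk => by
        rw [(D.vals_in hℓ hA hrot hS hin (D.L.ne_zero_of_mem_H hk)).2.1 hℓp]; exact hu.ne) k hk,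
        hw, max_eq_right hu.le]
    have hn : ∀ k ∈ D.L.H,
        A.valuation (xCoord Q - (S.e₁ + S.c / (D.L.xs k - S.e₁))) ≤ 1 := fun k hk => by
      have hw := (D.vals_in hℓ hA hrot hS hin (D.L.ne_zero_of_mem_H hk)).2.1 hℓp
      rw [← sub_sub]
      refine A.valuation.map_sub_le hu.le ?_
      rw [map_div₀, hw, div_one]; exact hS.c_lt.le
    rw [Finset.prod_eq_one hd, one_pow, mul_one] at hmul
    rw [hmul]
    exact val_mul_lt_one_of_lt_of_le hu (pow_le_one₀ zero_le (Finset.prod_le_one' hn))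

/-- The quotient curve, with its rational point of order `p` for each point outside the line. -/
theorem FreyLine.exists_quotient : ∃ W' : WeierstrassCurve ℤ, W'.Δ ≠ 0 ∧
    (∀ ℓ : ℕ, ℓ.Prime → (ℓ : ℤ) ∣ P.a * P.b * P.c → (ℓ : ℤ) ∣ W'.Δ ∧ ¬ (ℓ : ℤ) ∣ W'.c₄) ∧
    ∀ Q : (freyQb P).Point, p • Q = 0 → D.L.Off Q →
      ∃ Φ : (qbarCurve W').Point, (∀ σ : GQ, σ • Φ = Φ) ∧ addOrderOf Φ = p ∧
        ∀ ℓ : ℕ, ℓ.Prime → ℓ ≠ p → (ℓ : ℤ) ∣ P.a * P.b * P.c → ∀ A : ValuationSubring Qb,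
          A.LiesOverPrime ℓ →
          (InE0 A (freyQb P) Q → ¬ D.InAt A → InE0 A (qbarCurve W') Φ) ∧
          (¬ InE0 A (freyQb P) Q → D.InAt A → ¬ InE0 A (qbarCurve W') Φ) := by
  obtain ⟨j, k, hj, hk⟩ := D.exists_params
  have hk0 : k ≠ 0 := by
    rintro rfl
    exact D.m_ne (freySplit P).rot (by linear_combination -hk)
  have h0 : (4 * j - 1) + 16 * k ≠ 0 := fun h => by
    refine D.m_ne (freySplit P).rot.rot ?_
    have hc := D.m_cyclic (freySplit P)
    have : (4 * (j : Qb) - 1) + 16 * (k : Qb) = 0 := by exact_mod_cast congrArg (Int.cast : ℤ → Qb) h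
    linear_combination hc + hj + hk + this
  set W' := quotCurve j k
  set T₀ := quotSplit j k hk0 h0
  set u := D.scale
  have hq0 : Quot D.L (freySplit P) T₀ u := by
    refine ⟨D.scale_ne, ?_, ?_⟩
    · simp only [T₀, quotSplit]
      simp only [FreyLine.m] at hj
      linear_combination -(1 / 4 : Qb) * hj
    · simp only [T₀, quotSplit]
      simp only [FreyLine.m] at hk
      linear_combination -(1 / 4 : Qb) * hk
  have hΔ : W'.Δ ≠ 0 := fun h => T₀.Δ_ne_zero (by rw [qbarCurve_Δ, h, Int.cast_zero])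
  -- nodes of the model
  have hnode : ∀ ℓ : ℕ, ℓ.Prime → (ℓ : ℤ) ∣ P.a * P.b * P.c → ∀ A : ValuationSubring Qb,
      A.LiesOverPrime ℓ → ∃ S : Split (freyQb P), ∃ T : Split (qbarCurve W'),
        IsRot P S ∧ Node A S ∧ Node A T ∧ Quot D.L S T u ∧
        ∀ Q, D.L.Off Q → D.L.X' S T u Q = D.L.X' (freySplit P) T₀ u Q := by
    intro ℓ hℓ hbad A hA
    obtain ⟨S, hrot, hS⟩ := exists_node P hℓ hbad
    obtain ⟨T, hq, hX, he⟩ : ∃ T : Split (qbarCurve W'), Quot D.L S T u ∧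
        (∀ Q, D.L.Off Q → D.L.X' S T u Q = D.L.X' (freySplit P) T₀ u Q) ∧ T.e₁ ∈ A := by
      have h4 : ℓ ≠ 2 → (4 : Qb)⁻¹ ∈ A := fun h2 =>
        mem_of_val_le_one (by rw [map_inv₀, val_four_eq_one hℓ hA h2, inv_one])
      rcases hrot with rfl | rfl | rfl
      · refine ⟨T₀, hq0, fun _ _ => rfl, ?_⟩
        have h2 : ℓ ≠ 2 := fun e => by
          subst e
          exact absurd (node_two (Or.inl rfl) hA (hS A hA)).symm (fun h => (freySplit P).h₁₂
            (congrArg Split.e₁ h).symm)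
        simp only [T₀, quotSplit, div_eq_mul_inv]
        exact mul_mem (sub_mem (mul_mem (natCast_mem A 4) (intCast_mem A j)) (one_mem A)) (h4 h2)
      · exact ⟨T₀.rot, hq0.rot, fun Q hQ => Line.X'_rot hq0 hQ, zero_mem A⟩
      · refine ⟨T₀.rot.rot, hq0.rot.rot,
          fun Q hQ => (Line.X'_rot hq0.rot hQ).trans (Line.X'_rot hq0 hQ), ?_⟩
        exact mul_mem (neg_mem (natCast_mem A 4)) (intCast_mem A k)
    obtain ⟨-, h1, h3⟩ := D.val_m hℓ hbad hA hrot (hS A hA)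
    have e13 : 4 * (T.e₁ - T.e₃) = D.m S.rot.rot := by
      have := hq.rot.rot.h₁₂
      simp only [Split.rot] at this
      simp only [FreyLine.m, Split.rot]
      linear_combination -4 * this
    refine ⟨S, T, hrot, hS A hA, ⟨he, by rw [e13]; exact h1, ?_⟩, hq, hX⟩
    have : 16 * T.c = -(D.m S * D.m S.rot.rot) := by
      simp only [Split.c]
      rw [← e13, hq.h₁₂]
      simp only [FreyLine.m]; ring
    have h16 : A.valuation (16 : Qb) * A.valuation T.c < A.valuation (16 : Qb) * 1 := by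
      rw [← map_mul, this, Valuation.map_neg, map_mul, h1, mul_one, mul_one]
      exact h3
    exact lt_of_mul_lt_mul_left' h16
  refine ⟨W', hΔ, fun ℓ hℓ hbad => ?_, fun Q hQ hoff => ?_⟩
  · obtain ⟨A, hA⟩ := FermatAgent.RT.exists_liesOverPrime hℓ
    obtain ⟨S, T, -, -, hT, -, -⟩ := hnode ℓ hℓ hbad A hA
    obtain ⟨hc, hd⟩ := hT.val_c₄_Δ
    rw [qbarCurve_Δ] at hd
    rw [qbarCurve_c₄] at hc
    exact ⟨(val_intCast_lt_one_iff hℓ hA _).1 hd,
      fun h => ((val_intCast_lt_one_iff hℓ hA _).2 h).ne hc⟩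
  have hns := Line.exists_image hq0 hoff
  set Φ : (qbarCurve W').Point := Point.some _ _ hns
  have hp5 := D.five_le
  have hord : p • Φ = 0 := Line.nsmul_image hq0 hp5 hQ hoff (Point.some_ne_zero hns) rfl
  refine ⟨Φ, fun σ => ?_, addOrderOf_eq_prime hord (Point.some_ne_zero hns),
    fun ℓ hℓ hℓp hbad A hA => ?_⟩
  · obtain ⟨hR, hZ⟩ := D.image_fixed (Or.inl rfl) σ hQ
    rw [algEquiv_smul_def, Point.map_some]
    refine (Point.some.injEq ..).mpr ⟨?_, ?_⟩
    · show σ (D.L.X' _ T₀ u Q) = _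
      simp [Line.X', T₀, quotSplit, u, hR, D.scale_fixed, map_div₀, map_ofNat]
    · show σ _ = _
      simp [Line.X', T₀, quotSplit, u, qbarCurve_eq, quotCurve, hR, hZ, D.scale_fixed,
        map_div₀, map_ofNat]
  obtain ⟨S, T, hrot, hS, hT, hq, hX⟩ := hnode ℓ hℓ hbad A hA
  obtain ⟨hin, hout⟩ := D.val_R hℓ hℓp hA hrot hS hQ hoff
  have hu : A.valuation u = 1 := D.val_scale hℓ hℓp hA
  have hx : xCoord Φ - T.e₁ = u ^ 2 * D.L.R S Q := by
    show D.L.X' _ T₀ u Q - T.e₁ = _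
    rw [← hX Q hoff, Line.X', add_sub_cancel_left]
  have hv : A.valuation (xCoord Φ - T.e₁) = A.valuation (D.L.R S Q) := by
    rw [hx, map_mul, map_pow, hu, one_pow, one_mul]
  rw [hT.inE0_iff (qbarCurve_intCoeffs W' A) (Point.some_ne_zero hns), hv]
  refine ⟨fun h1 h2 => Or.inr (hin h1 h2), fun h1 h2 h => ?_⟩
  rcases h with h | h
  · refine h ?_
    rw [← sub_add_cancel (xCoord Φ) T.e₁]
    exact add_mem (mem_of_val_le_one (hv ▸ (hout h1 h2).le)) hT.e_mem
  · exact (hout h1 h2).ne h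

end FermatAgent.Mazur
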