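import Fermat.Agent.Mazur.FreyCriterion

/-!
The scaled differences which define the quotient of the Frey curve by a cofixed line.
-/

set_option autoImplicit false

noncomputable section

open scoped WeierstrassCurve.Affine

namespace FermatAgent.Mazur

open WeierstrassCurve WeierstrassCurve.Affine WeierstrassCurve.Affine.Point FermatAgent.LocalP
open FermatAgent.Local

local notation "Qb" => AlgebraicClosure ℚ
local notation "GQ" => AlgebraicClosure ℚ ≃ₐ[ℚ] AlgebraicClosure ℚ

lemma rat_mem_range_int {r : ℚ}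
    (h : ∀ q : ℕ, q.Prime → ∃ A : ValuationSubring (AlgebraicClosure ℚ),
      A.LiesOverPrime q ∧ A.valuation (algebraMap ℚ Qb r) ≤ 1) : ∃ z : ℤ, r = z := by
  refine ⟨r.num, (Rat.coe_int_num_of_den_eq_one ?_).symm⟩
  by_contra hne
  obtain ⟨q, hq, hqd⟩ := Nat.exists_prime_and_dvd hne
  obtain ⟨A, hA, hv⟩ := h q hq
  have he := congrArg (fun z : ℚ => A.valuation (algebraMap ℚ Qb z)) (Rat.mul_den_eq_num r)
  simp only [map_mul, map_intCast, map_natCast] at he
  have hlt : A.valuation ((r.den : ℤ) : Qb) < 1 :=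
    (val_intCast_lt_one_iff hq hA _).2 (Int.natCast_dvd_natCast.2 hqd)
  rw [Int.cast_natCast] at hlt
  have h1 : A.valuation (r.num : Qb) < 1 := he ▸ val_mul_lt_one_of_le_of_lt hv hlt
  exact hq.not_dvd_one (r.reduced.gcd_eq_one ▸
    Nat.dvd_gcd (Int.natCast_dvd.mp ((val_intCast_lt_one_iff hq hA _).1 h1)) hqd)

lemma val_two_four {A : ValuationSubring Qb} (hA : A.LiesOverPrime 2) :
    A.valuation (4 : Qb) < 1 := by
  rw [show (4 : Qb) = ((2 : ℕ) : Qb) * ((2 : ℕ) : Qb) by norm_num, map_mul]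
  exact val_mul_lt_one_of_lt_of_le (val_natCast_lt_one hA) (val_natCast_lt_one hA).le

variable {P : FreyPackage}

/-- The node at a place over `2`. -/
lemma node_two {S : Split (freyQb P)} (hrot : IsRot P S) {A : ValuationSubring Qb}
    (hA : A.LiesOverPrime 2) (hN : Node A S) : S = (freySplit P).rot := by
  have hb : (2 : ℤ) ∣ P.b := (ZMod.intCast_zmod_eq_zero_iff_dvd P.b 2).1 P.hb2
  rcases hrot with rfl | rfl | rfl
  · exfalso
    have ha : A.valuation ((P.a : Qb) ^ P.p) = 1 := by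
      rw [map_pow, val_intCast_eq_one Nat.prime_two hA, one_pow]
      intro ha
      have := dvd_gcd ha hb
      rw [P.hgcdab] at this
      exact absurd this (by norm_num)
    have := val_le_one_of_mem hN.e_mem
    simp only [freySplit, map_div₀, ha, one_div] at this
    exact absurd this (not_le.2 ((one_lt_inv₀
      (zero_lt_iff.2 ((_root_.map_ne_zero _).2 (by norm_num)))).2 (val_two_four hA)))
  · rfl
  · exfalso
    have hfar := hN.far
    simp only [freySplit, Split.rot] at hfar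
    rw [show 4 * (-((P.b : Qb) ^ P.p) / 4 - 0) = -((P.b : Qb) ^ P.p) by ring,
      Valuation.map_neg, map_pow] at hfar
    exact (pow_lt_one₀ zero_le ((val_intCast_lt_one_iff Nat.prime_two hA _).2 hb) P.hp0).ne hfar

variable {p : ℕ} [hpf : Fact p.Prime] (D : FreyLine P p)

/-- The scaling exponent. -/
def FreyLine.expo : ℤ :=
  padicValRat p (D.hv_rat (S := (freySplit P).rot) (Or.inr (Or.inl rfl))).choose

/-- The scale. -/
def FreyLine.scale : Qb := (p : Qb) ^ D.expo

lemma FreyLine.scale_ne : D.scale ≠ 0 :=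
  zpow_ne_zero _ (Nat.cast_ne_zero.2 hpf.out.ne_zero)

lemma FreyLine.scale_fixed (σ : GQ) : σ D.scale = D.scale := by
  rw [FreyLine.scale, map_zpow₀, map_natCast]

lemma FreyLine.val_scale {ℓ : ℕ} (hℓ : ℓ.Prime) (hℓp : ℓ ≠ p) {A : ValuationSubring Qb}
    (hA : A.LiesOverPrime ℓ) : A.valuation D.scale = 1 := by
  rw [FreyLine.scale, map_zpow₀, val_natCast_eq_one hℓ hA, one_zpow]
  exact fun h => hℓp ((Nat.prime_dvd_prime_iff_eq hℓ hpf.out).1 h)

lemma FreyLine.val_scale_p {A : ValuationSubring Qb} (hA : A.LiesOverPrime p) :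
    A.valuation D.scale = A.valuation (D.L.hv (freySplit P).rot) := by
  have hs := (D.hv_rat (S := (freySplit P).rot) (Or.inr (Or.inl rfl))).choose_spec
  set r := (D.hv_rat (S := (freySplit P).rot) (Or.inr (Or.inl rfl))).choose with hr
  have hr0 : r ≠ 0 := fun h => D.L.hv_ne_zero (freySplit P).rot
    (by rw [← hs, h, _root_.map_zero])
  have hp0 : (p : ℚ) ≠ 0 := Nat.cast_ne_zero.2 hpf.out.ne_zero
  set s : ℚ := r / (p : ℚ) ^ D.expo with hsdef
  have hv0 : padicValRat p s = 0 := by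
    rw [hsdef, padicValRat.div hr0 (zpow_ne_zero _ hp0), padicValRat.zpow,
      padicValRat.self hpf.out.one_lt, mul_one, FreyLine.expo, sub_self]
  have hs0 : s ≠ 0 := div_ne_zero hr0 (zpow_ne_zero _ hp0)
  have hnd : ¬ (p : ℤ) ∣ s.num := by
    intro hd
    have hden : ¬ p ∣ s.den := fun h => hpf.out.not_dvd_one
      (s.reduced.gcd_eq_one ▸ Nat.dvd_gcd (Int.natCast_dvd.mp hd) h)
    rw [padicValRat_def, padicValNat.eq_zero_of_not_dvd hden, Nat.cast_zero, sub_zero] at hv0
    have h1 : 1 ≤ padicValInt p s.num := by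
      have := (padicValInt_dvd_iff 1 s.num).1 (by simpa using hd)
      exact this.resolve_left (Rat.num_ne_zero.2 hs0)
    omega
  have hden : ¬ p ∣ s.den := by
    intro hd
    have hn : padicValInt p s.num = 0 := padicValInt.eq_zero_of_not_dvd hnd
    rw [padicValRat_def, hn, Nat.cast_zero, zero_sub, neg_eq_zero, Nat.cast_eq_zero] at hv0
    have := one_le_padicValNat_of_dvd s.den_ne_zero hd
    omega
  have hval : A.valuation (algebraMap ℚ Qb s) = 1 := by
    have he := congrArg (fun z : ℚ => A.valuation (algebraMap ℚ Qb z)) (Rat.mul_den_eq_num s)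
    simp only [map_mul, map_intCast, map_natCast] at he
    rw [val_intCast_eq_one hpf.out hA hnd, val_natCast_eq_one hpf.out hA hden, mul_one] at he
    exact he
  rw [← hs, show algebraMap ℚ Qb r = algebraMap ℚ Qb s * D.scale by
    rw [FreyLine.scale, ← map_natCast (algebraMap ℚ Qb) p, ← map_zpow₀, ← map_mul, hsdef,
      div_mul_cancel₀ _ (zpow_ne_zero _ hp0)], map_mul, hval, one_mul]

/-- The scaled differences. -/
def FreyLine.m (S : Split (freyQb P)) : Qb := 4 * D.scale ^ 2 * D.L.D S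

lemma FreyLine.m_ne (S : Split (freyQb P)) : D.m S ≠ 0 := by
  refine mul_ne_zero (mul_ne_zero (by norm_num) (pow_ne_zero 2 D.scale_ne)) ?_
  rw [Line.D]
  exact div_ne_zero (mul_ne_zero (neg_ne_zero.2 (pow_ne_zero _ (sub_ne_zero.2 S.h₁₂)))
    (pow_ne_zero 2 (D.L.hv_ne_zero _)))
    (mul_ne_zero (pow_ne_zero 2 (D.L.hv_ne_zero _)) (pow_ne_zero 2 (D.L.hv_ne_zero _)))

lemma FreyLine.m_cyclic (S : Split (freyQb P)) : D.m S + D.m S.rot + D.m S.rot.rot = 0 := by
  simp only [FreyLine.m]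
  linear_combination 4 * D.scale ^ 2 * D.L.D_cyclic S

lemma FreyLine.val_D {A : ValuationSubring Qb} (S : Split (freyQb P)) :
    A.valuation (D.L.D S) = A.valuation (S.e₁ - S.e₂) ^ p * A.valuation (D.L.hv S.rot.rot) ^ 2 /
      (A.valuation (D.L.hv S) ^ 2 * A.valuation (D.L.hv S.rot) ^ 2) := by
  rw [Line.D, map_div₀, map_mul, map_mul, Valuation.map_neg, map_pow, map_pow, map_pow, map_pow]

lemma FreyLine.val_D_lt_of_out {ℓ : ℕ} (hℓ : ℓ.Prime) (hℓ2 : ℓ ≠ 2) {A : ValuationSubring Qb}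
    (hA : A.LiesOverPrime ℓ) {S : Split (freyQb P)} (hS : Node A S) (hout : ¬ D.InAt A) :
    A.valuation (D.L.D S) < 1 := by
  have h4 := val_four_eq_one hℓ hA hℓ2
  have hfar : A.valuation (S.e₁ - S.e₃) = 1 := by
    have := hS.far
    rwa [map_mul, h4, one_mul] at this
  have hc : A.valuation S.rot.c = A.valuation S.c := by
    simp only [Split.rot, Split.c]
    rw [map_mul, map_mul, val_sub_three hS, Valuation.map_sub_swap A.valuation S.e₂ S.e₁,
      mul_comm]
  rw [D.L.D_eq_sum, show S.e₂ + 2 * ∑ k ∈ D.L.H, (S.e₂ + S.rot.c / (D.L.xs k - S.e₂)) -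
      (S.e₁ + 2 * ∑ k ∈ D.L.H, (S.e₁ + S.c / (D.L.xs k - S.e₁))) =
      -(S.e₁ - S.e₂) + 2 * ∑ k ∈ D.L.H, (-(S.e₁ - S.e₂) +
        (S.rot.c / (D.L.xs k - S.e₂) - S.c / (D.L.xs k - S.e₁))) by
    simp only [Finset.sum_add_distrib, Finset.sum_sub_distrib, Finset.sum_neg_distrib]; ring]
  refine A.valuation.map_add_lt (by rw [Valuation.map_neg]; exact hS.near_lt) ?_
  rw [map_mul]
  refine val_mul_lt_one_of_le_of_lt (val_ofNat_le_one 2) (A.valuation.map_sum_lt one_ne_zero
    fun k hk => A.valuation.map_add_lt (by rw [Valuation.map_neg]; exact hS.near_lt) ?_)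
  obtain ⟨-, hcl, -, he2, -⟩ := D.vals_out hS hout (D.L.ne_zero_of_mem_H hk)
  have h0 : A.valuation S.c / A.valuation (D.L.xs k - S.e₁) < 1 :=
    (div_lt_one₀ (lt_of_le_of_lt zero_le hcl)).2 hcl
  refine (A.valuation.map_sub _ _).trans_lt (max_lt ?_ ?_) <;> rw [map_div₀]
  · rwa [hc, he2]
  · exact h0

/-- Valuations of the scaled differences at a bad place. -/
theorem FreyLine.val_m {ℓ : ℕ} (hℓ : ℓ.Prime) (hbad : (ℓ : ℤ) ∣ P.a * P.b * P.c)
    {A : ValuationSubring Qb} (hA : A.LiesOverPrime ℓ) {S : Split (freyQb P)} (hrot : IsRot P S)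
    (hS : Node A S) :
    A.valuation (D.m S.rot) = 1 ∧ A.valuation (D.m S.rot.rot) = 1 ∧
      A.valuation (D.m S) < A.valuation (16 : Qb) := by
  have hK := D.L.two_mul_card
  set K := D.L.H.card
  set g := A.valuation (S.e₁ - S.e₃)
  have h4g : A.valuation (4 : Qb) * g = 1 := by rw [← map_mul]; exact hS.far
  have h3 : A.valuation (S.e₂ - S.e₃) = g := val_sub_three hS
  have h31 : A.valuation (S.e₃ - S.e₁) = g := Valuation.map_sub_swap ..
  have hg0 : g ≠ 0 := right_ne_zero_of_mul_eq_one h4g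
  have hhv : ∀ T, A.valuation (D.L.hv T) ≠ 0 := fun T =>
    (_root_.map_ne_zero _).2 (D.L.hv_ne_zero T)
  -- the common shape
  obtain ⟨l, hl, hl2, hg⟩ : ∃ l, A.valuation (D.L.hv S) = l ∧ A.valuation (D.L.hv S.rot) = l ∧
      ((A.valuation D.scale = 1 ∧ A.valuation (D.L.hv S.rot.rot) = g ^ K) ∨
        (A.valuation D.scale = l ∧ A.valuation (D.L.hv S.rot.rot) = l ∧ g = 1)) := by
    by_cases hlp : ℓ = p
    · subst hlp
      have hin := D.inAt_p hbad hA
      have h2 : ℓ ≠ 2 := by have := D.five_le; omega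
      obtain ⟨-, -, e2, e3⟩ := D.hv_in hℓ hA hrot hS hin
      have hg1 : g = 1 := by
        rw [val_four_eq_one hℓ hA h2, one_mul] at h4g; exact h4g
      rw [show A.valuation (S.e₁ - S.e₃) = g from rfl, hg1, one_pow, mul_one] at e3
      refine ⟨_, rfl, e2, Or.inr ⟨?_, e3, hg1⟩⟩
      rw [D.val_scale_p hA]
      rcases hrot with rfl | rfl | rfl
      · exact e2
      · rfl
      · simp only [Split.rot_rot_rot] at e3; exact e3
    · refine ⟨_, rfl, ?_, Or.inl ⟨D.val_scale hℓ hlp hA, ?_⟩⟩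
      all_goals by_cases hin : D.InAt A
      · exact (D.hv_in hℓ hA hrot hS hin).2.2.1
      · exact (D.hv_out hS hin).2.1
      · rw [(D.hv_in hℓ hA hrot hS hin).2.2.2, (D.hv_in hℓ hA hrot hS hin).2.1 hlp, one_mul]
      · exact (D.hv_out hS hin).2.2
  have hl0 : l ≠ 0 := hl ▸ hhv S
  have e1 : A.valuation (D.m S.rot) = 1 ∧ A.valuation (D.m S.rot.rot) = 1 := by
    simp only [FreyLine.m, map_mul, map_pow, D.val_D, Split.rot_rot_rot]
    simp only [show S.rot.e₁ = S.e₂ from rfl, show S.rot.e₂ = S.e₃ from rfl,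
      show S.rot.rot.e₁ = S.e₃ from rfl, show S.rot.rot.e₂ = S.e₁ from rfl, h3, h31, hl, hl2]
    have hpK : g ^ p = g * (g ^ K) ^ 2 := by rw [← pow_mul, ← pow_succ']; congr 1; omega
    rcases hg with ⟨hu, hv⟩ | ⟨hu, hv, hg1⟩ <;> rw [hu, hv]
    · rw [one_pow, mul_one, hpK]
      constructor <;> field_simp <;> exact h4g
    · rw [hg1] at h4g ⊢
      rw [mul_one] at h4g
      rw [h4g, one_pow, one_mul]
      constructor <;> field_simp
  refine ⟨e1.1, e1.2, ?_⟩
  by_cases hin : D.InAt A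
  · -- smooth position
    have hd : A.valuation (D.m S) = A.valuation (4 : Qb) ^ 2 * A.valuation S.c ^ p := by
      rw [show A.valuation S.c = A.valuation (S.e₁ - S.e₂) * g from map_mul .., mul_pow,
        show g ^ p = g * (g ^ K) ^ 2 by rw [← pow_mul, ← pow_succ']; congr 1; omega]
      simp only [FreyLine.m, map_mul, map_pow, D.val_D, hl, hl2]
      rcases hg with ⟨hu, hv⟩ | ⟨hu, hv, hg1⟩ <;> rw [hu, hv]
      · obtain ⟨-, he, -⟩ := D.hv_in hℓ hA hrot hS hin
        by_cases hlp : ℓ = p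
        · subst hlp
          have hg1 : g = 1 := by
            rw [val_four_eq_one hℓ hA (by have := D.five_le; omega), one_mul] at h4g; exact h4g
          have hl1 : l = 1 := by
            obtain ⟨-, -, -, e3⟩ := D.hv_in hℓ hA hrot hS hin
            rw [hl, hv, show A.valuation (S.e₁ - S.e₃) = g from rfl, hg1, one_pow, mul_one] at e3
            exact e3.symm
          rw [hg1, hl1, val_four_eq_one hℓ hA (by have := D.five_le; omega)]; simp
        · rw [← hl, he hlp]
          simp only [one_pow, mul_one, div_one]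
          calc A.valuation 4 * (A.valuation (S.e₁ - S.e₂) ^ p * (g ^ K) ^ 2)
              = A.valuation 4 * (A.valuation 4 * g) *
                  (A.valuation (S.e₁ - S.e₂) ^ p * (g ^ K) ^ 2) := by rw [h4g, mul_one]
            _ = _ := by simp only [sq, mul_comm, mul_assoc, mul_left_comm]
      · rw [hg1] at h4g ⊢
        rw [mul_one] at h4g
        rw [h4g]; field_simp; simp
    rw [hd, show (16 : Qb) = 4 ^ 2 by norm_num, map_pow]
    conv_rhs => rw [← mul_one (A.valuation 4 ^ 2)]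
    exact mul_lt_mul_of_pos_left (pow_lt_one₀ zero_le hS.c_lt hpf.out.ne_zero)
      (pow_pos (zero_lt_iff.2 (left_ne_zero_of_mul_eq_one h4g)) 2)
  · have h2 : ℓ ≠ 2 := fun e => by
      subst e
      exact hin (D.inAt_two_three (Or.inl rfl) hbad hA)
    have hlp : ℓ ≠ p := fun e => by subst e; exact hin (D.inAt_p hbad hA)
    have h4 := val_four_eq_one hℓ hA h2
    rw [show (16 : Qb) = 4 ^ 2 by norm_num, map_pow, h4, one_pow]
    simp only [FreyLine.m, map_mul, map_pow, h4, D.val_scale hℓ hlp hA, one_pow, one_mul]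
    exact D.val_D_lt_of_out hℓ h2 hA hS hin

/-- Valuations of the scaled differences at a good place. -/
theorem FreyLine.val_m_good {ℓ : ℕ} (hℓ : ℓ.Prime) (hgood : ¬ (ℓ : ℤ) ∣ P.a * P.b * P.c)
    {A : ValuationSubring Qb} (hA : A.LiesOverPrime ℓ) {S : Split (freyQb P)} (hrot : IsRot P S) :
    A.valuation (D.m S) = 1 := by
  have h2 : ℓ ≠ 2 := fun e => hgood (e ▸ P.two_dvd_abc)
  have h : ∀ T, IsRot P T → A.valuation (D.L.hv T.rot) = A.valuation (D.L.hv T) := fun T hT => by
    simp only [D.val_hv]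
    exact Finset.prod_congr rfl fun k hk =>
      (D.vals_good hℓ hA hgood hT (D.L.ne_zero_of_mem_H hk)).1
  have hu : A.valuation D.scale = A.valuation (D.L.hv S) := by
    by_cases hlp : ℓ = p
    · subst hlp
      rw [D.val_scale_p hA]
      rcases hrot with rfl | rfl | rfl
      · exact h _ (Or.inl rfl)
      · rfl
      · exact (h _ (Or.inr (Or.inl rfl))).symm
    · rw [D.val_scale hℓ hlp hA, D.val_hv, Finset.prod_eq_one]
      exact fun k hk => (D.vals_good hℓ hA hgood hrot (D.L.ne_zero_of_mem_H hk)).2 hlp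
  have hne : A.valuation (D.L.hv S) ≠ 0 := (_root_.map_ne_zero _).2 (D.L.hv_ne_zero S)
  simp only [FreyLine.m, map_mul, map_pow, D.val_D, val_four_eq_one hℓ hA h2,
    (good_place P hℓ hgood hA hrot).2.1, h _ hrot.rot, h _ hrot, hu, one_pow, one_mul]
  field_simp

/-- The scaled differences are rational. -/
theorem FreyLine.m_rat {S : Split (freyQb P)} (hrot : IsRot P S) :
    ∃ r : ℚ, algebraMap ℚ Qb r = D.m S := by
  obtain ⟨r, hr⟩ := D.hv_rat hrot
  obtain ⟨s, hs⟩ := D.hv_rat hrot.rot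
  obtain ⟨t, ht⟩ := D.hv_rat hrot.rot.rot
  have := FermatAgent.RT.isGalois_algClosureRat
  refine (InfiniteGalois.mem_range_algebraMap_iff_fixed (k := ℚ) _).mpr fun σ => ?_
  obtain ⟨f1, f2, -⟩ := hrot.fixed σ
  simp [FreyLine.m, Line.D, D.scale_fixed, ← hr, ← hs, ← ht, map_sub, map_div₀, map_ofNat, f1, f2]

end FermatAgent.Mazur
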