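import Fermat.Agent.Mazur.SplitCurve

/-!
A cyclic subgroup of odd prime order on a Weierstrass curve with split two-division polynomial:
the translation products `R`, and their relation to the kernel polynomial.
-/

set_option autoImplicit false

noncomputable section

namespace FermatAgent.Mazur

open WeierstrassCurve WeierstrassCurve.Affine FermatAgent.LocalP Polynomial

variable {K : Type*} [Field K] [DecidableEq K] {W : WeierstrassCurve.Affine K}

/-- A generator of a subgroup of odd prime order. -/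
structure Line (W : WeierstrassCurve.Affine K) (p : ℕ) where
  /-- the generator -/
  gen : W.Point
  gen_ne : gen ≠ 0
  nsmul_gen : p • gen = 0
  odd : Odd p

namespace Line

variable {p : ℕ} [hp : Fact p.Prime] (L : Line W p)

/-- The multiples of the generator. -/
def ptHom : ZMod p →+ W.Point :=
  ZMod.lift p ⟨zmultiplesHom _ L.gen, by simp [L.nsmul_gen]⟩

/-- The `n`-th multiple of the generator. -/
def pt (n : ZMod p) : W.Point := L.ptHom n

lemma pt_add (m n : ZMod p) : L.pt (m + n) = L.pt m + L.pt n := map_add _ m n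
lemma pt_neg (n : ZMod p) : L.pt (-n) = -L.pt n := map_neg _ n
lemma pt_sub (m n : ZMod p) : L.pt (m - n) = L.pt m - L.pt n := map_sub _ m n
@[simp] lemma pt_zero : L.pt 0 = 0 := map_zero _

lemma pt_natCast (k : ℕ) : L.pt (k : ZMod p) = k • L.gen := by
  rw [pt, ptHom, show (k : ZMod p) = ((k : ℤ) : ZMod p) from (Int.cast_natCast k).symm,
    ZMod.lift_coe]
  simp

lemma pt_eq_zero {n : ZMod p} : L.pt n = 0 ↔ n = 0 := by
  refine ⟨fun h => ?_, fun h => by rw [h, pt_zero]⟩
  rw [← ZMod.natCast_zmod_val n, pt_natCast] at h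
  have := addOrderOf_dvd_of_nsmul_eq_zero h
  rw [addOrderOf_eq_prime L.nsmul_gen L.gen_ne] at this
  rw [← ZMod.natCast_zmod_val n]
  exact (ZMod.natCast_eq_zero_iff _ _).2 this

lemma pt_injective : Function.Injective L.pt := fun m n h => by
  rw [← sub_eq_zero, ← L.pt_eq_zero, L.pt_sub, h, sub_self]

include L in
lemma two_ne_zero' : (2 : ZMod p) ≠ 0 := by
  intro h
  have h2 : ((2 : ℕ) : ZMod p) = 0 := by exact_mod_cast h
  rw [ZMod.natCast_eq_zero_iff, Nat.prime_dvd_prime_iff_eq hp.out Nat.prime_two] at h2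
  obtain ⟨k, hk⟩ := L.odd
  omega

lemma two_nsmul_pt_ne_zero {n : ZMod p} (hn : n ≠ 0) : (2 : ℕ) • L.pt n ≠ 0 := by
  intro h
  rw [two_nsmul, ← L.pt_add, L.pt_eq_zero, ← two_mul] at h
  exact (mul_ne_zero L.two_ne_zero' hn) h

/-- Abscissae of the subgroup. -/
def xs (n : ZMod p) : K := xCoord (L.pt n)

@[simp] lemma xs_neg (n : ZMod p) : L.xs (-n) = L.xs n := by rw [xs, L.pt_neg, xCoord_neg]; rfl

lemma xs_eq {m n : ZMod p} (hm : m ≠ 0) (hn : n ≠ 0) (h : L.xs m = L.xs n) :
    m = n ∨ m = -n := by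
  by_contra hc
  push Not at hc
  exact xCoord_ne_of_ne_neg (fun h => hm (L.pt_eq_zero.1 h)) (fun h => hn (L.pt_eq_zero.1 h))
    (fun h => hc.1 (L.pt_injective h))
    (fun h => hc.2 (L.pt_injective (by rw [h, L.pt_neg]))) h

/-- A half system. -/
def H (_L : Line W p) : Finset (ZMod p) :=
  Finset.univ.filter fun n => n ≠ 0 ∧ n.val ≤ p / 2

lemma mem_H {n : ZMod p} : n ∈ L.H ↔ n ≠ 0 ∧ n.val ≤ p / 2 := by simp [H]

lemma ne_zero_of_mem_H {n : ZMod p} (h : n ∈ L.H) : n ≠ 0 := (L.mem_H.1 h).1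

lemma neg_mem_H_iff {n : ZMod p} (hn : n ≠ 0) : -n ∈ L.H ↔ n ∉ L.H := by
  obtain ⟨k, hk⟩ := L.odd
  have hv : 0 < n.val := Nat.pos_of_ne_zero fun h => hn ((ZMod.val_eq_zero n).1 h)
  have := ZMod.val_lt n
  simp only [mem_H, neg_ne_zero, ne_eq, hn, not_false_eq_true, true_and, ZMod.neg_val, if_neg,
    not_le]
  omega

lemma xs_injOn : Set.InjOn L.xs L.H := fun m hm n hn h => by
  rcases L.xs_eq (L.ne_zero_of_mem_H hm) (L.ne_zero_of_mem_H hn) h with h | h
  · exact h
  · exact absurd hn ((L.neg_mem_H_iff (L.ne_zero_of_mem_H hn)).1 (h ▸ hm))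

lemma prod_univ {M : Type*} [CommMonoid M] (f : ZMod p → M) :
    ∏ n, f n = f 0 * ∏ k ∈ L.H, (f k * f (-k)) := by
  rw [← Finset.mul_prod_erase Finset.univ f (Finset.mem_univ 0),
    ← Finset.prod_filter_mul_prod_filter_not (Finset.univ.erase (0 : ZMod p)) (· ∈ L.H),
    Finset.prod_mul_distrib]
  congr 2
  · refine Finset.prod_congr ?_ fun _ _ => rfl
    ext n
    simpa using L.ne_zero_of_mem_H
  · refine Finset.prod_nbij' (fun n => -n) (fun n => -n) (fun n hn => ?_) (fun n hn => ?_)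
      (fun n _ => neg_neg n) (fun n _ => neg_neg n) (fun n _ => by rw [neg_neg])
    · simp only [Finset.mem_filter, Finset.mem_erase, Finset.mem_univ, and_true] at hn
      exact (L.neg_mem_H_iff hn.1).2 hn.2
    · have := L.ne_zero_of_mem_H hn
      simp only [Finset.mem_filter, Finset.mem_erase, Finset.mem_univ, and_true, ne_eq, neg_eq_zero]
      exact ⟨this, fun h => (L.neg_mem_H_iff this).1 h hn⟩

lemma two_mul_card : 2 * L.H.card + 1 = p := by
  have h := L.prod_univ fun _ : ZMod p => Multiplicative.ofAdd (1 : ℕ)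
  rw [Finset.prod_const, Finset.prod_const, Finset.card_univ, ZMod.card] at h
  have := congrArg Multiplicative.toAdd h
  simp only [toAdd_mul, toAdd_pow, toAdd_ofAdd, smul_eq_mul] at this
  omega

/-- The kernel polynomial. -/
def h : K[X] := ∏ k ∈ L.H, (X - C (L.xs k))

lemma h_eval (x : K) : L.h.eval x = ∏ k ∈ L.H, (x - L.xs k) := by simp [h, eval_prod]

lemma h_monic : L.h.Monic := monic_prod_X_sub_C _ _

lemma h_natDegree : L.h.natDegree = L.H.card := natDegree_finsetProd_X_sub_C_eq_card _ _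

/-- Away from the subgroup. -/
def Off (P : W.Point) : Prop := ∀ n, P ≠ L.pt n

lemma Off.ne_zero {L : Line W p} {P : W.Point} (hP : L.Off P) : P ≠ 0 := by simpa using hP 0

lemma Off.add_pt {L : Line W p} {P : W.Point} (hP : L.Off P) (j : ZMod p) :
    L.Off (P + L.pt j) := fun n h => hP (n - j) (by rw [L.pt_sub, ← h, add_sub_cancel_right])

lemma Off.sub_pt {L : Line W p} {P : W.Point} (hP : L.Off P) (j : ZMod p) :
    L.Off (P - L.pt j) := by rw [sub_eq_add_neg, ← L.pt_neg]; exact hP.add_pt _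

lemma Off.xCoord_ne {L : Line W p} {P : W.Point} (hP : L.Off P) {n : ZMod p} (hn : n ≠ 0) :
    xCoord P ≠ L.xs n :=
  xCoord_ne_of_ne_neg hP.ne_zero (fun h => hn (L.pt_eq_zero.1 h)) (hP n)
    (by rw [← L.pt_neg]; exact hP (-n))

lemma Off.h_eval_ne {L : Line W p} {P : W.Point} (hP : L.Off P) : L.h.eval (xCoord P) ≠ 0 := by
  rw [h_eval]
  exact Finset.prod_ne_zero_iff.2 fun k hk => sub_ne_zero.2 (hP.xCoord_ne (L.ne_zero_of_mem_H hk))

section Root

variable (S : Split W)

/-- The value of the kernel polynomial at the root. -/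
def hv : K := L.h.eval S.e₁

lemma xs_sub_root_ne {n : ZMod p} (hn : n ≠ 0) : L.xs n - S.e₁ ≠ 0 :=
  S.sub_root_ne_zero (L.two_nsmul_pt_ne_zero hn)

lemma hv_ne_zero : L.hv S ≠ 0 := by
  rw [hv, h_eval]
  exact Finset.prod_ne_zero_iff.2 fun k hk => by
    rw [← neg_ne_zero, neg_sub]; exact L.xs_sub_root_ne S (L.ne_zero_of_mem_H hk)

lemma hv_sq : L.hv S ^ 2 = ∏ k ∈ L.H, (L.xs k - S.e₁) ^ 2 := by
  rw [hv, h_eval, ← Finset.prod_pow]
  exact Finset.prod_congr rfl fun k _ => by ring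

/-- Half of the translated root polynomial. -/
def G : K[X] := ∏ k ∈ L.H, (X - C (S.e₁ + S.c / (L.xs k - S.e₁)))

lemma G_eval (x : K) : (L.G S).eval x = ∏ k ∈ L.H, (x - (S.e₁ + S.c / (L.xs k - S.e₁))) := by
  simp [G, eval_prod]

lemma G_monic : (L.G S).Monic := monic_prod_X_sub_C _ _

lemma G_natDegree : (L.G S).natDegree = L.H.card := natDegree_finsetProd_X_sub_C_eq_card _ _

/-- The numerator. -/
def N : K[X] := (X - C S.e₁) * L.G S ^ 2

lemma N_monic : (L.N S).Monic := (monic_X_sub_C _).mul ((L.G_monic S).pow 2)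

lemma N_natDegree : (L.N S).natDegree = p := by
  rw [N, (monic_X_sub_C _).natDegree_mul ((L.G_monic S).pow 2), natDegree_X_sub_C,
    (L.G_monic S).natDegree_pow, G_natDegree]
  have := L.two_mul_card
  omega

lemma N_eval (x : K) : (L.N S).eval x * L.hv S ^ 2 =
    (x - S.e₁) * ∏ k ∈ L.H, ((x - S.e₁) * (L.xs k - S.e₁) - S.c) ^ 2 := by
  rw [hv_sq, N, eval_mul, eval_pow, G_eval, eval_sub, eval_X, eval_C, mul_assoc,
    ← Finset.prod_pow, ← Finset.prod_mul_distrib]
  congr 1
  refine Finset.prod_congr rfl fun k hk => ?_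
  have := L.xs_sub_root_ne S (L.ne_zero_of_mem_H hk)
  field_simp
  ring

/-- The translation product, normalised. -/
def R (P : W.Point) : K := (∏ n, (xCoord (P + L.pt n) - S.e₁)) / L.hv S ^ 2

lemma R_add_pt (P : W.Point) (j : ZMod p) : L.R S (P + L.pt j) = L.R S P := by
  rw [R, R]
  congr 1
  refine Fintype.prod_equiv (Equiv.addLeft j) _ _ fun n => ?_
  rw [Equiv.coe_addLeft, L.pt_add, add_assoc]

lemma R_sub_pt (P : W.Point) (j : ZMod p) : L.R S (P - L.pt j) = L.R S P := by
  rw [sub_eq_add_neg, ← L.pt_neg, R_add_pt]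

lemma R_neg (P : W.Point) : L.R S (-P) = L.R S P := by
  rw [R, R]
  congr 1
  refine Fintype.prod_equiv (Equiv.neg _) _ _ fun n => ?_
  rw [Equiv.neg_apply, L.pt_neg, ← xCoord_neg (P + -L.pt n)]
  congr 2
  abel

variable [CharZero K]

lemma R_mul {P : W.Point} (hP : L.Off P) :
    L.R S P * L.h.eval (xCoord P) ^ 2 = (L.N S).eval (xCoord P) := by
  have h0 := pow_ne_zero 2 (L.hv_ne_zero S)
  rw [R, div_mul_eq_mul_div, div_eq_iff h0, L.N_eval, L.prod_univ, pt_zero, add_zero,
    L.h_eval, mul_assoc, ← Finset.prod_pow, ← Finset.prod_mul_distrib]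
  congr 1
  refine Finset.prod_congr rfl fun k hk => ?_
  rw [L.pt_neg, ← sub_eq_add_neg]
  exact S.sub_mul_sub hP.ne_zero (fun h => L.ne_zero_of_mem_H hk (L.pt_eq_zero.1 h))
    (hP.xCoord_ne (L.ne_zero_of_mem_H hk))

/-- The factors `x - e`, with value one at infinity. -/
private def g (n : ZMod p) : K := if n = 0 then 1 else L.xs n - S.e₁

/-- At the abscissae of the subgroup the numerator does not depend on the root. -/
lemma N_eval_xs {j : ZMod p} (hj : j ∈ L.H) :
    (L.N S).eval (L.xs j) = S.psi2 (L.xs j) * ∏ k ∈ L.H.erase j, (L.xs j - L.xs k) ^ 2 := by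
  have hj0 := L.ne_zero_of_mem_H hj
  apply mul_right_cancel₀ (pow_ne_zero 2 (L.hv_ne_zero S))
  have key : ∀ k ∈ L.H, ((L.xs j - S.e₁) * (L.xs k - S.e₁) - S.c) ^ 2 =
      L.g S (j + k) * L.g S (j - k) *
        (if k = j then S.psi2 (L.xs j) else (L.xs j - L.xs k) ^ 2) := by
    intro k hk
    have hk0 := L.ne_zero_of_mem_H hk
    have hjk : j + k ≠ 0 := fun h => by
      rw [add_eq_zero_iff_eq_neg] at h
      exact (L.neg_mem_H_iff hk0).1 (h ▸ hj) hk
    split_ifs with hkj
    · subst hkj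
      rw [g, if_neg hjk, g, sub_self, if_pos rfl, mul_one, xs, xs, L.pt_add, ← two_nsmul]
      rw [S.two_nsmul_sub (L.two_nsmul_pt_ne_zero hj0)]
      ring
    · rw [g, if_neg hjk, g, if_neg (sub_ne_zero.2 (Ne.symm hkj))]
      simp only [xs, L.pt_add, L.pt_sub]
      refine (S.sub_mul_sub (fun h => hj0 (L.pt_eq_zero.1 h))
        (fun h => hk0 (L.pt_eq_zero.1 h)) ?_).symm
      intro he
      rcases L.xs_eq hj0 hk0 he with h | h
      · exact hkj h.symm
      · exact hjk (by rw [h, neg_add_cancel])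
  have hall : L.g S j * ∏ k ∈ L.H, (L.g S (j + k) * L.g S (j - k)) = L.hv S ^ 2 := by
    have h1 := L.prod_univ fun n => L.g S (j + n)
    simp only [add_zero, ← sub_eq_add_neg] at h1
    rw [← h1, show (∏ n, L.g S (j + n)) = ∏ n, L.g S n from
        Fintype.prod_equiv (Equiv.addLeft j) _ _ fun _ => rfl, L.prod_univ,
      g, if_pos rfl, one_mul, hv_sq]
    refine Finset.prod_congr rfl fun k hk => ?_
    have hk0 := L.ne_zero_of_mem_H hk
    rw [g, g, if_neg hk0, if_neg (neg_ne_zero.2 hk0), xs_neg, sq]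
  rw [L.N_eval, Finset.prod_congr rfl key, Finset.prod_mul_distrib, ← hall,
    show L.xs j - S.e₁ = L.g S j by rw [g, if_neg hj0],
    ← Finset.mul_prod_erase L.H (fun k => if k = j then _ else _) hj, if_pos rfl,
    Finset.prod_congr rfl (g := fun k => (L.xs j - L.xs k) ^ 2)
      fun k hk => if_neg (Finset.ne_of_mem_erase hk)]
  ring

end Root

end Line

end FermatAgent.Mazur
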