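import Fermat.Agent.Mazur.Line
import Fermat.Agent.Local.TorsionCount

/-!
The difference of two numerators is a multiple of the square of the kernel polynomial.
-/

set_option autoImplicit false

noncomputable section

namespace FermatAgent.Mazur

open WeierstrassCurve WeierstrassCurve.Affine FermatAgent.LocalP Polynomial

variable {K : Type*} [Field K] {W : WeierstrassCurve.Affine K}

/-- The quadratic in `x` equal to `(t - x(P+R)) (t - x(P-R)) (x - r)²`, where `r = x(R)`. -/
def U (W : WeierstrassCurve.Affine K) (t r : K) : K[X] :=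
  C ((t - r) ^ 2) * X ^ 2 + C (-2 * t ^ 2 * r - t * (2 * r ^ 2 + W.b₂ * r + W.b₄) - W.b₄ * r - W.b₆) * X
    + C (t ^ 2 * r ^ 2 - t * (W.b₄ * r + W.b₆) - W.b₆ * r - W.b₈)

lemma U_natDegree_le (t r : K) : (U W t r).natDegree ≤ 2 := natDegree_quadratic_le

lemma U_natDegree {t r : K} (h : t ≠ r) : (U W t r).natDegree = 2 :=
  natDegree_quadratic (pow_ne_zero 2 (sub_ne_zero.2 h))

lemma U_self_natDegree_le (r : K) : (U W r r).natDegree ≤ 1 := by
  rw [U, sub_self, zero_pow two_ne_zero, C_0, zero_mul, zero_add]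
  exact natDegree_linear_le

variable [DecidableEq K]

lemma U_eval {P Q : W.Point} (hP : P ≠ 0) (hQ : Q ≠ 0) (hx : xCoord P ≠ xCoord Q) (t : K) :
    (U W t (xCoord Q)).eval (xCoord P) =
      (xCoord (P + Q) - t) * (xCoord (P - Q) - t) * (xCoord P - xCoord Q) ^ 2 := by
  have hs := xCoord_add_add_xCoord_sub hP hQ hx
  have hp := xCoord_add_mul_xCoord_sub hP hQ hx
  simp only [U, eval_add, eval_mul, eval_C, eval_pow, eval_X]
  linear_combination t * hs - hp

namespace Line

variable {p : ℕ} [hp : Fact p.Prime] (L : Line W p)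

/-- `N(e₁) - N(e₂) = D h²`. -/
def D (S : Split W) : K :=
  -(S.e₁ - S.e₂) ^ p * L.hv S.rot.rot ^ 2 / (L.hv S ^ 2 * L.hv S.rot ^ 2)

lemma exists_off_over [IsAlgClosed K] [CharZero K] (S : Split W) {x : K}
    (hx : x ∉ L.H.image L.xs) : ∃ P : W.Point, L.Off P ∧ xCoord P = x := by
  obtain ⟨y, hy⟩ := FermatAgent.Local.exists_point_over W S.Δ_ne_zero x
  refine ⟨Point.some x y hy, fun n h => ?_, rfl⟩
  have hn : n ≠ 0 := by rintro rfl; exact Point.some_ne_zero hy (by rw [h, L.pt_zero])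
  refine hx (Finset.mem_image.2 ?_)
  have hxn : L.xs n = x := by rw [xs, ← h]; rfl
  by_cases hnH : n ∈ L.H
  · exact ⟨n, hnH, hxn⟩
  · exact ⟨-n, (L.neg_mem_H_iff hn).2 hnH, by rw [L.xs_neg, hxn]⟩

variable [IsAlgClosed K] [CharZero K] (S : Split W)

lemma eq_of_eval_eq {f g : K[X]}
    (h : ∀ P : W.Point, L.Off P → f.eval (xCoord P) = g.eval (xCoord P)) (S : Split W) : f = g := by
  refine Polynomial.eq_of_infinite_eval_eq f g (Set.Infinite.mono ?_
    (L.H.image L.xs).finite_toSet.infinite_compl)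
  intro x hx
  obtain ⟨P, hP, rfl⟩ := L.exists_off_over S (by simpa using hx)
  exact h P hP

lemma quot_root {q : K[X]} (hq : L.N S - L.N S.rot = L.h * q)
    (hdeg : q.natDegree ≤ L.H.card) {j : ZMod p} (hj : j ∈ L.H) : q.eval (L.xs j) = 0 := by
  by_contra hne
  have hj0 := L.ne_zero_of_mem_H hj
  have hR : L.pt j ≠ 0 := fun h => hj0 (L.pt_eq_zero.1 h)
  have hq0 : q ≠ 0 := fun h => hne (by rw [h, eval_zero])
  set r := L.xs j
  set lc := q.leadingCoeff
  have hsp := (IsAlgClosed.splits q).eq_prod_roots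
  have hroot : ∀ z ∈ q.roots, z ≠ r := fun z hz h => hne (h ▸ isRoot_of_mem_roots hz)
  have hcard : q.roots.card = q.natDegree := IsAlgClosed.card_roots_eq_natDegree
  set Pr := (q.roots.map fun z => U W z r).prod
  have hPr : Pr.natDegree = 2 * q.natDegree := by
    rw [natDegree_multiset_prod _ ?_, Multiset.map_map,
      Multiset.map_congr (f := natDegree ∘ fun z => U W z r) (g := fun _ => 2) rfl
        (fun z hz => U_natDegree (hroot z hz)),
      Multiset.map_const',
      Multiset.sum_replicate, hcard, smul_eq_mul, mul_comm]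
    rw [Multiset.mem_map]
    rintro ⟨z, hz, h0⟩
    have := U_natDegree (W := W) (hroot z hz)
    rw [h0, natDegree_zero] at this
    omega
  have hid : C (lc ^ 2) * Pr * L.h ^ 2 * (X - C r) ^ (2 * L.H.card) =
      (∏ k ∈ L.H, U W (L.xs k) r) * q ^ 2 * (X - C r) ^ (2 * q.natDegree) := by
    refine L.eq_of_eval_eq (fun P hP => ?_) S
    have hx : xCoord P ≠ r := hP.xCoord_ne hj0
    have hd : ∀ Q : W.Point, L.Off Q → L.h.eval (xCoord Q) * (L.R S Q - L.R S.rot Q) =
        q.eval (xCoord Q) := fun Q hQ => by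
      apply mul_left_cancel₀ hQ.h_eval_ne
      rw [← eval_mul (p := L.h) (q := q), ← hq, eval_sub, ← L.R_mul S hQ, ← L.R_mul S.rot hQ]
      ring
    have hP1 := hd _ (hP.add_pt j)
    have hP2 := hd _ (hP.sub_pt j)
    rw [L.R_add_pt, L.R_add_pt] at hP1
    rw [L.R_sub_pt, L.R_sub_pt] at hP2
    set xp := xCoord (P + L.pt j)
    set xm := xCoord (P - L.pt j)
    have hqe : ∀ x : K, q.eval x = lc * (q.roots.map fun z => x - z).prod := fun x => by
      conv_lhs => rw [hsp]
      rw [eval_mul, eval_C, eval_multiset_prod, Multiset.map_map]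
      simp [lc]
    have h1 : Pr.eval (xCoord P) = (q.roots.map fun z => xp - z).prod *
        (q.roots.map fun z => xm - z).prod * (xCoord P - r) ^ (2 * q.natDegree) := by
      rw [eval_multiset_prod, Multiset.map_map, pow_mul,
        ← Multiset.prod_map_mul, ← hcard, ← Multiset.prod_replicate, ← Multiset.map_const',
        ← Multiset.prod_map_mul]
      exact congrArg _ (Multiset.map_congr rfl fun z _ => U_eval hP.ne_zero hR hx z)
    have h2 : (∏ k ∈ L.H, U W (L.xs k) r).eval (xCoord P) =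
        L.h.eval xp * L.h.eval xm * (xCoord P - r) ^ (2 * L.H.card) := by
      rw [eval_prod, L.h_eval, L.h_eval, pow_mul, ← Finset.prod_const, ← Finset.prod_mul_distrib,
        ← Finset.prod_mul_distrib]
      exact Finset.prod_congr rfl fun k _ => U_eval hP.ne_zero hR hx _
    have hdP := hd P hP
    simp only [eval_mul, eval_pow, eval_C, eval_sub, eval_X, h1, h2]
    linear_combination (L.h.eval (xCoord P) ^ 2 * (xCoord P - r) ^ (2 * q.natDegree) *
        (xCoord P - r) ^ (2 * L.H.card)) *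
      (-(lc * (q.roots.map fun z => xm - z).prod) * hqe xp - q.eval xp * hqe xm
        - q.eval xm * hP1 - L.h.eval xp * (L.R S P - L.R S.rot P) * hP2) +
      (L.h.eval xp * L.h.eval xm * (xCoord P - r) ^ (2 * q.natDegree) *
        (xCoord P - r) ^ (2 * L.H.card) *
        (L.h.eval (xCoord P) * (L.R S P - L.R S.rot P) + q.eval (xCoord P))) * hdP
  have hlc : C (lc ^ 2) ≠ 0 := C_ne_zero.2 (pow_ne_zero 2 (leadingCoeff_ne_zero.2 hq0))
  have hXr : (X - C r) ≠ 0 := X_sub_C_ne_zero r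
  have hPr0 : Pr ≠ 0 := by
    intro h0
    rw [h0, natDegree_zero] at hPr
    rcases eq_or_ne q.natDegree 0 with h | h
    · have : q.roots = 0 := Multiset.card_eq_zero.1 (hcard.trans h)
      simp [Pr, this] at h0
    · omega
  have hl : (C (lc ^ 2) * Pr * L.h ^ 2 * (X - C r) ^ (2 * L.H.card)).natDegree =
      2 * q.natDegree + 2 * L.H.card + 2 * L.H.card := by
    rw [natDegree_mul (mul_ne_zero (mul_ne_zero hlc hPr0) (pow_ne_zero 2 L.h_monic.ne_zero))
        (pow_ne_zero _ hXr), natDegree_mul (mul_ne_zero hlc hPr0) (pow_ne_zero 2 L.h_monic.ne_zero),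
      natDegree_mul hlc hPr0, natDegree_C, zero_add, hPr, natDegree_pow, natDegree_pow,
      L.h_natDegree, natDegree_X_sub_C, mul_one]
  have hU : (∏ k ∈ L.H, U W (L.xs k) r).natDegree ≤ 2 * L.H.card - 1 := by
    rw [← Finset.mul_prod_erase L.H _ hj]
    refine natDegree_mul_le.trans ?_
    have h1 : (U W (L.xs j) r).natDegree ≤ 1 := U_self_natDegree_le r
    have h2 : (∏ k ∈ L.H.erase j, U W (L.xs k) r).natDegree ≤ (L.H.erase j).card * 2 :=
      (natDegree_prod_le _ _).trans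
        (by simpa using Finset.sum_le_card_nsmul _ _ 2 fun k _ => U_natDegree_le (W := W) (L.xs k) r)
    rw [Finset.card_erase_of_mem hj] at h2
    have : 0 < L.H.card := Finset.card_pos.2 ⟨j, hj⟩
    omega
  rw [hid] at hl
  have hr : ((∏ k ∈ L.H, U W (L.xs k) r) * q ^ 2 * (X - C r) ^ (2 * q.natDegree)).natDegree ≤
      (2 * L.H.card - 1) + 2 * q.natDegree + 2 * q.natDegree := by
    refine natDegree_mul_le.trans (Nat.add_le_add (natDegree_mul_le.trans
      (Nat.add_le_add hU ?_)) ?_) <;> simp [natDegree_pow]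
  have : 0 < L.H.card := Finset.card_pos.2 ⟨j, hj⟩
  omega

omit [IsAlgClosed K] [CharZero K] in
lemma h_dvd_of_roots {f : K[X]} (hf : ∀ j ∈ L.H, f.eval (L.xs j) = 0) : L.h ∣ f := by
  refine Finset.prod_dvd_of_coprime (fun m hm n hn hne => ?_) fun j hj =>
    dvd_iff_isRoot.2 (hf j hj)
  exact isCoprime_X_sub_C_of_isUnit_sub
    (isUnit_iff_ne_zero.2 (sub_ne_zero.2 fun h => hne (L.xs_injOn hm hn h)))

omit [IsAlgClosed K] [CharZero K] in
lemma natDegree_N_sub : (L.N S - L.N S.rot).natDegree ≤ 2 * L.H.card := by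
  have hp2 := L.two_mul_card
  rw [natDegree_le_iff_coeff_eq_zero]
  intro i hi
  rw [coeff_sub]
  rcases eq_or_ne i p with h | h
  · have h1 : ∀ T : Split W, (L.N T).coeff i = 1 := fun T => by
      rw [h]
      have := (L.N_monic T).coeff_natDegree
      rwa [L.N_natDegree] at this
    rw [h1, h1, sub_self]
  · rw [coeff_eq_zero_of_natDegree_lt (by rw [L.N_natDegree]; omega),
      coeff_eq_zero_of_natDegree_lt (by rw [L.N_natDegree]; omega), sub_self]

theorem N_sub : L.N S - L.N S.rot = C (L.D S) * L.h ^ 2 := by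
  obtain ⟨q, hq⟩ : L.h ∣ L.N S - L.N S.rot := L.h_dvd_of_roots fun j hj => by
    rw [eval_sub, L.N_eval_xs S hj, L.N_eval_xs S.rot hj, S.psi2_rot, sub_self]
  have hdeg : q.natDegree ≤ L.H.card := by
    rcases eq_or_ne q 0 with rfl | hq0
    · simp
    have := L.natDegree_N_sub S
    rw [hq, natDegree_mul L.h_monic.ne_zero hq0, L.h_natDegree] at this
    omega
  obtain ⟨a, ha⟩ : ∃ a, q = C a * L.h := by
    obtain ⟨t, ht⟩ : L.h ∣ q := L.h_dvd_of_roots fun j hj => L.quot_root S hq hdeg hj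
    rcases eq_or_ne t 0 with rfl | ht0
    · exact ⟨0, by rw [ht, mul_zero, map_zero, zero_mul]⟩
    rw [ht, natDegree_mul L.h_monic.ne_zero ht0, L.h_natDegree] at hdeg
    exact ⟨t.coeff 0, by rw [ht, mul_comm, ← eq_C_of_natDegree_eq_zero (by omega : t.natDegree = 0)]⟩
  rw [hq, ha]
  suffices a = L.D S by rw [this]; ring
  have he := congrArg (eval S.e₁) hq
  rw [ha, eval_sub, eval_mul, eval_mul, eval_C, N, eval_mul, eval_sub, eval_X, eval_C, sub_self,
    zero_mul, zero_sub] at he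
  have hG : (L.G S.rot).eval S.e₁ * L.hv S.rot =
      (S.e₁ - S.e₂) ^ L.H.card * L.hv S.rot.rot := by
    rw [L.G_eval, hv, hv, L.h_eval, L.h_eval, ← Finset.prod_mul_distrib, ← Finset.prod_const,
      ← Finset.prod_mul_distrib]
    refine Finset.prod_congr rfl fun k hk => ?_
    have := L.xs_sub_root_ne S.rot (L.ne_zero_of_mem_H hk)
    simp only [Split.rot, Split.c] at this ⊢
    field_simp
    ring
  have h0 := L.hv_ne_zero S
  have h1 := L.hv_ne_zero S.rot
  rw [D, eq_div_iff (mul_ne_zero (pow_ne_zero 2 h0) (pow_ne_zero 2 h1)),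
    show (S.e₁ - S.e₂) ^ p = ((S.e₁ - S.e₂) ^ L.H.card) ^ 2 * (S.e₁ - S.e₂) by
      conv_lhs => rw [← L.two_mul_card]
      ring]
  rw [N, eval_mul, eval_sub, eval_X, eval_C, eval_pow, show S.rot.e₁ = S.e₂ from rfl,
    show L.h.eval S.e₁ = L.hv S from rfl] at he
  linear_combination (-L.hv S.rot ^ 2) * he +
    (-(S.e₁ - S.e₂) * ((L.G S.rot).eval S.e₁ * L.hv S.rot +
      (S.e₁ - S.e₂) ^ L.H.card * L.hv S.rot.rot)) * hG

/-- The three differences sum to zero. -/
theorem D_cyclic : L.D S + L.D S.rot + L.D S.rot.rot = 0 := by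
  have h := congrArg₂ (· + ·) (congrArg₂ (· + ·) (L.N_sub S) (L.N_sub S.rot))
    (L.N_sub S.rot.rot)
  simp only [Split.rot_rot_rot, ← add_mul, ← map_add] at h
  rw [show L.N S - L.N S.rot + (L.N S.rot - L.N S.rot.rot) + (L.N S.rot.rot - L.N S) = 0 by ring,
    eq_comm, mul_eq_zero, C_eq_zero] at h
  exact h.resolve_right (pow_ne_zero 2 L.h_monic.ne_zero)

omit [IsAlgClosed K] [CharZero K] in
lemma N_nextCoeff : (L.N S).nextCoeff =
    -(S.e₁ + 2 * ∑ k ∈ L.H, (S.e₁ + S.c / (L.xs k - S.e₁))) := by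
  rw [N, (monic_X_sub_C _).nextCoeff_mul ((L.G_monic S).pow 2), nextCoeff_X_sub_C,
    (L.G_monic S).nextCoeff_pow, G, prod_X_sub_C_nextCoeff, nsmul_eq_mul]
  push_cast
  ring

lemma D_eq_sum : L.D S = (S.e₂ + 2 * ∑ k ∈ L.H, (S.e₂ + S.rot.c / (L.xs k - S.e₂))) -
    (S.e₁ + 2 * ∑ k ∈ L.H, (S.e₁ + S.c / (L.xs k - S.e₁))) := by
  have hp2 := L.two_mul_card
  have hN : ∀ T : Split W, (L.N T).coeff (2 * L.H.card) = (L.N T).nextCoeff := fun T => by
    rw [nextCoeff_of_natDegree_pos (by rw [L.N_natDegree]; omega), L.N_natDegree]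
    congr 1; omega
  have h := congrArg (coeff · (2 * L.H.card)) (L.N_sub S)
  have hh : (L.h ^ 2).coeff (2 * L.H.card) = 1 := by
    have := (L.h_monic.pow 2).coeff_natDegree
    rwa [L.h_monic.natDegree_pow, L.h_natDegree] at this
  simp only [coeff_sub, coeff_C_mul, hh, mul_one, hN, L.N_nextCoeff] at h
  rw [← h, show S.rot.e₁ = S.e₂ from rfl]
  ring

lemma R_sub_R {P : W.Point} (hP : L.Off P) : L.R S P - L.R S.rot P = L.D S := by
  have h := congrArg (eval (xCoord P)) (L.N_sub S)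
  rw [eval_sub, eval_mul, eval_C, eval_pow, ← L.R_mul S hP, ← L.R_mul S.rot hP, ← sub_mul] at h
  exact mul_right_cancel₀ (pow_ne_zero 2 hP.h_eval_ne) h

end Line

end FermatAgent.Mazur
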