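import Fermat.Agent.Mazur.LineIdentity

/-!
The translation product satisfies the same addition law as an abscissa on the quotient curve.
-/

set_option autoImplicit false

noncomputable section

namespace FermatAgent.Mazur

open WeierstrassCurve WeierstrassCurve.Affine FermatAgent.LocalP Polynomial

variable {K : Type*} [Field K] [DecidableEq K] {W : WeierstrassCurve.Affine K}

namespace Line

variable {p : ℕ} [hp : Fact p.Prime] (L : Line W p)

omit [DecidableEq K] in
lemma U_coeff_two (t r : K) : (U W t r).coeff 2 = (t - r) ^ 2 := by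
  rw [U, coeff_add, coeff_add, coeff_C_mul, coeff_C_mul, coeff_X_pow, coeff_X, coeff_C]
  norm_num

lemma off_of_two_nsmul {T : W.Point} (h : L.Off ((2 : ℕ) • T)) : L.Off T := fun n hn =>
  h (n + n) (by rw [hn, two_nsmul, L.pt_add])

/-- The constant of the addition law of the quotient curve. -/
def c' (S : Split W) : K := -(L.D S * L.D S.rot.rot)

variable [CharZero K]

omit [CharZero K] in
lemma c'_eq (S : Split W) : L.c' S = S.c ^ p / L.hv S ^ 4 := by
  have h0 := L.hv_ne_zero S
  have h1 := L.hv_ne_zero S.rot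
  have h2 := L.hv_ne_zero S.rot.rot
  have ha : (S.c : K) ^ p = -((S.e₁ - S.e₂) ^ p * (S.e₃ - S.e₁) ^ p) := by
    rw [← mul_pow, ← L.odd.neg_pow, Split.c]; ring
  rw [c', D, D, ha]
  simp only [Split.rot_rot_rot]
  simp only [Split.rot] at h1 h2 ⊢
  field_simp

omit [CharZero K] in
lemma sum_injective {T : W.Point} (hT : L.Off ((2 : ℕ) • T)) :
    Function.Injective fun n => xCoord (T + L.pt n) := by
  intro m n h
  have hT' := L.off_of_two_nsmul hT
  by_contra hne
  refine xCoord_ne_of_ne_neg (hT'.add_pt m).ne_zero (hT'.add_pt n).ne_zero ?_ ?_ h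
  · exact fun he => hne (L.pt_injective (add_left_cancel he))
  · intro he
    refine hT (-(m + n)) ?_
    rw [L.pt_neg, L.pt_add, two_nsmul, eq_neg_iff_add_eq_zero]
    rw [eq_neg_iff_add_eq_zero] at he
    rw [← he]; abel

variable [IsAlgClosed K]

omit [IsAlgClosed K] in
/-- The fibre product. -/
theorem prod_sub_xCoord (S : Split W) {P T : W.Point} (hP : L.Off P)
    (hT : L.Off ((2 : ℕ) • T)) :
    ∏ n, (xCoord (P + L.pt n) - xCoord T) =
      L.h.eval (xCoord T) ^ 2 * (L.R S P - L.R S T) := by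
  set t := xCoord T with ht
  set κ := L.h.eval t ^ 2 with hκ
  set F := (X - C t) * ∏ k ∈ L.H, U W t (L.xs k) -
    C κ * (L.N S - C (L.R S T) * L.h ^ 2) with hF
  have hev : ∀ Q : W.Point, L.Off Q → F.eval (xCoord Q) = L.h.eval (xCoord Q) ^ 2 *
      (∏ n, (xCoord (Q + L.pt n) - t) - κ * (L.R S Q - L.R S T)) := by
    intro Q hQ
    have h1 : (xCoord Q - t) * ∏ k ∈ L.H, (U W t (L.xs k)).eval (xCoord Q) =
        L.h.eval (xCoord Q) ^ 2 * ∏ n, (xCoord (Q + L.pt n) - t) := by
      rw [L.prod_univ, L.pt_zero, add_zero, L.h_eval, mul_left_comm, ← Finset.prod_pow,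
        ← Finset.prod_mul_distrib]
      congr 1
      refine Finset.prod_congr rfl fun k hk => ?_
      have hk0 := L.ne_zero_of_mem_H hk
      rw [L.pt_neg, ← sub_eq_add_neg, xs, U_eval hQ.ne_zero
        (fun h => hk0 (L.pt_eq_zero.1 h)) (hQ.xCoord_ne hk0)]
      ring
    simp only [hF, eval_sub, eval_mul, eval_X, eval_C, eval_prod, eval_pow, h1, ← L.R_mul S hQ]
    ring
  have hdeg : F.natDegree < Fintype.card (ZMod p) := by
    have hp2 := L.two_mul_card
    rw [ZMod.card]
    have hprod : (∏ k ∈ L.H, U W t (L.xs k)).natDegree ≤ L.H.card * 2 :=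
      (natDegree_prod_le _ _).trans
        (by simpa using Finset.sum_le_card_nsmul _ _ 2 fun k _ => U_natDegree_le (W := W) t (L.xs k))
    have hcoeff : F.coeff p = 0 := by
      have h1 : ((X - C t) * ∏ k ∈ L.H, U W t (L.xs k)).coeff (1 + L.H.card * 2) =
          (X - C t).coeff 1 * (∏ k ∈ L.H, U W t (L.xs k)).coeff (L.H.card * 2) :=
        coeff_mul_add_eq_of_natDegree_le (natDegree_X_sub_C t).le hprod
      rw [show 1 + L.H.card * 2 = p by omega, coeff_prod_of_natDegree_le _ _ _
        (fun k _ => U_natDegree_le t (L.xs k))] at h1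
      have hN : (L.N S).coeff p = 1 := by
        have := (L.N_monic S).coeff_natDegree
        rwa [L.N_natDegree] at this
      have hh : (L.h ^ 2).coeff p = 0 := coeff_eq_zero_of_natDegree_lt
        (by rw [natDegree_pow, L.h_natDegree]; omega)
      simp only [hF, coeff_sub, coeff_C_mul, h1, hN, hh, U_coeff_two, coeff_X_one, coeff_C,
        one_ne_zero, if_false, sub_zero, one_mul, mul_zero, mul_one, hκ, L.h_eval,
        ← Finset.prod_pow, sub_self]
    have hle : F.natDegree ≤ p := by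
      refine (natDegree_sub_le _ _).trans (max_le (natDegree_mul_le.trans ?_) ?_)
      · rw [natDegree_X_sub_C]; omega
      · refine (natDegree_C_mul_le _ _).trans ((natDegree_sub_le _ _).trans (max_le ?_ ?_))
        · rw [L.N_natDegree]
        · refine (natDegree_C_mul_le _ _).trans ?_
          rw [natDegree_pow, L.h_natDegree]; omega
    rcases lt_or_eq_of_le hle with h | h
    · exact h
    · exfalso
      have h0 : F = 0 := leadingCoeff_eq_zero.1 (by rw [leadingCoeff, h, hcoeff])
      rw [h0, natDegree_zero] at h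
      exact hp.out.ne_zero h.symm
  have hF0 : F = 0 := by
    refine eq_zero_of_natDegree_lt_card_of_eval_eq_zero F (L.sum_injective hT) (fun n => ?_) hdeg
    rw [hev _ ((L.off_of_two_nsmul hT).add_pt n), L.R_add_pt, sub_self, mul_zero, sub_zero,
      Finset.prod_eq_zero (Finset.mem_univ (-n)) (by rw [L.pt_neg, add_neg_cancel_right, ht, sub_self]),
      mul_zero]
  have := hev P hP
  rw [hF0, eval_zero, eq_comm, mul_eq_zero, sub_eq_zero] at this
  exact this.resolve_left (pow_ne_zero 2 hP.h_eval_ne)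

omit [IsAlgClosed K] in
lemma exists_xCoord_eq_of_R_eq (S : Split W) {P T : W.Point} (hP : L.Off P)
    (hT : L.Off ((2 : ℕ) • T)) (h : L.R S P = L.R S T) :
    ∃ n, xCoord (P + L.pt n) = xCoord T := by
  have := L.prod_sub_xCoord S hP hT
  rw [h, sub_self, mul_zero, Finset.prod_eq_zero_iff] at this
  obtain ⟨n, -, hn⟩ := this
  exact ⟨n, sub_eq_zero.1 hn⟩

/-- The addition law. -/
theorem diff_add (S : Split W) {P T : W.Point} (hP : L.Off P) (hT : L.Off ((2 : ℕ) • T))
    (hplus : L.Off (P + T)) (hminus : L.Off (P - T)) :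
    L.R S (P + T) * L.R S (P - T) * (L.R S P - L.R S T) ^ 2 =
      (L.R S P * L.R S T - L.c' S) ^ 2 := by
  have hT1 := L.off_of_two_nsmul hT
  have h2T : (2 : ℕ) • T ≠ 0 := hT.ne_zero
  set t := xCoord T with ht
  set e := S.e₁ with he
  set v := L.hv S with hv'
  have hv0 : v ≠ 0 := L.hv_ne_zero S
  set b := t - e with hb'
  have hb : b ≠ 0 := S.sub_root_ne_zero h2T
  set t' := e + S.c / b with ht'
  obtain ⟨y, hy⟩ := FermatAgent.Local.exists_point_over W S.Δ_ne_zero t'
  set T' := Point.some t' y hy with hT'def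
  have hxT' : xCoord T' = t' := rfl
  have hpsi : S.psi2 t' = S.c ^ 2 * S.psi2 t / b ^ 4 := by
    simp only [Split.psi2, ht', he, hb', Split.c] at hb ⊢
    field_simp
    ring
  have hψ := S.psi2_ne_zero h2T
  have hψ' : S.psi2 t' ≠ 0 := by
    rw [hpsi]; exact div_ne_zero (mul_ne_zero (pow_ne_zero 2 S.c_ne_zero) hψ) (pow_ne_zero 4 hb)
  have h2T' : (2 : ℕ) • T' ≠ 0 :=
    S.two_nsmul_ne_zero_of_psi2_ne_zero (Point.some_ne_zero hy) (by rwa [hxT'])
  have hx2 : xCoord ((2 : ℕ) • T') = xCoord ((2 : ℕ) • T) := by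
    have h1 := S.two_nsmul_sub h2T'
    have h2 := S.two_nsmul_sub h2T
    rw [← ht, ← he, ← hb'] at h2
    rw [hxT', hpsi, show t' - S.e₁ = S.c / b by rw [ht', he]; ring] at h1
    have : (xCoord ((2 : ℕ) • T') - S.e₁) = (xCoord ((2 : ℕ) • T) - S.e₁) := by
      apply mul_right_cancel₀ (mul_ne_zero (pow_ne_zero 2 S.c_ne_zero) hψ)
      rw [← ht]
      field_simp at h1
      linear_combination h1 - S.c ^ 2 * h2
    linear_combination this
  have hT' : L.Off ((2 : ℕ) • T') := by
    intro n hn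
    have : (2 : ℕ) • T' = (2 : ℕ) • T ∨ (2 : ℕ) • T' = -((2 : ℕ) • T) := by
      by_contra hc
      push Not at hc
      exact xCoord_ne_of_ne_neg h2T' h2T hc.1 hc.2 hx2
    rcases this with h | h
    · exact hT n (by rw [← h, hn])
    · exact hT (-n) (by rw [L.pt_neg, ← hn, h, neg_neg])
  have hpow : ∀ x : K, x ^ p = (x ^ L.H.card) ^ 2 * x := fun x => by
    have hp2 := L.two_mul_card
    rw [← pow_mul, ← pow_succ]; congr 1; omega
  have hN : ∀ z, (L.N S).eval z * v ^ 2 =
      (z - e) * ∏ k ∈ L.H, ((z - e) * (L.xs k - e) - S.c) ^ 2 := L.N_eval S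
  have hprod : b ^ p * L.h.eval t' ^ 2 = L.R S T * v ^ 2 * L.h.eval t ^ 2 := by
    rw [mul_right_comm, L.R_mul S hT1, ← ht, hN, L.h_eval, ← Finset.prod_pow]
    rw [hpow, ← Finset.prod_const, ← Finset.prod_pow, mul_right_comm, mul_comm,
      ← Finset.prod_mul_distrib]
    congr 1
    refine Finset.prod_congr rfl fun k _ => ?_
    rw [ht', ← hb']
    field_simp
    ring
  have hRR : L.R S T * L.R S T' = L.c' S := by
    have h1 := L.R_mul S hT1
    have h2 := L.R_mul S (L.off_of_two_nsmul hT')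
    rw [← ht] at h1
    rw [hxT'] at h2
    have hG : (L.G S).eval t * (L.G S).eval t' * v ^ 2 =
        S.c ^ L.H.card * (L.h.eval t * L.h.eval t') := by
      rw [hv', L.hv_sq, L.G_eval, L.G_eval, L.h_eval, L.h_eval, ← Finset.prod_const,
        ← Finset.prod_mul_distrib, ← Finset.prod_mul_distrib, ← Finset.prod_mul_distrib,
        ← Finset.prod_mul_distrib]
      refine Finset.prod_congr rfl fun k hk => ?_
      have := L.xs_sub_root_ne S (L.ne_zero_of_mem_H hk)
      simp only [ht', he, hb'] at hb ⊢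
      field_simp
      ring
    have hh0 : L.h.eval t ^ 2 * L.h.eval t' ^ 2 ≠ 0 :=
      mul_ne_zero (pow_ne_zero 2 hT1.h_eval_ne)
        (pow_ne_zero 2 (by rw [← hxT']; exact (L.off_of_two_nsmul hT').h_eval_ne))
    apply mul_right_cancel₀ hh0
    rw [show L.R S T * L.R S T' * (L.h.eval t ^ 2 * L.h.eval t' ^ 2) =
        (L.R S T * L.h.eval t ^ 2) * (L.R S T' * L.h.eval t' ^ 2) by ring, h1, h2, N, eval_mul,
      eval_mul, eval_pow, eval_pow, eval_sub, eval_sub, eval_X, eval_X, eval_C, eval_C, L.c'_eq,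
      ← he, ← hb', show t' - e = S.c / b by rw [ht']; ring, hpow, ← hv']
    field_simp
    linear_combination S.c * ((L.G S).eval t * (L.G S).eval t' * v ^ 2 +
      S.c ^ L.H.card * (L.h.eval t * L.h.eval t')) * hG
  have hne : ∀ n, xCoord (P + L.pt n) ≠ t := fun n =>
    xCoord_ne_of_ne_neg (hP.add_pt n).ne_zero hT1.ne_zero
      (fun h => hminus (-n) (by rw [L.pt_neg, ← h]; abel))
      (fun h => hplus (-n) (by rw [L.pt_neg, eq_neg_iff_add_eq_zero] at *; rw [← h]; abel))
  have hmain : ∏ n, ((xCoord (P + T + L.pt n) - e) * (xCoord (P - T + L.pt n) - e) *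
      (xCoord (P + L.pt n) - t) ^ 2) =
      (∏ n, b * (xCoord (P + L.pt n) - t')) ^ 2 := by
    rw [← Finset.prod_pow]
    refine Finset.prod_congr rfl fun n _ => ?_
    have := S.sub_mul_sub (hP.add_pt n).ne_zero hT1.ne_zero (hne n)
    rw [show P + T + L.pt n = P + L.pt n + T by abel, show P - T + L.pt n = P + L.pt n - T by abel,
      this, ht', ← he, ← ht, ← hb']
    field_simp
    ring
  rw [Finset.prod_mul_distrib, Finset.prod_mul_distrib, Finset.prod_pow, Finset.prod_mul_distrib,
    Finset.prod_const, Finset.card_univ, ZMod.card, ← hxT', L.prod_sub_xCoord S hP hT',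
    L.prod_sub_xCoord S hP hT, ← mul_assoc, hxT', hprod] at hmain
  have hR : ∀ Q, ∏ n, (xCoord (Q + L.pt n) - e) = L.R S Q * v ^ 2 := fun Q =>
    (div_mul_cancel₀ _ (pow_ne_zero 2 hv0)).symm
  rw [hR, hR] at hmain
  have hk : L.h.eval t ≠ 0 := hT1.h_eval_ne
  apply mul_right_cancel₀ (mul_ne_zero (pow_ne_zero 4 hv0) (pow_ne_zero 4 hk))
  rw [← hRR]
  linear_combination hmain

end Line

end FermatAgent.Mazur
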