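import Fermat.Agent.LocalP.XFormulas
import Mathlib

/-!
A point of exact order `p` on a nodal cubic, from a `p`-th root of unity.
-/

set_option autoImplicit false

namespace FermatAgent.Mazur

open WeierstrassCurve WeierstrassCurve.Affine FermatAgent.LocalP

variable {k : Type*} [Field k] [DecidableEq k] {V : WeierstrassCurve.Affine k}

/-- A point with abscissa `e + β ζ / (1 - ζ)²` is killed by the order of `ζ`. -/
theorem nsmul_nodal {e β ζ : k} {p : ℕ} (hp : p.Prime) (hp5 : 5 ≤ p) (hβ : β ≠ 0)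
    (hb₂ : V.b₂ = β - 12 * e) (hb₄ : V.b₄ = 6 * e ^ 2 - β * e)
    (hb₆ : V.b₆ = β * e ^ 2 - 4 * e ^ 3) (hb₈ : V.b₈ = 3 * e ^ 4 - β * e ^ 3)
    (hζ : ζ ^ p = 1) (hζ1 : ζ ≠ 1) {P : V.Point} (hP : P ≠ 0)
    (hx : xCoord P = e + β * ζ / (1 - ζ) ^ 2) : p • P = 0 := by
  have hord : orderOf ζ = p := by
    have := Fact.mk hp
    exact orderOf_eq_prime hζ hζ1
  have hpow : ∀ i, 0 < i → i < p → ζ ^ i ≠ 1 := fun i h1 h2 h => by
    have := orderOf_dvd_of_pow_eq_one h
    rw [hord] at this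
    exact absurd (Nat.le_of_dvd h1 this) (by omega)
  have hζ0 : ζ ≠ 0 := fun h => by rw [h, zero_pow hp.ne_zero] at hζ; exact zero_ne_one hζ
  set u : k → k := fun z => β * z / (1 - z) ^ 2 with hu
  have hinj : ∀ z w : k, z ≠ 1 → w ≠ 1 → z ≠ w → z * w ≠ 1 → u z ≠ u w := by
    intro z w hz hw hzw hzw' h
    have h1 : (1 - z) ≠ 0 := sub_ne_zero.2 (Ne.symm hz)
    have h2 : (1 - w) ≠ 0 := sub_ne_zero.2 (Ne.symm hw)
    simp only [hu] at h
    field_simp at h
    have : (z - w) * (1 - z * w) = 0 := by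
      linear_combination h
    rcases mul_eq_zero.1 this with h' | h'
    · exact hzw (sub_eq_zero.1 h')
    · exact hzw' (sub_eq_zero.1 h').symm
  have h1ζ : 1 + ζ ≠ 0 := by
    intro h
    have : ζ ^ 2 = 1 := by linear_combination (ζ - 1) * h
    exact hpow 2 (by omega) (by omega) this
  have h1m : (1 : k) - ζ ≠ 0 := sub_ne_zero.2 (Ne.symm hζ1)
  suffices main : ∀ i, i + 2 ≤ p - 1 →
      ((i + 1) • P ≠ 0 ∧ xCoord ((i + 1) • P) = e + u (ζ ^ (i + 1))) ∧
      ((i + 2) • P ≠ 0 ∧ xCoord ((i + 2) • P) = e + u (ζ ^ (i + 2))) by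
    obtain ⟨⟨h1, -⟩, h2, h2x⟩ := main (p - 3) (by omega)
    have hinv : ζ ^ (p - 3 + 2) = ζ⁻¹ := by
      refine eq_inv_of_mul_eq_one_left ?_
      rw [← pow_succ, show p - 3 + 2 + 1 = p by omega, hζ]
    have hxx : xCoord ((p - 3 + 2) • P) = xCoord P := by
      rw [h2x, hx, hinv]
      congr 1
      simp only [hu]
      have : ζ - 1 ≠ 0 := sub_ne_zero.2 hζ1
      field_simp
      ring
    by_cases h : (p - 3 + 2) • P = P
    · refine absurd (add_right_cancel (b := P) ?_) h1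
      rw [zero_add, ← succ_nsmul]
      exact h
    · by_cases h' : (p - 3 + 2) • P = -P
      · rw [show p = p - 3 + 2 + 1 by omega, succ_nsmul, h', neg_add_cancel]
      · exact absurd hxx (xCoord_ne_of_ne_neg h2 hP h h')
  intro i
  induction i with
  | zero =>
    intro _
    refine ⟨⟨by simpa using hP, by simpa [hu] using hx⟩, ?_⟩
    have hψ : 4 * xCoord P ^ 3 + V.b₂ * xCoord P ^ 2 + 2 * V.b₄ * xCoord P + V.b₆ =
        β ^ 3 * ζ ^ 2 * (1 + ζ) ^ 2 / (1 - ζ) ^ 6 := by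
      rw [hb₂, hb₄, hb₆, hx]
      field_simp
      ring
    have h2 : (2 : ℕ) • P ≠ 0 := by
      intro h
      have hn : 4 * xCoord P ^ 3 + V.b₂ * xCoord P ^ 2 + 2 * V.b₄ * xCoord P + V.b₆ = 0 := by
        cases hc : P with
        | zero => exact absurd hc hP
        | some x y n =>
          rw [hc, two_nsmul, ← eq_neg_iff_add_eq_zero, Point.neg_some, Point.some.injEq] at h
          rw [xCoord_some, Ψ₂Sq_eval_eq n.left, ← h.2, sub_self, zero_pow two_ne_zero]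
      rw [hψ, div_eq_zero_iff] at hn
      rcases hn with hn | hn
      · simp [hβ, hζ0, h1ζ] at hn
      · exact h1m (pow_eq_zero_iff (by norm_num) |>.1 hn)
    refine ⟨h2, ?_⟩
    have hd := xCoord_two_nsmul h2
    rw [hψ, hb₄, hb₆, hb₈, hx] at hd
    simp only [zero_add, hu]
    have h12 : (1 : k) - ζ ^ 2 ≠ 0 := sub_ne_zero.2 (hpow 2 (by omega) (by omega)).symm
    rw [← sub_eq_zero]
    apply mul_right_cancel₀ (b := β ^ 3 * ζ ^ 2 * (1 + ζ) ^ 2 / (1 - ζ) ^ 6)
    · exact div_ne_zero (by simp [hβ, hζ0, h1ζ]) (pow_ne_zero 6 h1m)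
    rw [zero_mul, sub_mul, sub_eq_zero, hd, show (1 : k) - ζ ^ 2 = (1 - ζ) * (1 + ζ) by ring]
    field_simp
    ring
  | succ i ih =>
    intro hi
    obtain ⟨⟨-, hprev⟩, ha, hax⟩ := ih (by omega)
    refine ⟨⟨ha, hax⟩, ?_⟩
    set w := ζ ^ (i + 2) with hw
    have hw1 : w ≠ 1 := hpow _ (by omega) (by omega)
    have hne1 : w ≠ ζ := fun h => hpow (i + 1) (by omega) (by omega)
      (mul_right_cancel₀ hζ0 (by rw [← pow_succ, one_mul]; exact h))
    have hne2 : w * ζ ≠ 1 := by rw [hw, ← pow_succ]; exact hpow _ (by omega) (by omega)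
    have hne : xCoord ((i + 2) • P) ≠ xCoord P := by
      rw [hax, hx]
      exact fun h => hinj w ζ hw1 hζ1 hne1 hne2 (add_left_cancel h)
    have hnext : (i + 2) • P + P ≠ 0 := fun h =>
      hne (by rw [eq_neg_of_add_eq_zero_left h, xCoord_neg])
    rw [show i + 1 + 2 = i + 2 + 1 by ring, succ_nsmul]
    refine ⟨hnext, ?_⟩
    have hs := xCoord_add_add_xCoord_sub ha hP hne
    rw [show (i + 2) • P - P = (i + 1) • P by
        rw [show i + 2 = i + 1 + 1 by ring, succ_nsmul _ (i + 1), add_sub_cancel_right],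
      hprev, hax, hx, hb₂, hb₄, hb₆] at hs
    have hpr : ζ ^ (i + 1) = w / ζ := by rw [eq_div_iff hζ0, ← pow_succ, hw]
    rw [pow_succ, ← hw]
    simp only [hu, hpr] at hs ⊢
    have d1 : (1 : k) - w ≠ 0 := sub_ne_zero.2 (Ne.symm hw1)
    have d2 : (1 : k) - w * ζ ≠ 0 := sub_ne_zero.2 (Ne.symm hne2)
    have d3 : ζ - w ≠ 0 := sub_ne_zero.2 (Ne.symm hne1)
    have d4 : e + β * w / (1 - w) ^ 2 - (e + β * ζ / (1 - ζ) ^ 2) ≠ 0 := by
      have := hne
      rw [hax, hx] at this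
      exact sub_ne_zero.2 this
    apply mul_right_cancel₀ (pow_ne_zero 2 d4)
    rw [add_mul, ← eq_sub_iff_add_eq] at hs
    rw [hs, show (1 : k) - w / ζ = (ζ - w) / ζ by field_simp]
    field_simp
    ring

end FermatAgent.Mazur
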