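import Fermat.Agent.Mazur.SplitCurve
import Fermat.Agent.Local.Integral

/-!
Points of an odd prime order near a node, in terms of `x - e` for the singular root `e`.
-/

set_option autoImplicit false

noncomputable section

namespace FermatAgent.Mazur

open WeierstrassCurve WeierstrassCurve.Affine FermatAgent.LocalP FermatAgent.Local Polynomial

variable {K : Type*} [Field K] {A : ValuationSubring K} {W : WeierstrassCurve.Affine K}

/-- The first root reduces to the node, the second is paired with it. -/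
structure Node (A : ValuationSubring K) (S : Split W) : Prop where
  e_mem : S.e₁ ∈ A
  far : A.valuation (4 * (S.e₁ - S.e₃)) = 1
  c_lt : A.valuation S.c < 1

namespace Split

variable (S : Split W)

/-- The coefficient of the double point. -/
def beta : K := 4 * (2 * S.e₁ - S.e₂ - S.e₃)

lemma beta_eq : S.beta = W.b₂ + 12 * S.e₁ := by rw [beta, S.hb₂]; ring

variable [CharZero K]

lemma eval_Ψ₃_shift (x : K) : W.Ψ₃.eval x =
    3 * (x - S.e₁) ^ 4 + S.beta * (x - S.e₁) ^ 3 + 6 * S.c * (x - S.e₁) ^ 2 - S.c ^ 2 := by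
  have hb := W.b_relation
  rw [S.hb₂, S.hb₄, S.hb₆] at hb
  simp only [WeierstrassCurve.Ψ₃, eval_add, eval_mul, eval_C, eval_pow, eval_X, eval_ofNat,
    S.hb₂, S.hb₄, S.hb₆, beta, c]
  linear_combination (1 / 4 : K) * hb

omit [CharZero K] in
lemma psi2_shift (x : K) : S.psi2 x =
    4 * (x - S.e₁) ^ 3 + S.beta * (x - S.e₁) ^ 2 + 4 * S.c * (x - S.e₁) := by
  simp only [psi2, beta, c]; ring

omit [CharZero K] in
lemma dY_sq {x y : K} (h : W.Equation x y) : dY W x y ^ 2 = S.psi2 x := by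
  rw [equation_iff] at h
  rw [← S.psi2_eq]
  simp only [dY, WeierstrassCurve.b₂, WeierstrassCurve.b₄, WeierstrassCurve.b₆]
  linear_combination (4 : K) * h

end Split

lemma val_add_eq_left {a b : K} (h : A.valuation b < A.valuation a) :
    A.valuation (a + b) = A.valuation a := A.valuation.map_add_eq_of_lt_left h

lemma val_sq_lt {a : K} (h : A.valuation (a ^ 2) < 1) : A.valuation a < 1 := by
  by_contra hc
  rw [not_lt] at hc
  exact absurd h (not_lt.2 (by rw [map_pow]; exact one_le_pow₀ hc))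

lemma val_ofNat_le_one (n : ℕ) [n.AtLeastTwo] : A.valuation (OfNat.ofNat n : K) ≤ 1 :=
  val_le_one_of_mem (natCast_mem A n)

variable {S : Split W}

namespace Node

variable (hS : Node A S)
include hS

lemma one_le_far : 1 ≤ A.valuation (S.e₁ - S.e₃) := by
  have h := hS.far
  rw [map_mul] at h
  rw [← h]
  exact mul_le_of_le_one_left' (val_ofNat_le_one 4)

lemma near_le : A.valuation (S.e₁ - S.e₂) ≤ A.valuation S.c := by
  rw [Split.c, map_mul]
  exact le_mul_of_one_le_right' hS.one_le_far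

lemma near_lt : A.valuation (S.e₁ - S.e₂) < 1 := hS.near_le.trans_lt hS.c_lt

lemma val_beta : A.valuation S.beta = 1 := by
  rw [show S.beta = 4 * (S.e₁ - S.e₃) + 4 * (S.e₁ - S.e₂) by rw [Split.beta]; ring,
    val_add_eq_left]
  · exact hS.far
  · rw [hS.far, map_mul]
    exact val_mul_lt_one_of_le_of_lt (val_ofNat_le_one 4) hS.near_lt

lemma beta_mem : S.beta ∈ A := mem_of_val_le_one hS.val_beta.le

lemma val_four_mul {u : K} (hu : A.valuation u < 1) :
    A.valuation (4 * (u + (S.e₁ - S.e₃))) = 1 := by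
  rw [mul_add, add_comm, val_add_eq_left]
  · exact hS.far
  · rw [hS.far, map_mul]; exact val_mul_lt_one_of_le_of_lt (val_ofNat_le_one 4) hu

lemma psi2_lt {x : K} (hu : A.valuation (x - S.e₁) < 1) : A.valuation (S.psi2 x) < 1 := by
  rw [show S.psi2 x = (x - S.e₁) * (x - S.e₂) * (4 * ((x - S.e₁) + (S.e₁ - S.e₃))) by
    rw [Split.psi2]; ring, map_mul, hS.val_four_mul hu, mul_one, map_mul]
  refine val_mul_lt_one_of_lt_of_le hu ?_
  rw [show x - S.e₂ = (x - S.e₁) + (S.e₁ - S.e₂) by ring]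
  exact A.valuation.map_add_le hu.le hS.near_lt.le

variable [CharZero K]

/-- Smooth reduction of an integral point. -/
theorem smoothRed_iff (hW : IntCoeffs A W) {x y : K} (h : W.Equation x y) (hx : x ∈ A) :
    SmoothRed A W x y ↔ A.valuation (x - S.e₁) = 1 := by
  have hy := y_mem_of_x_mem hW h hx
  have hu := val_le_one_of_mem (sub_mem hx hS.e_mem)
  set u := x - S.e₁ with hudef
  set X := dX W x y
  set Y := dY W x y
  have hψ := S.dY_sq h
  have h3 : A.valuation (-X ^ 2 - W.a₁ * X * Y + (3 * x + W.a₂) * Y ^ 2) =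
      A.valuation (3 * u ^ 4 + S.beta * u ^ 3 + 6 * S.c * u ^ 2 - S.c ^ 2) := by
    rw [← S.eval_Ψ₃_shift, eval_Ψ₃_eq W h]
    rfl
  have hc := hS.c_lt
  have hXA := dX_mem hW hx hy
  have hYA := dY_mem hW hx hy
  have hrest : A.valuation (W.a₁ * X * Y) ≤ A.valuation Y ∧
      A.valuation ((3 * x + W.a₂) * Y ^ 2) ≤ A.valuation Y := by
    constructor <;> rw [map_mul]
    · exact mul_le_of_le_one_left' (val_le_one_of_mem (mul_mem hW.a₁ hXA))
    · rw [map_pow, sq]
      exact (mul_le_of_le_one_left' (val_le_one_of_mem (add_mem (mul_mem (natCast_mem A 3) hx) hW.a₂))).trans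
        (mul_le_of_le_one_left' (val_le_one_of_mem hYA))
  constructor
  · rintro ⟨-, hs⟩
    by_contra hne
    have hlt := lt_of_le_of_ne hu hne
    have hY : A.valuation Y < 1 := val_sq_lt (hψ ▸ hS.psi2_lt hlt)
    have hR : A.valuation (3 * u ^ 4 + S.beta * u ^ 3 + 6 * S.c * u ^ 2 - S.c ^ 2) < 1 := by
      have hp : ∀ n : ℕ, n ≠ 0 → A.valuation (u ^ n) < 1 := fun n hn => by
        rw [map_pow]; exact pow_lt_one₀ zero_le hlt hn
      refine (A.valuation.map_sub _ _).trans_lt (max_lt (A.valuation.map_add_lt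
        (A.valuation.map_add_lt ?_ ?_) ?_) ?_) <;> (try simp only [map_mul])
      · exact val_mul_lt_one_of_le_of_lt (val_ofNat_le_one 3) (hp 4 (by norm_num))
      · exact val_mul_lt_one_of_le_of_lt hS.val_beta.le (hp 3 (by norm_num))
      · exact val_mul_lt_one_of_le_of_lt (mul_le_one' (val_ofNat_le_one 6) hc.le)
          (hp 2 two_ne_zero)
      · rw [map_pow]; exact pow_lt_one₀ zero_le hc two_ne_zero
    have hX : A.valuation (X ^ 2) < 1 := by
      rw [show X ^ 2 = -(-X ^ 2 - W.a₁ * X * Y + (3 * x + W.a₂) * Y ^ 2)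
        + (-(W.a₁ * X * Y) + (3 * x + W.a₂) * Y ^ 2) by ring]
      refine A.valuation.map_add_lt ?_ (A.valuation.map_add_lt ?_ (hrest.2.trans_lt hY))
      · rw [Valuation.map_neg, h3]; exact hR
      · rw [Valuation.map_neg]; exact hrest.1.trans_lt hY
    rcases hs with hs | hs
    exacts [hY.ne hs, (val_sq_lt hX).ne hs]
  · intro h1
    refine ⟨hx, ?_⟩
    by_contra hs
    push Not at hs
    have hY := val_lt_one_of_mem_of_ne hYA hs.1
    have hX := val_lt_one_of_mem_of_ne hXA hs.2
    have hun : ∀ n : ℕ, A.valuation (u ^ n) = 1 := fun n => by rw [map_pow, h1, one_pow]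
    have hcu : ∀ (m : K) (n : ℕ), A.valuation m ≤ 1 → A.valuation (m * S.c * u ^ n) < 1 :=
      fun m n hm => by
        rw [map_mul, hun, mul_one, map_mul]; exact val_mul_lt_one_of_le_of_lt hm hc
    have e2 : A.valuation (4 * u + S.beta) < 1 := by
      suffices A.valuation ((4 * u + S.beta) * u ^ 2) < 1 by rwa [map_mul, hun, mul_one] at this
      rw [show (4 * u + S.beta) * u ^ 2 = Y ^ 2 - 4 * S.c * u ^ 1 by rw [hψ, S.psi2_shift]; ring]
      refine (A.valuation.map_sub _ _).trans_lt (max_lt ?_ (hcu 4 1 (val_ofNat_le_one 4)))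
      rw [map_pow]; exact pow_lt_one₀ zero_le hY two_ne_zero
    have e3 : A.valuation (3 * u + S.beta) < 1 := by
      suffices A.valuation ((3 * u + S.beta) * u ^ 3) < 1 by rwa [map_mul, hun, mul_one] at this
      rw [show (3 * u + S.beta) * u ^ 3 = (3 * u ^ 4 + S.beta * u ^ 3 + 6 * S.c * u ^ 2 - S.c ^ 2) -
          (6 * S.c * u ^ 2 - S.c ^ 2) by ring]
      refine (A.valuation.map_sub _ _).trans_lt (max_lt ?_ ?_)
      · rw [← h3]
        refine A.valuation.map_add_lt ?_ (hrest.2.trans_lt hY)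
        refine (A.valuation.map_sub _ _).trans_lt (max_lt ?_ (hrest.1.trans_lt hY))
        rw [Valuation.map_neg, map_pow]; exact pow_lt_one₀ zero_le hX two_ne_zero
      · refine (A.valuation.map_sub _ _).trans_lt (max_lt (hcu 6 2 (val_ofNat_le_one 6)) ?_)
        rw [map_pow]; exact pow_lt_one₀ zero_le hc two_ne_zero
    have : A.valuation u < 1 := by
      rw [show u = (4 * u + S.beta) - (3 * u + S.beta) by ring]
      exact (A.valuation.map_sub _ _).trans_lt (max_lt e2 e3)
    exact this.ne h1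

variable [DecidableEq K]

omit [DecidableEq K] in
lemma inE0_iff (hW : IntCoeffs A W) {P : W.Point} (hP : P ≠ 0) :
    InE0 A W P ↔ xCoord P ∉ A ∨ A.valuation (xCoord P - S.e₁) = 1 := by
  rcases P with _ | ⟨x, y, h⟩
  · exact absurd rfl hP
  · rw [xCoord_some]
    by_cases hx : x ∈ A
    · simp only [InE0, hx, not_true, false_or]; exact hS.smoothRed_iff hW h.left hx
    · simp [InE0, hx]

omit [DecidableEq K] in
lemma of_not_inE0 (hW : IntCoeffs A W) {P : W.Point} (h : ¬ InE0 A W P) :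
    P ≠ 0 ∧ xCoord P ∈ A ∧ A.valuation (xCoord P - S.e₁) < 1 := by
  have hP : P ≠ 0 := by rintro rfl; exact h trivial
  rw [hS.inE0_iff hW hP] at h
  push Not at h
  exact ⟨hP, h.1, lt_of_le_of_ne (val_le_one_of_mem (sub_mem h.1 hS.e_mem)) h.2⟩

/-- An `E₀`-point of odd order whose double is outside. -/
lemma lt_of_not_inE0 (hW : IntCoeffs A W) {P : W.Point} {p : ℕ} (hp : Odd p) (hpP : p • P = 0)
    (h : ¬ InE0 A W P) : A.valuation S.c < A.valuation (xCoord P - S.e₁) := by
  obtain ⟨hP, hx, hu⟩ := hS.of_not_inE0 hW h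
  have h2 : ¬ InE0 A W ((2 : ℕ) • P) := by
    intro h2
    obtain ⟨k, rfl⟩ := hp
    refine h ?_
    have he : P = -(k • ((2 : ℕ) • P)) := by
      rw [eq_neg_iff_add_eq_zero, ← mul_nsmul', add_comm, ← succ_nsmul, mul_comm]; exact hpP
    rw [he]
    exact (e0Subgroup A W hW).neg_mem ((e0Subgroup A W hW).nsmul_mem h2 k)
  obtain ⟨h2P, hx2, hu2⟩ := hS.of_not_inE0 hW h2
  by_contra hle
  rw [not_lt] at hle
  set u := xCoord P - S.e₁
  have hc0 : A.valuation S.c ≠ 0 := (_root_.map_ne_zero _).2 S.c_ne_zero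
  have hu2c : A.valuation (u ^ 2 - S.c) = A.valuation S.c := by
    refine A.valuation.map_sub_eq_of_lt_right ?_
    rw [map_pow, sq]
    calc A.valuation u * A.valuation u ≤ A.valuation S.c * A.valuation S.c := mul_le_mul' hle hle
      _ < A.valuation S.c * 1 := mul_lt_mul_of_pos_left hS.c_lt (zero_lt_iff.2 hc0)
      _ = _ := mul_one _
  have hψ : A.valuation (S.psi2 (xCoord P)) ≤ A.valuation S.c * A.valuation S.c := by
    rw [show S.psi2 (xCoord P) = u * (u + (S.e₁ - S.e₂)) * (4 * (u + (S.e₁ - S.e₃))) by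
      rw [Split.psi2]; ring, map_mul, hS.val_four_mul hu, mul_one, map_mul]
    exact mul_le_mul' hle (A.valuation.map_add_le hle hS.near_le)
  have hd := congrArg A.valuation (S.two_nsmul_sub h2P)
  rw [map_mul, map_pow, hu2c, sq] at hd
  have : A.valuation S.c * A.valuation S.c < A.valuation S.c * A.valuation S.c := by
    conv_lhs => rw [← hd]
    calc A.valuation (xCoord ((2 : ℕ) • P) - S.e₁) * A.valuation (S.psi2 (xCoord P))
        ≤ A.valuation (xCoord ((2 : ℕ) • P) - S.e₁) * (A.valuation S.c * A.valuation S.c) :=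
          mul_le_mul_right hψ _
      _ < 1 * (A.valuation S.c * A.valuation S.c) :=
          mul_lt_mul_of_pos_right hu2 (zero_lt_iff.2 (mul_ne_zero hc0 hc0))
      _ = _ := one_mul _
  exact lt_irrefl _ this

omit [CharZero K] [DecidableEq K] in
lemma val_sub_e₂ {x : K} (h : A.valuation S.c < A.valuation (x - S.e₁)) :
    A.valuation (x - S.e₂) = A.valuation (x - S.e₁) := by
  rw [show x - S.e₂ = (x - S.e₁) + (S.e₁ - S.e₂) by ring]
  exact val_add_eq_left (hS.near_le.trans_lt h)

omit [CharZero K] [DecidableEq K] in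
lemma val_sub_e₃ {x : K} (h : A.valuation (x - S.e₁) < 1) :
    A.valuation (x - S.e₃) = A.valuation (S.e₁ - S.e₃) := by
  rw [show x - S.e₃ = (S.e₁ - S.e₃) + (x - S.e₁) by ring]
  exact val_add_eq_left (h.trans_le hS.one_le_far)

/-- Two points outside `E₀` equally close to the node agree up to sign modulo `E₀`. -/
theorem add_or_sub_inE0 (hW : IntCoeffs A W) {P Q : W.Point} {p : ℕ} (hp : Odd p)
    (hpP : p • P = 0) (hP : ¬ InE0 A W P) (hQ : ¬ InE0 A W Q)
    (h : A.valuation (xCoord P - S.e₁) = A.valuation (xCoord Q - S.e₁)) :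
    InE0 A W (P + Q) ∨ InE0 A W (P - Q) := by
  by_contra hc
  push Not at hc
  obtain ⟨hP0, -, hu⟩ := hS.of_not_inE0 hW hP
  obtain ⟨hQ0, -, hu'⟩ := hS.of_not_inE0 hW hQ
  obtain ⟨hs0, -, hus⟩ := hS.of_not_inE0 hW hc.1
  obtain ⟨hd0, -, hud⟩ := hS.of_not_inE0 hW hc.2
  have hfar := hS.lt_of_not_inE0 hW hp hpP hP
  have hne : xCoord P ≠ xCoord Q := xCoord_ne_of_ne_neg hP0 hQ0
    (fun e => hd0 (sub_eq_zero.2 e)) (fun e => hs0 (by rw [e, neg_add_cancel]))
  have hsum := S.sub_add_sub hP0 hQ0 hne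
  set u := xCoord P - S.e₁
  set u' := xCoord Q - S.e₁
  set l := A.valuation u with hl
  have hl0 : 0 < l := lt_of_le_of_lt zero_le hfar
  have hmain : A.valuation (2 * u * u' * (u + u') + 4 * (2 * S.e₁ - S.e₂ - S.e₃) * (u * u') +
      2 * S.c * (u + u')) = l * l := by
    have huu : A.valuation (u + u') ≤ l := A.valuation.map_add_le le_rfl h.ge
    have hb : A.valuation (4 * (2 * S.e₁ - S.e₂ - S.e₃) * (u * u')) = l * l := by
      rw [map_mul, show A.valuation (4 * (2 * S.e₁ - S.e₂ - S.e₃)) = 1 from hS.val_beta, one_mul,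
        map_mul, ← h]
    rw [show 2 * u * u' * (u + u') + 4 * (2 * S.e₁ - S.e₂ - S.e₃) * (u * u') +
        2 * S.c * (u + u') = 4 * (2 * S.e₁ - S.e₂ - S.e₃) * (u * u') +
          (2 * u * u' * (u + u') + 2 * S.c * (u + u')) by ring, val_add_eq_left] <;> rw [hb]
    refine A.valuation.map_add_lt ?_ ?_ <;> simp only [map_mul]
    · calc A.valuation 2 * l * A.valuation u' * A.valuation (u + u') ≤ 1 * l * l * l := by
            gcongr
            · exact val_ofNat_le_one 2
            · exact h.ge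
        _ < l * l := by
            rw [one_mul]; exact mul_lt_of_lt_one_right (mul_pos hl0 hl0) hu
    · calc A.valuation 2 * A.valuation S.c * A.valuation (u + u') ≤ 1 * A.valuation S.c * l := by
            gcongr
            exact val_ofNat_le_one 2
        _ < l * l := by rw [one_mul]; exact mul_lt_mul_of_pos_right hfar hl0
  have hdiff : A.valuation (xCoord P - xCoord Q) ≤ l := by
    rw [show xCoord P - xCoord Q = u - u' by ring]
    exact A.valuation.map_sub_le le_rfl h.ge
  have hlt : A.valuation ((xCoord (P + Q) - S.e₁ + (xCoord (P - Q) - S.e₁)) *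
      (xCoord P - xCoord Q) ^ 2) < l * l := by
    rw [map_mul, map_pow, sq]
    calc _ ≤ A.valuation (xCoord (P + Q) - S.e₁ + (xCoord (P - Q) - S.e₁)) * (l * l) := by gcongr
      _ < 1 * (l * l) := mul_lt_mul_of_pos_right (A.valuation.map_add_lt hus hud) (mul_pos hl0 hl0)
      _ = _ := one_mul _
  rw [hsum, hmain] at hlt
  exact lt_irrefl _ hlt

end Node

variable [CharZero K] [DecidableEq K]

omit [CharZero K] [DecidableEq K] in
lemma val_psi2_lt (hW : IntCoeffs A W) (he : S.e₁ ∈ A) (hc : A.valuation S.c ≤ 1) {x : K}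
    (hx : A.valuation (x - S.e₁) < 1) : A.valuation (S.psi2 x) < 1 := by
  have hb : S.beta ∈ A := by
    rw [S.beta_eq]
    exact add_mem (add_mem (pow_mem hW.a₁ 2) (mul_mem (natCast_mem A 4) hW.a₂))
      (mul_mem (natCast_mem A 12) he)
  rw [S.psi2_shift, show 4 * (x - S.e₁) ^ 3 + S.beta * (x - S.e₁) ^ 2 + 4 * S.c * (x - S.e₁) =
    (x - S.e₁) * (4 * (x - S.e₁) ^ 2 + S.beta * (x - S.e₁) + 4 * S.c) by ring, map_mul]
  refine val_mul_lt_one_of_lt_of_le hx (val_le_one_of_mem ?_)
  exact add_mem (add_mem (mul_mem (natCast_mem A 4) (pow_mem (mem_of_val_le_one hx.le) 2))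
    (mul_mem hb (mem_of_val_le_one hx.le))) (mul_mem (natCast_mem A 4) (mem_of_val_le_one hc))

/-- An integral point with integral double is not congruent to a simple root. -/
theorem val_sub_root_eq_one (hW : IntCoeffs A W) (he : S.e₁ ∈ A) (hc : A.valuation S.c = 1)
    {P : W.Point} (h2 : (2 : ℕ) • P ≠ 0) (hx : xCoord P ∈ A) (hx2 : xCoord ((2 : ℕ) • P) ∈ A) :
    A.valuation (xCoord P - S.e₁) = 1 := by
  by_contra hne
  have hu := lt_of_le_of_ne (val_le_one_of_mem (sub_mem hx he)) hne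
  have hd := congrArg A.valuation (S.two_nsmul_sub h2)
  have hnum : A.valuation ((xCoord P - S.e₁) ^ 2 - S.c) = A.valuation S.c := by
    refine A.valuation.map_sub_eq_of_lt_right ?_
    rw [hc, map_pow]; exact pow_lt_one₀ zero_le hu two_ne_zero
  rw [map_mul, map_pow, hnum, hc, one_pow] at hd
  exact (val_mul_lt_one_of_le_of_lt (val_le_one_of_mem (sub_mem hx2 he))
    (val_psi2_lt hW he hc.le hu)).ne hd

end FermatAgent.Mazur
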