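import Fermat.Agent.Mazur.Node
import Fermat.Agent.Mazur.NodalParam
import Fermat.Agent.Local.TorsionCount
import Mathlib.RingTheory.RootsOfUnity.Complex

/-!
Smooth torsion at a node: it exists, and multiplication by 2 or 3 reduces to the Frobenius map in
residue characteristic 2 or 3.
-/

set_option autoImplicit false

noncomputable section

namespace FermatAgent.Mazur

open WeierstrassCurve WeierstrassCurve.Affine FermatAgent.LocalP FermatAgent.Local Polynomial
open IsLocalRing (residue ResidueField)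

variable {K : Type*} [Field K] {A : ValuationSubring K} {W : WeierstrassCurve.Affine K}

lemma residue_eq_zero_of_lt {z : K} (hz : z ∈ A) (h : A.valuation z < 1) :
    residue A ⟨z, hz⟩ = 0 := (residue_eq_zero_iff_val hz).2 h.ne

lemma residue_eq_of_lt {z w : K} (hz : z ∈ A) (hw : w ∈ A) (h : A.valuation (z - w) < 1) :
    residue A ⟨z, hz⟩ = residue A ⟨w, hw⟩ := by
  rw [← sub_eq_zero, ← map_sub]
  exact residue_eq_zero_of_lt (sub_mem hz hw) h

lemma lt_of_residue_eq {z w : K} (hz : z ∈ A) (hw : w ∈ A)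
    (h : residue A ⟨z, hz⟩ = residue A ⟨w, hw⟩) : A.valuation (z - w) < 1 := by
  rw [← sub_eq_zero, ← map_sub] at h
  exact val_lt_one_of_mem_of_ne (sub_mem hz hw) ((residue_eq_zero_iff_val (sub_mem hz hw)).1 h)

variable [DecidableEq K]

/-- Torsion points with congruent abscissae agree up to sign. -/
theorem eq_or_eq_neg_of_congr (hW : IntCoeffs A W) {n : ℕ} (hn : A.valuation (n : K) = 1)
    {P Q : W.Point} (hP : n • P = 0) (hQ : n • Q = 0) (hP0 : P ≠ 0) (hQ0 : Q ≠ 0)
    (hE : InE0 A W P) (h : A.valuation (xCoord P - xCoord Q) < 1) : P = Q ∨ P = -Q := by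
  rcases P with _ | ⟨x₁, y₁, h₁⟩
  · exact absurd rfl hP0
  rcases Q with _ | ⟨x₂, y₂, h₂⟩
  · exact absurd rfl hQ0
  simp only [xCoord_some] at h
  have hx₁ := x_mem_of_nsmul_eq_zero hW hn h₁ hP
  have hx₂ := x_mem_of_nsmul_eq_zero hW hn h₂ hQ
  have hs := hE.resolve_left (not_not.2 hx₁)
  have hy₁ := y_mem_of_x_mem hW h₁.left hx₁
  have hy₂ := y_mem_of_x_mem hW h₂.left hx₂
  have hprod : A.valuation ((y₁ - y₂) * (y₁ - W.negY x₂ y₂)) < 1 := by
    rw [show (y₁ - y₂) * (y₁ - W.negY x₂ y₂) = (x₁ - x₂) *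
        (x₁ ^ 2 + x₁ * x₂ + x₂ ^ 2 + W.a₂ * (x₁ + x₂) + W.a₄ - W.a₁ * y₁) by
      have e1 := (equation_iff_zero W x₁ y₁).1 h₁.left
      have e2 := (equation_iff_zero W x₂ y₂).1 h₂.left
      simp only [negY]
      linear_combination e1 - e2, map_mul]
    exact val_mul_lt_one_of_lt_of_le h (val_le_one_of_mem (sub_mem (add_mem (add_mem (add_mem
      (add_mem (pow_mem hx₁ 2) (mul_mem hx₁ hx₂)) (pow_mem hx₂ 2))
        (mul_mem hW.a₂ (add_mem hx₁ hx₂))) hW.a₄) (mul_mem hW.a₁ hy₁)))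
  by_cases hy : A.valuation (y₁ - y₂) < 1
  · exact Or.inl (eq_of_congr hW hn h₁ h₂ hs h hy hP hQ)
  · right
    rw [Point.neg_some]
    refine eq_of_congr hW hn h₁ ((nonsingular_neg x₂ y₂).2 h₂) hs h ?_ hP ?_
    · rw [not_lt] at hy
      by_contra hy'
      rw [not_lt] at hy'
      rw [map_mul] at hprod
      exact absurd hprod (not_lt.2 (one_le_mul hy hy'))
    · rw [← Point.neg_some h₂, smul_neg, hQ, neg_zero]

namespace Node

variable {S : Split W} (hS : Node A S) [CharZero K]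
include hS

omit [DecidableEq K] [CharZero K] in
lemma residue_c : residue A ⟨S.c, mem_of_val_le_one hS.c_lt.le⟩ = 0 :=
  residue_eq_zero_of_lt _ hS.c_lt

/-- In residue characteristic two, doubling squares the abscissa. -/
theorem two_nsmul_congr (h2 : A.valuation (2 : K) < 1)
    (he : A.valuation (S.e₁ ^ 2 - S.e₁) < 1) (hb : A.valuation (S.beta ^ 2 - 1) < 1)
    {P : W.Point} (h2P : (2 : ℕ) • P ≠ 0) (hx : xCoord P ∈ A)
    (hx2 : xCoord ((2 : ℕ) • P) ∈ A) (hu : A.valuation (xCoord P - S.e₁) = 1) :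
    A.valuation (xCoord ((2 : ℕ) • P) - xCoord P ^ 2) < 1 := by
  have heA := hS.e_mem
  set cA : A := ⟨S.c, mem_of_val_le_one hS.c_lt.le⟩
  set eA : A := ⟨S.e₁, heA⟩
  set bA : A := ⟨S.beta, hS.beta_mem⟩
  set uA : A := ⟨xCoord P - S.e₁, sub_mem hx heA⟩
  set vA : A := ⟨xCoord ((2 : ℕ) • P) - S.e₁, sub_mem hx2 heA⟩
  have hd : vA * (4 * uA ^ 3 + bA * uA ^ 2 + 4 * cA * uA) = (uA ^ 2 - cA) ^ 2 := Subtype.ext (by
    have := S.two_nsmul_sub h2P
    rw [S.psi2_shift] at this
    exact this)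
  have hd' := congrArg (residue A) hd
  have r2 : (2 : ResidueField A) = 0 := by
    have := residue_eq_zero_of_lt (natCast_mem A 2) (by exact_mod_cast h2)
    rw [show (⟨((2 : ℕ) : K), natCast_mem A 2⟩ : A) = 2 from Subtype.ext (Nat.cast_ofNat)] at this
    simpa [map_ofNat] using this
  have rc : residue A cA = 0 := hS.residue_c
  have re : residue A eA ^ 2 = residue A eA := by
    rw [← map_pow]; exact residue_eq_of_lt (pow_mem heA 2) heA he
  have rb : residue A bA ^ 2 = 1 := by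
    rw [← map_pow, ← map_one (residue A)]
    exact residue_eq_of_lt (pow_mem hS.beta_mem 2) (one_mem A) hb
  have ru : residue A uA ≠ 0 := fun h => (residue_eq_zero_iff_val _).1 h hu
  simp only [map_add, map_mul, map_sub, map_pow, map_ofNat, rc] at hd'
  refine lt_of_residue_eq hx2 (pow_mem hx 2) ?_
  rw [show (⟨xCoord ((2 : ℕ) • P), hx2⟩ : A) = vA + eA from Subtype.ext (sub_add_cancel _ _).symm,
    show (⟨xCoord P ^ 2, pow_mem hx 2⟩ : A) = (uA + eA) ^ 2 from
      Subtype.ext (show _ = ((xCoord P - S.e₁) + S.e₁) ^ 2 by ring)]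
  simp only [map_add, map_pow]
  have rb1 : residue A bA = 1 := by
    have h0 : (residue A bA - 1) ^ 2 = 0 := by
      linear_combination rb - (residue A bA - 1) * r2
    exact sub_eq_zero.1 ((pow_eq_zero_iff two_ne_zero).1 h0)
  have rv : residue A vA = residue A uA ^ 2 := by
    apply mul_right_cancel₀ (pow_ne_zero 2 ru)
    rw [rb1] at hd'
    linear_combination hd' - (2 * residue A vA * residue A uA ^ 3) * r2
  rw [rv]
  linear_combination -re - (residue A uA * residue A eA) * r2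

/-- In residue characteristic three, tripling cubes the abscissa. -/
theorem three_nsmul_congr (h3 : A.valuation (3 : K) < 1)
    (he : A.valuation (S.e₁ ^ 3 - S.e₁) < 1) (hb : A.valuation (S.beta ^ 2 - 1) < 1)
    {P : W.Point} (h2P : (2 : ℕ) • P ≠ 0) (hne : xCoord ((2 : ℕ) • P) ≠ xCoord P)
    (hx : xCoord P ∈ A) (hx2 : xCoord ((2 : ℕ) • P) ∈ A)
    (hx3 : xCoord ((3 : ℕ) • P) ∈ A) (hu : A.valuation (xCoord P - S.e₁) = 1) :
    A.valuation (xCoord ((3 : ℕ) • P) - xCoord P ^ 3) < 1 := by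
  have heA := hS.e_mem
  have hP : P ≠ 0 := fun h => h2P (by rw [h, nsmul_zero])
  set cA : A := ⟨S.c, mem_of_val_le_one hS.c_lt.le⟩
  set eA : A := ⟨S.e₁, heA⟩
  set bA : A := ⟨S.beta, hS.beta_mem⟩
  set uA : A := ⟨xCoord P - S.e₁, sub_mem hx heA⟩
  set vA : A := ⟨xCoord ((2 : ℕ) • P) - S.e₁, sub_mem hx2 heA⟩
  set wA : A := ⟨xCoord ((3 : ℕ) • P) - S.e₁, sub_mem hx3 heA⟩
  have hd : vA * (4 * uA ^ 3 + bA * uA ^ 2 + 4 * cA * uA) = (uA ^ 2 - cA) ^ 2 := Subtype.ext (by
    have := S.two_nsmul_sub h2P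
    rw [S.psi2_shift] at this
    exact this)
  have ht : wA * uA * (vA - uA) ^ 2 = (vA * uA - cA) ^ 2 := Subtype.ext (by
    have := S.sub_mul_sub h2P hP hne
    rw [show (2 : ℕ) • P + P = (3 : ℕ) • P by rw [← succ_nsmul],
      show (2 : ℕ) • P - P = P by rw [two_nsmul, add_sub_cancel_right]] at this
    show (xCoord ((3 : ℕ) • P) - S.e₁) * (xCoord P - S.e₁) *
      ((xCoord ((2 : ℕ) • P) - S.e₁) - (xCoord P - S.e₁)) ^ 2 = _
    rw [sub_sub_sub_cancel_right]
    exact this)
  have hd' := congrArg (residue A) hd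
  have ht' := congrArg (residue A) ht
  have r3 : (3 : ResidueField A) = 0 := by
    have := residue_eq_zero_of_lt (natCast_mem A 3) (by exact_mod_cast h3)
    rw [show (⟨((3 : ℕ) : K), natCast_mem A 3⟩ : A) = 3 from Subtype.ext (Nat.cast_ofNat)] at this
    simpa [map_ofNat] using this
  have rc : residue A cA = 0 := hS.residue_c
  have re : residue A eA ^ 3 = residue A eA := by
    rw [← map_pow]; exact residue_eq_of_lt (pow_mem heA 3) heA he
  have rb : residue A bA ^ 2 = 1 := by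
    rw [← map_pow, ← map_one (residue A)]
    exact residue_eq_of_lt (pow_mem hS.beta_mem 2) (one_mem A) hb
  have ru : residue A uA ≠ 0 := fun h => (residue_eq_zero_iff_val _).1 h hu
  simp only [map_add, map_mul, map_sub, map_pow, map_ofNat, rc] at hd' ht'
  refine lt_of_residue_eq hx3 (pow_mem hx 3) ?_
  rw [show (⟨xCoord ((3 : ℕ) • P), hx3⟩ : A) = wA + eA from Subtype.ext (sub_add_cancel _ _).symm,
    show (⟨xCoord P ^ 3, pow_mem hx 3⟩ : A) = (uA + eA) ^ 3 from
      Subtype.ext (show _ = ((xCoord P - S.e₁) + S.e₁) ^ 3 by ring)]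
  simp only [map_add, map_pow]
  generalize residue A uA = U at *
  generalize residue A vA = V at *
  generalize residue A wA = Wt at *
  generalize residue A bA = B at *
  generalize residue A eA = E at *
  have hV : V * (U + B) = U ^ 2 := by
    apply mul_right_cancel₀ (pow_ne_zero 2 ru)
    linear_combination hd' - V * U ^ 3 * r3
  have hUB : U + B ≠ 0 := fun h => by
    rw [h, mul_zero] at hV; exact pow_ne_zero 2 ru hV.symm
  have hd2 : (V - U) * (U + B) = -(B * U) := by linear_combination hV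
  have key : Wt * U ^ 3 = U ^ 6 := by
    have : Wt * U * ((V - U) * (U + B)) ^ 2 = (V * (U + B)) ^ 2 * U ^ 2 := by
      linear_combination (U + B) ^ 2 * ht'
    rw [hd2, hV] at this
    linear_combination this - Wt * U ^ 3 * rb
  have hW3 : Wt = U ^ 3 := mul_right_cancel₀ (pow_ne_zero 3 ru) (by linear_combination key)
  rw [hW3]
  linear_combination -re - (U ^ 2 * E + U * E ^ 2) * r3

/-- There is a point of order `p` with smooth reduction. -/
theorem exists_torsion_inE0 [IsAlgClosed K] (hW : IntCoeffs A W) {p : ℕ} (hp : p.Prime)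
    (hp5 : 5 ≤ p) (hv : A.valuation (p : K) = 1) :
    ∃ P : W.Point, P ≠ 0 ∧ p • P = 0 ∧ InE0 A W P := by
  classical
  have hne : NeZero p := ⟨hp.ne_zero⟩
  obtain ⟨ζ, hζ⟩ : ∃ ζ : K, IsPrimitiveRoot ζ p := by
    obtain ⟨ζ, h⟩ := IsAlgClosed.exists_root (cyclotomic p K)
      (degree_cyclotomic_pos p K hp.pos).ne'
    exact ⟨ζ, isRoot_cyclotomic_iff.1 h⟩
  have hpow : ζ ^ p = 1 := hζ.pow_eq_one
  have hζv : A.valuation ζ = 1 := by
    have := congrArg A.valuation hpow
    rw [map_pow, map_one] at this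
    exact (pow_eq_one_iff.1 this).resolve_right hp.ne_zero
  have hζA := mem_of_val_le_one hζv.le
  have h1ζ : A.valuation (1 - ζ) = 1 := by
    by_contra hne
    have hlt := val_lt_one_of_mem_of_ne (sub_mem (one_mem A) hζA) hne
    have hsum := hζ.geom_sum_eq_zero hp.one_lt
    have h0 := congrArg (residue A) (show (∑ i ∈ Finset.range p, (⟨ζ, hζA⟩ : A) ^ i) = 0 from
      Subtype.ext (by push_cast; exact hsum))
    rw [map_sum, map_zero] at h0
    simp only [map_pow, show residue A ⟨ζ, hζA⟩ = 1 from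
      (residue_eq_of_lt (one_mem A) hζA hlt).symm.trans (map_one (residue A)), one_pow,
      Finset.sum_const, Finset.card_range, nsmul_eq_mul, mul_one] at h0
    rw [← map_natCast (residue A), show ((p : A)) = ⟨(p : K), natCast_mem A p⟩ from rfl,
      residue_eq_zero_iff_val] at h0
    exact h0 hv
  set u := S.beta * ζ / (1 - ζ) ^ 2 with hu
  have huv : A.valuation u = 1 := by
    rw [hu, map_div₀, map_mul, map_pow, hS.val_beta, hζv, h1ζ]; simp
  set x := S.e₁ + u with hxdef
  have hxA : x ∈ A := add_mem hS.e_mem (mem_of_val_le_one huv.le)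
  have hxu : A.valuation (x - S.e₁) = 1 := by rw [hxdef, add_sub_cancel_left]; exact huv
  obtain ⟨y, hy⟩ := exists_point_over W S.Δ_ne_zero x
  have hyA := y_mem_of_x_mem hW hy.left hxA
  have hns := (smoothRed_iff_nonsingular hW hy.left hxA hyA).1
    ((hS.smoothRed_iff hW hy.left hxA).2 hxu)
  set M := intModel hW
  set V : WeierstrassCurve.Affine (ResidueField A) := (M.map (residue A)).toAffine
  -- invariants of the reduced curve
  set eA : A := ⟨S.e₁, hS.e_mem⟩
  set bA : A := ⟨S.beta, hS.beta_mem⟩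
  set cA : A := ⟨S.c, mem_of_val_le_one hS.c_lt.le⟩
  have rc : residue A cA = 0 := hS.residue_c
  have hinv : (M.b₂ = bA - 12 * eA) ∧ (M.b₄ = 6 * eA ^ 2 - bA * eA + 2 * cA) ∧
      (M.b₆ = bA * eA ^ 2 - 4 * eA ^ 3 - 4 * eA * cA) ∧
      (M.b₈ = 3 * eA ^ 4 - bA * eA ^ 3 + cA * (6 * eA ^ 2 - cA)) := by
    have m2 : ((M.b₂ : A) : K) = W.b₂ := (M.map_b₂ A.subtype).symm
    have m4 : ((M.b₄ : A) : K) = W.b₄ := (M.map_b₄ A.subtype).symm
    have m6 : ((M.b₆ : A) : K) = W.b₆ := (M.map_b₆ A.subtype).symm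
    have m8 : ((M.b₈ : A) : K) = W.b₈ := (M.map_b₈ A.subtype).symm
    have hb := W.b_relation
    rw [S.hb₂, S.hb₄, S.hb₆] at hb
    refine ⟨A.subtype_injective ?_, A.subtype_injective ?_, A.subtype_injective ?_,
      A.subtype_injective ?_⟩ <;>
      simp only [map_add, map_sub, map_mul, map_pow, map_ofNat] <;>
      simp only [ValuationSubring.subtype_apply, eA, bA, cA, Split.beta, Split.c]
    · rw [m2, S.hb₂]; ring
    · rw [m4, S.hb₄]; ring
    · rw [m6, S.hb₆]; ring
    · rw [m8]; linear_combination (1 / 4 : K) * hb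
  obtain ⟨i2, i4, i6, i8⟩ := hinv
  have hζ1 : residue A ⟨ζ, hζA⟩ ≠ 1 := by
    intro h
    rw [← map_one (residue A)] at h
    exact (lt_of_residue_eq (one_mem A) hζA h.symm).ne h1ζ
  set P₀ : V.Point := Point.some _ _ hns
  have hP₀ : p • P₀ = 0 := by
    refine nsmul_nodal (e := residue A eA) (β := residue A bA) (ζ := residue A ⟨ζ, hζA⟩) hp hp5
      (fun h => (residue_eq_zero_iff_val _).1 h hS.val_beta) ?_ ?_ ?_ ?_ ?_ hζ1
      (Point.some_ne_zero hns) ?_
    · show (M.map (residue A)).b₂ = _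
      rw [M.map_b₂, i2]; simp [map_ofNat]
    · show (M.map (residue A)).b₄ = _
      rw [M.map_b₄, i4]; simp [map_ofNat, rc]
    · show (M.map (residue A)).b₆ = _
      rw [M.map_b₆, i6]; simp [map_ofNat, rc]
    · show (M.map (residue A)).b₈ = _
      rw [M.map_b₈, i8]; simp [map_ofNat, rc]
    · rw [← map_pow, ← map_one (residue A)]
      exact congrArg _ (Subtype.ext hpow)
    · show residue A ⟨x, hxA⟩ = _
      have h0 : (1 - ⟨ζ, hζA⟩ : A) ^ 2 * (⟨x, hxA⟩ - eA) = bA * ⟨ζ, hζA⟩ := Subtype.ext (by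
        show (1 - ζ) ^ 2 * (x - S.e₁) = S.beta * ζ
        have : (1 : K) - ζ ≠ 0 := fun h => by rw [h, map_zero] at h1ζ; exact zero_ne_one h1ζ
        rw [hxdef, add_sub_cancel_left, hu]; field_simp)
      have h1 := congrArg (residue A) h0
      simp only [map_mul, map_pow, map_sub, map_one] at h1
      have : (1 : ResidueField A) - residue A ⟨ζ, hζA⟩ ≠ 0 := sub_ne_zero.2 hζ1.symm
      field_simp
      linear_combination h1
  have hΨ := (nsmul_eq_zero_iff hns p).1 hP₀
  have hodd : Odd p := hp.odd_of_ne_two (by omega)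
  rw [ΨSq_ofNat, if_neg (Nat.not_even_iff_odd.2 hodd), mul_one, eval_pow,
    pow_eq_zero_iff two_ne_zero,
    show V.preΨ' p = (M.preΨ' p).map (residue A) from M.map_preΨ' _ p, eval_map,
    ← coe_eval₂RingHom, coe_eval₂RingHom, eval₂_at_apply] at hΨ
  have hsmall : A.valuation ((W.preΨ' p).eval x) < 1 := by
    have he : (W.preΨ' p).eval x = (((M.preΨ' p).eval ⟨x, hxA⟩ : A) : K) := by
      rw [show W.preΨ' p = (M.preΨ' p).map A.subtype from M.map_preΨ' A.subtype p, eval_map]
      exact Polynomial.eval₂_hom A.subtype (⟨x, hxA⟩ : A)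
    rw [he]
    exact val_lt_one_of_mem_of_ne (Subtype.coe_prop _) ((residue_eq_zero_iff_val _).1 hΨ)
  have hpK : (p : K) ≠ 0 := Nat.cast_ne_zero.2 hp.ne_zero
  have hf0 : W.preΨ' p ≠ 0 := preΨ'_ne_zero _ hpK
  have hlead : (W.preΨ' p).leadingCoeff = (p : K) := by
    rw [leadingCoeff_preΨ' _ hpK, if_neg (Nat.not_even_iff_odd.2 hodd)]
  rw [(IsAlgClosed.splits (W.preΨ' p)).eq_prod_roots, eval_mul, eval_C, hlead, map_mul, hv,
    one_mul, eval_multiset_prod, Multiset.map_map, map_multiset_prod, Multiset.map_map] at hsmall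
  obtain ⟨z, hz, hzlt⟩ : ∃ z ∈ (W.preΨ' p).roots, A.valuation (x - z) < 1 := by
    by_contra hall
    push Not at hall
    refine absurd hsmall (not_lt.2 (Multiset.one_le_prod fun v hv => ?_))
    obtain ⟨z, hz, rfl⟩ := Multiset.mem_map.1 hv
    simpa using hall z hz
  obtain ⟨w, hw⟩ := exists_point_over W S.Δ_ne_zero z
  rw [mem_roots hf0, IsRoot] at hz
  refine ⟨Point.some z w hw, Point.some_ne_zero hw, (nsmul_eq_zero_iff hw p).2 ?_, ?_⟩
  · rw [ΨSq_ofNat, if_neg (Nat.not_even_iff_odd.2 hodd), mul_one, eval_pow, hz,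
      zero_pow two_ne_zero]
  · rw [hS.inE0_iff hW (Point.some_ne_zero hw)]
    refine Or.inr ?_
    rw [xCoord_some, show z - S.e₁ = (x - S.e₁) + -(x - z) by ring, val_add_eq_left]
    · exact hxu
    · rw [Valuation.map_neg, hxu]; exact hzlt

end Node

end FermatAgent.Mazur
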