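import Fermat.Agent.Mazur.FreyQuotient
import Fermat.Prelude.Def_EllipticCurve_ZeroComponentAt

/-!
No cofixed line on the Frey curve, granted Mazur's third step.
-/

set_option autoImplicit false

noncomputable section

open scoped WeierstrassCurve.Affine

namespace FermatAgent.Mazur

open WeierstrassCurve WeierstrassCurve.Affine WeierstrassCurve.Affine.Point FermatAgent.LocalP
open FermatAgent.Local

local notation "Qb" => AlgebraicClosure ℚ

/-- The statement of Mazur's third step. -/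
def StepThree : Prop :=
  ∀ {p : ℕ}, p.Prime → p ∉ ({2, 3, 5, 7, 13} : Finset ℕ) →
    ∀ (W : WeierstrassCurve ℤ), W.Δ ≠ 0 →
    ∀ (Q : ((W.map (Int.castRingHom ℚ))⁄(AlgebraicClosure ℚ)).Point),
    (∀ σ : AlgebraicClosure ℚ ≃ₐ[ℚ] AlgebraicClosure ℚ, σ • Q = Q) → addOrderOf Q = p →
    (2 : ℤ) ∣ W.Δ → ¬ (2 : ℤ) ∣ W.c₄ →
    (∀ A : ValuationSubring (AlgebraicClosure ℚ), A.LiesOverPrime 2 → ¬ W.InZeroComponentAt A Q) →
    (3 : ℤ) ∣ W.Δ → ¬ (3 : ℤ) ∣ W.c₄ →
    (∀ A : ValuationSubring (AlgebraicClosure ℚ), A.LiesOverPrime 3 → ¬ W.InZeroComponentAt A Q) →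
    ∀ {ℓ : ℕ}, ℓ.Prime → ℓ ≠ p → (ℓ : ℤ) ∣ W.Δ → ¬ (ℓ : ℤ) ∣ W.c₄ →
    ∀ (A : ValuationSubring (AlgebraicClosure ℚ)), A.LiesOverPrime ℓ → ¬ W.InZeroComponentAt A Q

/-- The frozen notion of identity component agrees with `InE0`. -/
theorem inZeroComponentAt_iff (W : WeierstrassCurve ℤ) (A : ValuationSubring Qb)
    (Q : (qbarCurve W).Point) : W.InZeroComponentAt A Q ↔ InE0 A (qbarCurve W) Q := by
  have hW := qbarCurve_intCoeffs W A
  have hmap : (intModel hW).map (IsLocalRing.residue A) =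
      W.map (Int.castRingHom (IsLocalRing.ResidueField A)) := by
    have h1 : intModel hW = W.map (Int.castRingHom A) := by
      apply WeierstrassCurve.map_injective A.subtype_injective
      show (intModel hW).map A.subtype = (W.map (Int.castRingHom A)).map A.subtype
      rw [intModel_map hW, qbarCurve_eq, WeierstrassCurve.map_map]
      congr 1
    rw [h1, WeierstrassCurve.map_map]
    congr 1
  rcases Q with _ | ⟨x, y, h⟩
  · exact iff_of_true (Or.inl rfl) trivial
  · constructor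
    · rintro (h0 | ⟨x', y', h', he, hc⟩)
      · exact absurd h0 (Point.some_ne_zero h)
      obtain ⟨rfl, rfl⟩ := (Point.some.injEq ..).mp he
      rcases hc with hx | ⟨hx, hy, hns⟩
      · exact Or.inl hx
      · exact Or.inr ((smoothRed_iff_nonsingular hW h.left hx hy).2 (by rw [hmap]; exact hns))
    · intro hE
      refine Or.inr ⟨x, y, h, rfl, ?_⟩
      rcases hE with hx | hs
      · exact Or.inl hx
      · refine Or.inr ⟨hs.1, y_mem_of_x_mem hW h.left hs.1, ?_⟩
        have := (smoothRed_iff_nonsingular hW h.left hs.1 (y_mem_of_x_mem hW h.left hs.1)).1 hs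
        rwa [hmap] at this

variable {P : FreyPackage} {p : ℕ} [hpf : Fact p.Prime] (D : FreyLine P p)

/-- Mazur's third step puts the line in the component of the origin at every bad place. -/
theorem FreyLine.inAt_bad (h15 : StepThree) (hp : p ∉ ({2, 3, 5, 7, 13} : Finset ℕ)) {ℓ : ℕ}
    (hℓ : ℓ.Prime) (hbad : (ℓ : ℤ) ∣ P.a * P.b * P.c) (A : ValuationSubring Qb)
    (hA : A.LiesOverPrime ℓ) : D.InAt A := by
  have hp5 := D.five_le
  have h2b : ((2 : ℕ) : ℤ) ∣ P.a * P.b * P.c := by exact_mod_cast P.two_dvd_abc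
  have h3b : ((3 : ℕ) : ℤ) ∣ P.a * P.b * P.c := by exact_mod_cast D.three_dvd
  by_cases h23 : ℓ = 2 ∨ ℓ = 3
  · exact D.inAt_two_three h23 hbad hA
  by_cases hlp : ℓ = p
  · subst hlp; exact D.inAt_p hbad hA
  by_contra hout
  obtain ⟨S, -, hS⟩ := exists_node P hℓ hbad
  obtain ⟨Q, hQ0, hQ, hE⟩ := (hS A hA).exists_torsion_inE0 (freyQb_intCoeffs A) hpf.out hp5
    (val_natCast_eq_one hℓ hA fun h => hlp ((Nat.prime_dvd_prime_iff_eq hℓ hpf.out).1 h))
  have hoff : D.L.Off Q := fun n hn => by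
    subst hn
    exact hout (D.inAt_of_ne_zero (fun h => hQ0 (by rw [h, D.L.pt_zero])) hE)
  obtain ⟨W', hΔ, hbadW, himg⟩ := D.exists_quotient
  obtain ⟨Φ, hfix, hord, hpos⟩ := himg Q hQ hoff
  have out : ∀ q : ℕ, q = 2 ∨ q = 3 → (q : ℤ) ∣ P.a * P.b * P.c →
      ∀ B : ValuationSubring Qb, B.LiesOverPrime q → ¬ W'.InZeroComponentAt B Φ := by
    intro q hq hqb B hB hin
    have hq' : q.Prime := by rcases hq with rfl | rfl <;> norm_num
    have hqp : q ≠ p := by rcases hq with rfl | rfl <;> omega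
    refine (hpos q hq' hqp hqb B hB).2 (fun hQE => ?_) (D.inAt_two_three hq hqb hB)
      ((inZeroComponentAt_iff W' B Φ).1 hin)
    obtain ⟨n, hn⟩ := D.mem_line_of_inE0 hq hqb hB hQ hQE
    exact hoff n hn
  have h2 := hbadW 2 Nat.prime_two h2b
  have h3 := hbadW 3 Nat.prime_three h3b
  exact h15 hpf.out hp W' hΔ Φ hfix hord (by exact_mod_cast h2.1) (by exact_mod_cast h2.2)
    (out 2 (Or.inl rfl) h2b) (by exact_mod_cast h3.1) (by exact_mod_cast h3.2)
    (out 3 (Or.inr rfl) h3b) hℓ hlp (hbadW ℓ hℓ hbad).1 (hbadW ℓ hℓ hbad).2 A hA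
    ((inZeroComponentAt_iff W' A Φ).2 ((hpos ℓ hℓ hlp hbad A hA).1 hE hout))

/-- No cofixed line, for `p = 11` and `p ≥ 17`, granted Mazur's third step. -/
theorem no_cofixed_of_stepThree (h15 : StepThree) (P : FreyPackage)
    (hp : P.p ∉ ({2, 3, 5, 7, 13} : Finset ℕ)) :
    ¬ HasGaloisStableCofixedLine (K := AlgebraicClosure ℚ) ℚ P.freyCurve P.p := by
  intro h
  have := Fact.mk P.pp
  obtain ⟨D⟩ := exists_freyLine P h
  exact D.false_of_inAt fun ℓ hℓ hbad A hA => D.inAt_bad h15 hp hℓ hbad A hA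

/-- The frozen form for `p ≥ 17`. -/
theorem no_cofixed_large_of_stepThree (h15 : StepThree) (P : FreyPackage) (hp : 17 ≤ P.p) :
    ¬ HasGaloisStableCofixedLine (K := AlgebraicClosure ℚ) ℚ P.freyCurve P.p :=
  no_cofixed_of_stepThree h15 P (by simp only [Finset.mem_insert, Finset.mem_singleton]; omega)

end FermatAgent.Mazur
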