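import Fermat.Agent.LocalP.XFormulas
import Mathlib

/-!
Weierstrass curves with three given `x`-coordinates of points of order two, and the symmetric
formulas for `x(P ± Q) - e` on them.
-/

set_option autoImplicit false

noncomputable section

namespace FermatAgent.Mazur

open WeierstrassCurve WeierstrassCurve.Affine FermatAgent.LocalP

variable {K : Type*} [Field K] {W : WeierstrassCurve.Affine K}

/-- The roots of the two-division polynomial of a curve. -/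
structure Split (W : WeierstrassCurve.Affine K) where
  /-- first root -/
  e₁ : K
  /-- second root -/
  e₂ : K
  /-- third root -/
  e₃ : K
  hb₂ : W.b₂ = -4 * (e₁ + e₂ + e₃)
  hb₄ : W.b₄ = 2 * (e₁ * e₂ + e₂ * e₃ + e₃ * e₁)
  hb₆ : W.b₆ = -4 * (e₁ * e₂ * e₃)
  h₁₂ : e₁ ≠ e₂
  h₂₃ : e₂ ≠ e₃
  h₃₁ : e₃ ≠ e₁

namespace Split

variable (S : Split W)

/-- Cyclic rotation of the roots. -/
def rot : Split W where
  e₁ := S.e₂
  e₂ := S.e₃
  e₃ := S.e₁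
  hb₂ := by rw [S.hb₂]; ring
  hb₄ := by rw [S.hb₄]; ring
  hb₆ := by rw [S.hb₆]; ring
  h₁₂ := S.h₂₃
  h₂₃ := S.h₃₁
  h₃₁ := S.h₁₂

@[simp] lemma rot_rot_rot : S.rot.rot.rot = S := by cases S; rfl

/-- The constant of the translation by the first point of order two. -/
def c : K := (S.e₁ - S.e₂) * (S.e₁ - S.e₃)

lemma c_ne_zero : S.c ≠ 0 :=
  mul_ne_zero (sub_ne_zero.2 S.h₁₂) (sub_ne_zero.2 S.h₃₁.symm)

/-- The two-division polynomial, factored. -/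
def psi2 (x : K) : K := 4 * ((x - S.e₁) * (x - S.e₂) * (x - S.e₃))

lemma psi2_eq (x : K) :
    4 * x ^ 3 + W.b₂ * x ^ 2 + 2 * W.b₄ * x + W.b₆ = S.psi2 x := by
  rw [S.hb₂, S.hb₄, S.hb₆, psi2]; ring

lemma psi2_rot (x : K) : S.rot.psi2 x = S.psi2 x := by simp only [psi2, rot]; ring

variable [DecidableEq K]

lemma psi2_ne_zero {P : W.Point} (h2 : (2 : ℕ) • P ≠ 0) : S.psi2 (xCoord P) ≠ 0 := by
  rw [← S.psi2_eq]; exact Ψ₂Sq_xCoord_ne_zero h2

lemma sub_root_ne_zero {P : W.Point} (h2 : (2 : ℕ) • P ≠ 0) : xCoord P - S.e₁ ≠ 0 := by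
  intro h
  exact S.psi2_ne_zero h2 (by rw [psi2, h]; ring)

variable [CharZero K]

/-- `(x(P+Q) - e) (x(P-Q) - e) (x(P) - x(Q))²` is a square. -/
lemma sub_mul_sub {P Q : W.Point} (hP : P ≠ 0) (hQ : Q ≠ 0) (hx : xCoord P ≠ xCoord Q) :
    (xCoord (P + Q) - S.e₁) * (xCoord (P - Q) - S.e₁) * (xCoord P - xCoord Q) ^ 2 =
      ((xCoord P - S.e₁) * (xCoord Q - S.e₁) - S.c) ^ 2 := by
  have hs := xCoord_add_add_xCoord_sub hP hQ hx
  have hp := xCoord_add_mul_xCoord_sub hP hQ hx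
  have hb := W.b_relation
  rw [S.hb₂, S.hb₄, S.hb₆] at hb hs
  rw [S.hb₄, S.hb₆] at hp
  rw [c]
  linear_combination hp - S.e₁ * hs - (1 / 4 : K) * hb

/-- The duplication formula. -/
lemma two_nsmul_sub {P : W.Point} (h2 : (2 : ℕ) • P ≠ 0) :
    (xCoord ((2 : ℕ) • P) - S.e₁) * S.psi2 (xCoord P) =
      ((xCoord P - S.e₁) ^ 2 - S.c) ^ 2 := by
  have hd := xCoord_two_nsmul h2
  have hb := W.b_relation
  rw [S.psi2_eq] at hd
  rw [S.hb₄, S.hb₆] at hd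
  rw [S.hb₂, S.hb₄, S.hb₆] at hb
  rw [c]
  simp only [psi2] at hd ⊢
  linear_combination hd - (1 / 4 : K) * hb

omit [DecidableEq K] in
include S in
lemma Δ_ne_zero : W.Δ ≠ 0 := by
  have hΔ : W.Δ = 16 * ((S.e₁ - S.e₂) * (S.e₂ - S.e₃) * (S.e₃ - S.e₁)) ^ 2 := by
    have hb := W.b_relation
    simp only [WeierstrassCurve.Δ]
    rw [S.hb₂, S.hb₄, S.hb₆] at hb ⊢
    linear_combination -((-4 * (S.e₁ + S.e₂ + S.e₃)) ^ 2 / 4) * hb
  rw [hΔ]
  exact mul_ne_zero (by norm_num) (pow_ne_zero 2 (mul_ne_zero (mul_ne_zero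
    (sub_ne_zero.2 S.h₁₂) (sub_ne_zero.2 S.h₂₃)) (sub_ne_zero.2 S.h₃₁)))

omit [CharZero K] in
/-- Points killed by two are the roots. -/
lemma two_nsmul_ne_zero_of_psi2_ne_zero {P : W.Point} (hP : P ≠ 0) (h : S.psi2 (xCoord P) ≠ 0) :
    (2 : ℕ) • P ≠ 0 := by
  rcases P with _ | ⟨x, y, n⟩
  · exact absurd rfl hP
  intro h2
  rw [two_nsmul, ← eq_neg_iff_add_eq_zero, Point.neg_some, Point.some.injEq] at h2
  refine h ?_
  rw [xCoord_some, ← S.psi2_eq, Ψ₂Sq_eval_eq n.left, ← h2.2, sub_self, zero_pow two_ne_zero]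

omit [CharZero K] in
/-- The sum formula. -/
lemma sub_add_sub {P Q : W.Point} (hP : P ≠ 0) (hQ : Q ≠ 0) (hx : xCoord P ≠ xCoord Q) :
    ((xCoord (P + Q) - S.e₁) + (xCoord (P - Q) - S.e₁)) * (xCoord P - xCoord Q) ^ 2 =
      2 * (xCoord P - S.e₁) * (xCoord Q - S.e₁) * ((xCoord P - S.e₁) + (xCoord Q - S.e₁)) +
        4 * (2 * S.e₁ - S.e₂ - S.e₃) * ((xCoord P - S.e₁) * (xCoord Q - S.e₁)) +
        2 * S.c * ((xCoord P - S.e₁) + (xCoord Q - S.e₁)) := by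
  have hs := xCoord_add_add_xCoord_sub hP hQ hx
  rw [S.hb₂, S.hb₄, S.hb₆] at hs
  rw [c]
  linear_combination hs

end Split

end FermatAgent.Mazur
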